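import Fermat.Agent.S55.KG.JH3H604

/-!
# S55, layer KG: semi-local divisibility, finite-level core (helper604)

* `zmod_torsion_div` : in a group `≃+ ZMod t` with `p^K ∣ t`, every class killed by `m`,
  `p^K ∤ m`, is divisible by `p`;
* `card_locSub` : `|D₀| = |locSub φ H x| · c` with `0 < c ≤ [G : H]`;
* `pow_dvd_of_mul` : `p^(K+c) ∣ b·i`, `0 < i ≤ p^c` ⇒ `p^K ∣ b`;
* `jDivCore` : if `p^(K+c)` divides all local degrees `|Gal(F_q/ℚ_q)|`, `q ∈ S`, `[G : H] ≤ p^c`
  and `p^K ∤ m`, then every class of `H²(H, J(F))` killed by `m` is divisible by `p`.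
-/

set_option autoImplicit false

open CategoryTheory groupCohomology

namespace Fermat.Agent.S55.KG.H604

open Fermat.Agent.S55 Fermat.Agent.S55.Tow Fermat.Agent.S55.E1.Lim

/-- In a cyclic group of order `t`, `p^K ∣ t`, every class killed by `m` with `p^K ∤ m` is
divisible by `p`. -/
theorem zmod_torsion_div {A : Type} [AddCommGroup A] (t m p K : ℕ) (hp : p.Prime)
    (hK : p ^ K ∣ t) (hm : ¬ p ^ K ∣ m) (e : A ≃+ ZMod t) (c : A) (hc : m • c = 0) :
    ∃ w : A, c = p • w := by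
  obtain ⟨a, ha⟩ := ZMod.intCast_surjective (e c)
  have h1 : ((m * a : ℤ) : ZMod t) = 0 := by
    have h2 : e (m • c) = 0 := by rw [hc, map_zero]
    rw [map_nsmul, ← ha] at h2
    rw [Int.cast_mul, Int.cast_natCast]
    rwa [nsmul_eq_mul] at h2
  have h3 : (t : ℤ) ∣ m * a := (ZMod.intCast_zmod_eq_zero_iff_dvd _ _).1 h1
  have h4 : p ^ K ∣ m * a.natAbs := by
    have h5 : ((p ^ K : ℕ) : ℤ) ∣ m * a := (Int.natCast_dvd_natCast.2 hK).trans h3
    have h6 := Int.natAbs_dvd_natAbs.2 h5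
    rwa [Int.natAbs_mul, Int.natAbs_natCast, Int.natAbs_natCast] at h6
  have h7 : p ∣ a.natAbs := by
    by_contra hna
    have hcop : Nat.Coprime (p ^ K) a.natAbs :=
      Nat.Coprime.pow_left K ((Nat.Prime.coprime_iff_not_dvd hp).2 hna)
    exact hm (hcop.dvd_of_dvd_mul_right h4)
  have h8 : (p : ℤ) ∣ a := Int.natCast_dvd.2 h7
  obtain ⟨a', rfl⟩ := h8
  refine ⟨e.symm ((a' : ℤ) : ZMod t), ?_⟩
  apply e.injective
  rw [map_nsmul, AddEquiv.apply_symm_apply, ← ha, nsmul_eq_mul, Int.cast_mul, Int.cast_natCast]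

/-- `p^(K+c) ∣ b·i`, `0 < i ≤ p^c` ⇒ `p^K ∣ b`. -/
theorem pow_dvd_of_mul (p K c b i : ℕ) (hp : p.Prime) (hi : i ≠ 0) (hic : i ≤ p ^ c)
    (h : p ^ (K + c) ∣ b * i) : p ^ K ∣ b := by
  have : Fact p.Prime := ⟨hp⟩
  rcases eq_or_ne b 0 with rfl | hb
  · exact dvd_zero _
  have h1 : K + c ≤ padicValNat p (b * i) :=
    (padicValNat_dvd_iff_le (Nat.mul_ne_zero hb hi)).1 h
  rw [padicValNat.mul hb hi] at h1
  have h2 : padicValNat p i ≤ c := by
    have h3 : p ^ padicValNat p i ≤ p ^ c :=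
      (Nat.le_of_dvd (Nat.pos_of_ne_zero hi) pow_padicValNat_dvd).trans hic
    exact (Nat.pow_le_pow_iff_right hp.one_lt).1 h3
  exact (padicValNat_dvd_iff_le hb).2 (by omega)

section Abstract

variable {G D₀ : Type} [Group G] [Group D₀]

/-- `|D₀| = |locSub φ H x| · c` with `0 < c ≤ [G : H]`. -/
theorem card_locSub [Finite G] (φ : D₀ →* G) (H : Subgroup G) (x : G) :
    ∃ c : ℕ, c ≠ 0 ∧ c ≤ H.index ∧ Nat.card D₀ = Nat.card ↥(locSub φ H x) * c := by
  have hH : H.index ≠ 0 := Subgroup.index_ne_zero_of_finite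
  have h1 : (locSub φ H x).index = H.relIndex ((MulAut.conj x⁻¹).toMonoidHom.comp φ).range :=
    Subgroup.index_comap H _
  have h2 : H.relIndex ((MulAut.conj x⁻¹).toMonoidHom.comp φ).range ≤ H.index := by
    have h3 := Subgroup.relIndex_le_of_le_right (H := H)
      (le_top : ((MulAut.conj x⁻¹).toMonoidHom.comp φ).range ≤ ⊤)
      (by rw [Subgroup.relIndex_top_right]; exact hH)
    rwa [Subgroup.relIndex_top_right] at h3
  have h4 : H.relIndex ((MulAut.conj x⁻¹).toMonoidHom.comp φ).range ≠ 0 := by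
    unfold Subgroup.relIndex
    exact Subgroup.index_ne_zero_of_finite
  refine ⟨(locSub φ H x).index, by rw [h1]; exact h4, by rw [h1]; exact h2, ?_⟩
  exact (Subgroup.card_mul_index _).symm

end Abstract

variable {S : Finset Nat.Primes}

/-- **Semi-local divisibility at finite level.** -/
theorem jDivCore (L : Level S) (H : Subgroup L.Gal) (p : ℕ) (hp : p.Prime) (m K c : ℕ)
    (hm : ¬ p ^ K ∣ m) (hH : H.index ≤ p ^ c)
    (hdec : ∀ q ∈ S, p ^ (K + c) ∣ Nat.card (L.Dec q))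
    (y : groupCohomology (Rep.res H.subtype (Jtot L)) 2) (hy : m • y = 0) :
    ∃ w : groupCohomology (Rep.res H.subtype (Jtot L)) 2, y = p • w := by
  refine jCore_div L H 2 m p (fun q x z hz => ?_) y hy
  obtain ⟨i, hi0, hiH, hcard⟩ := card_locSub (L.decHom q.1) H x
  have h1 : p ^ K ∣ Nat.card ↥(jSub L H q.1 x) := by
    refine pow_dvd_of_mul p K c _ i hp hi0 (hiH.trans hH) ?_
    rw [← hcard]
    exact hdec q.1 q.2
  obtain ⟨e⟩ := (locUnits_data L q.1 (jSub L H q.1 x)).2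
  exact zmod_torsion_div _ m p K hp h1 hm e z hz

end Fermat.Agent.S55.KG.H604
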