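import Fermat.Agent.S55.KG.Defs
import Fermat.Agent.S55.Mackey.Classical
import Fermat.Agent.S55.H173.TowerShapiro
import Fermat.Agent.S55.T.SumH635

/-!
# S55, layer KG: the semi-local core (helper604)

Shared core of the leaves KG-J3 (`JH3Spec`) and KG-J2 (`JDivSpec`).

* `locSub φ H x = {t : D₀ | x⁻¹ φ(t) x ∈ H}` for `φ : D₀ →* G`, `H ≤ G`;
* `mackeyInj_bijective` : for `φ` injective, `Hⁿ(H, Res Coind_φ B) ≃ ∏ₓ Hⁿ(locSub φ H x, Res B)`,
  `x` running through the canonical representatives of `φ(D₀) \ G / H`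
  (from helper61's Mackey–Shapiro theorem);
* `jCore` : `Hⁿ(H, J(F)) ≃ ∏_{q ∈ S} ∏ₓ Hⁿ(T_{q,x}, F_qˣ)`, `T_{q,x} ≤ Gal(F_q/ℚ_q)`;
* `jCore_subsingleton`, `jCore_forall` : transfer of properties of the local factors.
-/

set_option autoImplicit false
set_option linter.unusedSectionVars false

open CategoryTheory groupCohomology

namespace Fermat.Agent.S55.KG.H604

open Fermat.Agent.S55 Fermat.Agent.S55.Tow Fermat.Agent.S55.E1.Lim

noncomputable section

/-! ## Abstract Mackey decomposition along an injective homomorphism -/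

section Abstract

variable {k G D₀ : Type} [CommRing k] [Group G] [Group D₀]

/-- `{t : D₀ | x⁻¹ φ(t) x ∈ H}`. -/
def locSub (φ : D₀ →* G) (H : Subgroup G) (x : G) : Subgroup D₀ :=
  H.comap ((MulAut.conj x⁻¹).toMonoidHom.comp φ)

lemma mem_locSub {φ : D₀ →* G} {H : Subgroup G} {x : G} {t : D₀} :
    t ∈ locSub φ H x ↔ x⁻¹ * φ t * x ∈ H := by
  show x⁻¹ * φ t * x⁻¹⁻¹ ∈ H ↔ _
  rw [inv_inv]

/-- `locSub φ H x → H`, `t ↦ x⁻¹ φ(t) x`. -/
def locJ (φ : D₀ →* G) (H : Subgroup G) (x : G) : ↥(locSub φ H x) →* ↥H where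
  toFun t := ⟨x⁻¹ * φ t * x, mem_locSub.1 t.2⟩
  map_one' := by
    apply Subtype.ext
    simp
  map_mul' a b := by
    apply Subtype.ext
    simp [mul_assoc]

/-- `locSub φ H x → φ(D₀)`, `t ↦ φ(t)`. -/
def locK (φ : D₀ →* G) (H : Subgroup G) (x : G) : ↥(locSub φ H x) →* ↥φ.range where
  toFun t := ⟨φ t, ⟨t, rfl⟩⟩
  map_one' := by
    apply Subtype.ext
    simp
  map_mul' a b := by
    apply Subtype.ext
    simp

/-- The index set: the double cosets `φ(D₀) \ G / H`. -/
abbrev Dc (φ : D₀ →* G) (H : Subgroup G) : Type :=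
  DoubleCoset.Quotient (φ.range : Set G) ((H.subtype).range : Set G)

instance [Finite G] (φ : D₀ →* G) (H : Subgroup G) : Finite (Dc φ H) :=
  Quotient.finite _

/-- The Mackey system of the subgroups `locSub φ H x`. -/
theorem isMackeySystem_loc (φ : D₀ →* G) (hφ : Function.Injective φ) (H : Subgroup G) :
    Mackey.IsMackeySystem H.subtype φ.range
      (fun i : Dc φ H => ↥(locSub φ H i.out))
      (fun i => locJ φ H i.out) (fun i => locK φ H i.out) (fun i => i.out) where
  comm := fun i t => by
    show i.out * (i.out⁻¹ * φ t * i.out) = φ t * i.out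
    group
  inj := fun i a b hab => by
    have h1 : i.out⁻¹ * φ a * i.out = i.out⁻¹ * φ b * i.out := congrArg Subtype.val hab
    have h2 : φ a = φ b := mul_left_cancel (mul_right_cancel h1)
    exact Subtype.ext (hφ h2)
  full := fun i h hh => by
    obtain ⟨d, hd⟩ := hh
    have hd' : i.out⁻¹ * φ d * i.out = (h : G) := by
      rw [hd]
      show i.out⁻¹ * (i.out * (h : G) * i.out⁻¹) * i.out = h
      group
    refine ⟨⟨d, mem_locSub.2 (by rw [hd']; exact h.2)⟩, Subtype.ext hd'⟩
  cover := (Mackey.isMackeySystem_doset H.subtype φ.range).cover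
  disj := (Mackey.isMackeySystem_doset H.subtype φ.range).disj

variable {φ : D₀ →* G} (hφ : Function.Injective φ)

/-- Evaluation at `1`: `Res_{φ(D₀)} Coind_φ B ⟶ B` (as a `φ(D₀)`-module). -/
def evOne (B : Rep.{0} k D₀) :
    Rep.res φ.range.subtype (Rep.coind φ B) ⟶ H173.rangeRep hφ B :=
  (Rep.resFunctor φ.range.subtype).map (H173.coindRangeIso hφ B).hom ≫
    Mackey.shapiroEv φ.range (H173.rangeRep hφ B)

lemma evOne_hom_apply (B : Rep.{0} k D₀) (f : (Rep.coind φ B).V) :
    (evOne hφ B).hom f = f.1 1 := rfl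

lemma coindLift_evOne (B : Rep.{0} k D₀) :
    Mackey.coindLift (evOne hφ B) = (H173.coindRangeIso hφ B).hom := by
  ext f g
  show (evOne hφ B).hom ((Rep.coind φ B).ρ g f) = f.1 g
  rw [evOne_hom_apply]
  show f.1 (1 * g) = f.1 g
  rw [one_mul]

lemma coindLift_evOne_bijective (B : Rep.{0} k D₀) :
    Function.Bijective (Mackey.coindLift (evOne hφ B)).hom := by
  rw [coindLift_evOne]
  exact ConcreteCategory.bijective_of_isIso _

/-- The factor of the Mackey system is `Res B`. -/
def locFactorIso (B : Rep.{0} k D₀) (H : Subgroup G) (x : G) (n : ℕ) :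
    groupCohomology (Rep.res (locK φ H x) (H173.rangeRep hφ B)) n ≅
      groupCohomology (T.resSub B (locSub φ H x)) n :=
  groupCohomology.mapIso (A := T.resSub B (locSub φ H x))
    (B := Rep.res (locK φ H x) (H173.rangeRep hφ B)) (MulEquiv.refl _)
    (LinearEquiv.refl k B.V) (fun t => by
      ext b
      show B.ρ ((MonoidHom.ofInjective hφ).symm (locK φ H x t)) b = B.ρ (t : D₀) b
      have h : (MonoidHom.ofInjective hφ).symm (locK φ H x t) = (t : D₀) := by
        rw [MulEquiv.symm_apply_eq]
        exact Subtype.ext rfl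
      rw [h]) n

/-- **Mackey decomposition along an injective homomorphism.** -/
theorem mackeyInj_bijective {φ : D₀ →* G} (hφ : Function.Injective φ) (B : Rep.{0} k D₀)
    (H : Subgroup G) (n : ℕ) :
    ∃ f : groupCohomology (Rep.res H.subtype (Rep.coind φ B)) n →+
        ∀ i : Dc φ H, groupCohomology (T.resSub B (locSub φ H i.out)) n,
      Function.Bijective f := by
  have h := Mackey.mackey_bijective_of_bijective (k := k) (α := H.subtype)
    Subtype.val_injective (isMackeySystem_loc φ hφ H) (evOne hφ B)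
    (coindLift_evOne_bijective hφ B) n
  let g : groupCohomology (Rep.res H.subtype (Rep.coind φ B)) n →+
      ∀ i : Dc φ H, groupCohomology (Rep.res (locK φ H i.out) (H173.rangeRep hφ B)) n :=
    { toFun := fun c i => (map (locJ φ H i.out)
        (Mackey.twEv (isMackeySystem_loc φ hφ H) (evOne hφ B) i) n).hom c
      map_zero' := by
        funext i
        exact map_zero _
      map_add' := fun a b => by
        funext i
        exact map_add _ a b }
  let e : (∀ i : Dc φ H, groupCohomology (Rep.res (locK φ H i.out) (H173.rangeRep hφ B)) n) ≃+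
      ∀ i : Dc φ H, groupCohomology (T.resSub B (locSub φ H i.out)) n :=
    AddEquiv.piCongrRight fun i =>
      (locFactorIso hφ B H i.out n).toLinearEquiv.toAddEquiv
  refine ⟨e.toAddMonoidHom.comp g, ?_⟩
  exact e.bijective.comp h

end Abstract

/-! ## The semi-local modules of the tower -/

variable {S : Finset Nat.Primes}

/-- The local subgroups `T_{q,x} = {t ∈ Gal(F_q/ℚ_q) | x⁻¹ t x ∈ H}`. -/
abbrev jSub (L : Level S) (H : Subgroup L.Gal) (q : Nat.Primes) (x : L.Gal) :
    Subgroup (L.Dec q) :=
  locSub (L.decHom q) H x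

/-- **KG-JCORE.**  `Hⁿ(H, J(F)) ≃ ∏_{q ∈ S} ∏ₓ Hⁿ(T_{q,x}, F_qˣ)`. -/
theorem jCore (L : Level S) (H : Subgroup L.Gal) (n : ℕ) :
    ∃ f : groupCohomology (Rep.res H.subtype (Jtot L)) n →+
        ∀ (q : S) (i : Dc (L.decHom q.1) H),
          groupCohomology (T.resSub (L.locUnits q.1) (jSub L H q.1 i.out)) n,
      Function.Bijective f := by
  have h1 := T.H635.finiteProd ℤ ↥H S (fun q : S => Rep.res H.subtype (L.J q.1))
    (Rep.res H.subtype (Jtot L))
    (fun q => (Rep.resFunctor H.subtype).map (piProj (fun q : S => L.J q.1) q))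
    ⟨fun a b hab => hab, fun y => ⟨y, rfl⟩⟩ n
  choose f hf using fun q : S =>
    mackeyInj_bijective (k := ℤ) (H173.decHom_injective_H173 L q.1) (L.locUnits q.1) H n
  let g : groupCohomology (Rep.res H.subtype (Jtot L)) n →+
      ∀ q : S, groupCohomology (Rep.res H.subtype (L.J q.1)) n :=
    { toFun := fun c q => (T.coeffMap
        ((Rep.resFunctor H.subtype).map (piProj (fun q : S => L.J q.1) q)) n).hom c
      map_zero' := by
        funext q
        exact map_zero _
      map_add' := fun a b => by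
        funext q
        exact map_add _ a b }
  let F : (∀ q : S, groupCohomology (Rep.res H.subtype (L.J q.1)) n) →+
      ∀ (q : S) (i : Dc (L.decHom q.1) H),
        groupCohomology (T.resSub (L.locUnits q.1) (jSub L H q.1 i.out)) n :=
    { toFun := fun c q => f q (c q)
      map_zero' := by
        funext q
        exact map_zero (f q)
      map_add' := fun a b => by
        funext q
        exact map_add (f q) (a q) (b q) }
  refine ⟨F.comp g, ?_⟩
  have hF : Function.Bijective F := by
    constructor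
    · intro a b hab
      funext q
      exact (hf q).1 (congrFun hab q)
    · intro y
      choose z hz using fun q => (hf q).2 (y q)
      exact ⟨z, funext hz⟩
  exact hF.comp h1

/-- Transfer of vanishing. -/
theorem jCore_subsingleton (L : Level S) (H : Subgroup L.Gal) (n : ℕ)
    (hloc : ∀ (q : S) (x : L.Gal),
      Subsingleton (groupCohomology (T.resSub (L.locUnits q.1) (jSub L H q.1 x)) n)) :
    Subsingleton (groupCohomology (Rep.res H.subtype (Jtot L)) n) := by
  obtain ⟨f, hf⟩ := jCore L H n
  have : ∀ (q : S) (i : Dc (L.decHom q.1) H),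
      Subsingleton (groupCohomology (T.resSub (L.locUnits q.1) (jSub L H q.1 i.out)) n) :=
    fun q i => hloc q i.out
  exact hf.1.subsingleton

/-- Transfer of divisibility of torsion: if in every local factor every class killed by `m` is
divisible by `p`, the same holds in `Hⁿ(H, J(F))`. -/
theorem jCore_div (L : Level S) (H : Subgroup L.Gal) (n m p : ℕ)
    (hloc : ∀ (q : S) (x : L.Gal)
      (c : groupCohomology (T.resSub (L.locUnits q.1) (jSub L H q.1 x)) n),
      m • c = 0 → ∃ w, c = p • w)
    (y : groupCohomology (Rep.res H.subtype (Jtot L)) n) (hy : m • y = 0) :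
    ∃ w : groupCohomology (Rep.res H.subtype (Jtot L)) n, y = p • w := by
  obtain ⟨f, hf⟩ := jCore L H n
  have h1 : ∀ (q : S) (i : Dc (L.decHom q.1) H), ∃ w, f y q i = p • w := by
    intro q i
    refine hloc q i.out (f y q i) ?_
    have h2 : f (m • y) q i = m • f y q i := by
      rw [map_nsmul]
      rfl
    rw [← h2, hy, map_zero]
    rfl
  choose w hw using h1
  obtain ⟨z, hz⟩ := hf.2 w
  refine ⟨z, hf.1 ?_⟩
  rw [map_nsmul, hz]
  funext q i
  exact hw q i

end

end Fermat.Agent.S55.KG.H604
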