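import Fermat.Agent.S55.KG.Spec
import Fermat.Agent.S55.KG.JCoreH604
import Fermat.Agent.S55.LocalSpec.H964.Main
import Fermat.Agent.S55.H295.TateSpecs

/-!
# S55, layer KG, leaf KG-J3 (helper604): `H³(H, J(F)) = 0`

`jH3 : JH3Spec`.  Route: the semi-local core `jCore` (Mackey–Shapiro decomposition of
`Hⁿ(H, J(F))` into the groups `Hⁿ(T, F_qˣ)`, `T ≤ Gal(F_q/ℚ_q)`), the class-module property of
`F_qˣ` (helper964's `locUnits_classData` + `T.H53.classModuleOfCyclic`) and Tate's theorem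
`H³ = 0` for class modules (`H295.tateH3`).
-/

set_option autoImplicit false

open CategoryTheory groupCohomology

namespace Fermat.Agent.S55.KG.H604

open Fermat.Agent.S55 Fermat.Agent.S55.Tow Fermat.Agent.S55.E1.Lim

variable {S : Finset Nat.Primes}

/-- The numerical class-module data of `F_qˣ`, for every subgroup of `Gal(F_q/ℚ_q)`. -/
theorem locUnits_data (Lv : Level S) (q : Nat.Primes) (H : Subgroup (Lv.Dec q)) :
    Limits.IsZero (groupCohomology (T.resSub (Lv.locUnits q) H) 1) ∧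
      Nonempty (groupCohomology (T.resSub (Lv.locUnits q) H) 2 ≃+ ZMod (Nat.card H)) :=
  LocalSpec.H964.locUnits_classData LocalSpec.H964.classModuleSpec L.padicInst63 Lv q H

/-- `F_qˣ` is a class module for `Gal(F_q/ℚ_q)`. -/
theorem locUnits_isClassModule (Lv : Level S) (q : Nat.Primes) :
    ∃ γ : groupCohomology (Lv.locUnits q) 2, T.IsClassModule (Lv.locUnits q) γ :=
  (T.H53.classModuleOfCyclic (Lv.Dec q) (Lv.locUnits q)
    (fun H => (locUnits_data Lv q H).1) (fun H => (locUnits_data Lv q H).2)).1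

/-- `H³(T, F_qˣ) = 0` for every subgroup `T ≤ Gal(F_q/ℚ_q)`. -/
theorem locUnits_h3 (Lv : Level S) (q : Nat.Primes) (H : Subgroup (Lv.Dec q)) :
    Subsingleton (groupCohomology (T.resSub (Lv.locUnits q) H) 3) := by
  obtain ⟨γ, hγ⟩ := locUnits_isClassModule Lv q
  exact ModuleCat.subsingleton_of_isZero
    (Fermat.Agent.S55.H295.tateH3 (Lv.Dec q) (Lv.locUnits q) γ hγ H)

/-- **KG-J3.** -/
theorem jH3 : JH3Spec := fun _ Lv H =>
  jCore_subsingleton Lv H 3 (fun q _ => locUnits_h3 Lv q.1 _)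

end Fermat.Agent.S55.KG.H604
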