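import Mathlib

/-!
# S55, layer KG (global Kummer hypotheses), abstract part            (architect: helper183)

Purpose: input A3 of the duality engine (`PT.Surj2GlobSpec`, i.e. `cd_p(G_S) ≤ 2`) from the
finite-level class field theory of the tower, through the closed abstract machine of layer KL.

This file is ABSTRACT and Mathlib-only: towers of groups, systems of modules over a tower,
"eventual" properties of their cohomology classes, and the frozen statements (Spec pattern,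
`def XxxSpec : Prop`, no `sorry`) of the purely formal leaves:

* `ChaseET3Spec` : `colim H³(E)[p] = 0` from a levelwise short exact sequence `E → J → C`;
* `ChaseED2Spec` : `colim H²(E) ⊗ ℤ/p = 0`;
* `CapKerSpec`   : capitulation kills `ker(Hⁿ(C') → Hⁿ(C))`, `p`-primary part (`n = 1, 2`);
* `LiftCapSpec`, `DivCapSpec`, `LiftCycSpec` : formal consequences.

Blueprint with proofs: `coord/S55-KG.md` on `origin/helper183`.
-/

set_option autoImplicit false

open CategoryTheory groupCohomology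

namespace Fermat.Agent.S55.KG

/-! ## Towers of groups and systems of modules -/

/-- A tower of groups: groups `G i` indexed by a preorder, with transition maps
`π h : G j →* G i` for `h : i ≤ j` (think `G i = Gal(F_i/K)`, `F_i ⊂ F_j`). -/
structure GTower where
  /-- the index set ("levels") -/
  ι : Type
  /-- the order on levels -/
  pre : Preorder ι
  /-- the groups -/
  G : ι → Type
  /-- group structures -/
  grp : ∀ i, Group (G i)
  /-- the transition maps -/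
  π : ∀ {i j : ι}, i ≤ j → (G j →* G i)
  /-- transitivity -/
  π_trans : ∀ {i j k : ι} (h : i ≤ j) (h' : j ≤ k) (g : G k), π h (π h' g) = π (h.trans h') g

attribute [instance] GTower.pre GTower.grp

/-- The tower is directed. -/
def GTower.Directed (𝒯 : GTower) : Prop := ∀ i j : 𝒯.ι, ∃ k : 𝒯.ι, i ≤ k ∧ j ≤ k

/-- A system of modules over a tower: a `G i`-module `M i` for every level, with transition maps
`M i → M j` (`i ≤ j`), equivariant along `π`, transitive. -/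
structure GTower.Mod (𝒯 : GTower) where
  /-- the modules -/
  M : ∀ i : 𝒯.ι, Rep.{0} ℤ (𝒯.G i)
  /-- the transition maps -/
  t : ∀ {i j : 𝒯.ι} (h : i ≤ j), Rep.res (𝒯.π h) (M i) ⟶ M j
  /-- transitivity -/
  t_trans : ∀ {i j k : 𝒯.ι} (h : i ≤ j) (h' : j ≤ k) (x : (M i).V),
    (t h').hom ((t h).hom x) = (t (h.trans h')).hom x

namespace GTower.Mod

variable {𝒯 : GTower}

/-- Inflation `Hⁿ(G i, M i) ⟶ Hⁿ(G j, M j)` for `i ≤ j`. -/
noncomputable def infl (X : 𝒯.Mod) {i j : 𝒯.ι} (h : i ≤ j) (n : ℕ) :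
    groupCohomology (X.M i) n ⟶ groupCohomology (X.M j) n :=
  groupCohomology.map (𝒯.π h) (X.t h) n

/-- The class `y` dies at a higher level. -/
def EvZero (X : 𝒯.Mod) (n : ℕ) {i : 𝒯.ι} (y : groupCohomology (X.M i) n) : Prop :=
  ∃ (j : 𝒯.ι) (h : i ≤ j), (X.infl h n).hom y = 0

/-- `colim Hⁿ(M)[p] = 0` (elementwise). -/
def EvTors (X : 𝒯.Mod) (p n : ℕ) : Prop :=
  ∀ (i : 𝒯.ι) (y : groupCohomology (X.M i) n), p • y = 0 → X.EvZero n y

/-- `colim Hⁿ(M) ⊗ ℤ/p = 0` (elementwise): every class becomes divisible by `p`. -/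
def EvDiv (X : 𝒯.Mod) (p n : ℕ) : Prop :=
  ∀ (i : 𝒯.ι) (x : groupCohomology (X.M i) n),
    ∃ (j : 𝒯.ι) (h : i ≤ j) (w : groupCohomology (X.M j) n), (X.infl h n).hom x = p • w

/-- A morphism of systems of modules. -/
structure Hom (X Y : 𝒯.Mod) where
  /-- the levelwise morphisms -/
  f : ∀ i : 𝒯.ι, X.M i ⟶ Y.M i
  /-- compatibility with the transition maps -/
  comm : ∀ {i j : 𝒯.ι} (h : i ≤ j) (x : (X.M i).V),
    (Y.t h).hom ((f i).hom x) = (f j).hom ((X.t h).hom x)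

/-- Composition of morphisms of systems. -/
def Hom.comp {X Y Z : 𝒯.Mod} (φ : Hom X Y) (ψ : Hom Y Z) : Hom X Z where
  f i := φ.f i ≫ ψ.f i
  comm h x := by
    show (Z.t h).hom ((ψ.f _).hom ((φ.f _).hom x)) = (ψ.f _).hom ((φ.f _).hom ((X.t h).hom x))
    rw [ψ.comm h, φ.comm h]

/-- The map induced on cohomology by a morphism of systems. -/
noncomputable def Hom.map {X Y : 𝒯.Mod} (φ : Hom X Y) (i : 𝒯.ι) (n : ℕ) :
    groupCohomology (X.M i) n ⟶ groupCohomology (Y.M i) n :=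
  groupCohomology.map (MonoidHom.id (𝒯.G i)) (φ.f i) n

/-- `E → J → C` is levelwise short exact (elementwise form). -/
def IsSES {E J C : 𝒯.Mod} (φ : Hom E J) (ψ : Hom J C) : Prop :=
  ∀ i : 𝒯.ι, Function.Injective (φ.f i).hom ∧ Function.Surjective (ψ.f i).hom ∧
    ∀ x : (J.M i).V, (ψ.f i).hom x = 0 ↔ ∃ e : (E.M i).V, (φ.f i).hom e = x

/-- Every `p`-torsion class of `Hⁿ(C)` comes, at a higher level, from a `p`-torsion class of
`Hⁿ(J)`. -/
def LiftTors {J C : 𝒯.Mod} (ψ : Hom J C) (p n : ℕ) : Prop :=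
  ∀ (i : 𝒯.ι) (z : groupCohomology (C.M i) n), p • z = 0 →
    ∃ (j : 𝒯.ι) (h : i ≤ j) (t : groupCohomology (J.M j) n),
      p • t = 0 ∧ (ψ.map j n).hom t = (C.infl h n).hom z

/-- Capitulation data for a subsystem `C' ⊂ C`: `C/C'` is torsion, and its `p`-primary part dies
in the tower. -/
def IsCap {C' C : 𝒯.Mod} (incl : Hom C' C) (p : ℕ) : Prop :=
  (∀ i : 𝒯.ι, Function.Injective (incl.f i).hom) ∧
  (∀ (i : 𝒯.ι) (c : (C.M i).V), ∃ m : ℕ, 0 < m ∧ m • c ∈ Set.range (incl.f i).hom) ∧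
  (∀ (i : 𝒯.ι) (c : (C.M i).V) (a : ℕ), p ^ a • c ∈ Set.range (incl.f i).hom →
    ∃ (j : 𝒯.ι) (h : i ≤ j), (C.t h).hom c ∈ Set.range (incl.f j).hom)

end GTower.Mod

/-- The `p`-torsion of `A` is cyclic: any `p`-torsion element is a multiple of any non-zero
`p`-torsion element. -/
def PTorsCyclic (A : Type) [AddCommGroup A] (p : ℕ) : Prop :=
  ∀ z z' : A, p • z = 0 → p • z' = 0 → z' ≠ 0 → ∃ n : ℕ, z = n • z'

open GTower.Mod

/-! ## The formal leaves -/

/-- **KG-AB1** (chase in degree 3).  `E → J → C` levelwise short exact, `colim H³(J)[p] = 0`,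
`colim H²(J) ⊗ ℤ/p = 0`, and `p`-torsion classes of `H²(C)` lift to `p`-torsion classes of `H²(J)`
at a higher level.  Then `colim H³(E)[p] = 0`.

Proof.  `y ∈ H³(E_i)[p]`.  `φ_* y` is `p`-torsion in `H³(J_i)`, so it dies at `j ≥ i`; replace `y`
by its inflation: `y = δ c`, `c ∈ H²(C_j)`.  `δ(p c) = 0`, so `p c = ψ_* x`, `x ∈ H²(J_j)`;
`infl x = p x'` at `k ≥ j`; `c' := infl c - ψ_* x'` is `p`-torsion; `infl c' = ψ_* t` at `m ≥ k`.
Then `infl y = δ(infl c) = δ(ψ_*(t + infl x')) = 0`.  (Long exact sequence of Mathlib;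
naturality of `δ` and of `φ_*`, `ψ_*` with respect to `infl`: `groupCohomology.map` is functorial,
`δ` is natural — see `KL.DeltaNatSpec`, proved on main in `KL/DeltaNatH304.lean`, Mathlib-only.) -/
def ChaseET3Spec : Prop :=
  ∀ (𝒯 : GTower) (E J C : 𝒯.Mod) (φ : Hom E J) (ψ : Hom J C) (p : ℕ), p.Prime → IsSES φ ψ →
    J.EvTors p 3 → J.EvDiv p 2 → LiftTors ψ p 2 → E.EvTors p 3

/-- **KG-AB2** (chase in degree 2).  `E → J → C` levelwise short exact,
`colim H²(J) ⊗ ℤ/p = 0`, `p`-torsion classes of `H²(C)` lift to `p`-torsion classes of `H²(J)` at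
a higher level, and `colim H¹(C) ⊗ ℤ/p = 0`.  Then `colim H²(E) ⊗ ℤ/p = 0`.

Proof.  `x ∈ H²(E_i)`; `infl φ_* x = p z` at `j`; `ζ := ψ_* z` is `p`-torsion, so
`infl ζ = ψ_* t`, `p t = 0`, at `k`; `infl z - t = φ_* w`; `φ_*(infl x - p w) = p t = 0`, so
`infl x - p w = δ c`, `c ∈ H¹(C_k)`; `infl c = p c'` at `m`; `infl x = p (infl w + δ c')`. -/
def ChaseED2Spec : Prop :=
  ∀ (𝒯 : GTower) (E J C : 𝒯.Mod) (φ : Hom E J) (ψ : Hom J C) (p : ℕ), p.Prime → IsSES φ ψ →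
    J.EvDiv p 2 → LiftTors ψ p 2 → C.EvDiv p 1 → E.EvDiv p 2

/-- **KG-AB3a** (capitulation on cohomology).  Finite groups, directed tower, `C' ⊂ C` with
capitulation.  A `p`-primary class `z ∈ Hⁿ(C'_i)` (`n = 1, 2`) which dies in `Hⁿ(C_i)` dies in
`Hⁿ(C'_j)` for some `j ≥ i`.

Proof.  Represent `z` by a cocycle with values in `C'_i`, `= d b` with `b` a cochain with values
in `C_i` (finitely many values).  Some `m > 0` has `m b ∈ C'`; `m = p^a m'`, `p ∤ m'`; capitulation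
applied to the values of `m' b`: at some `j ≥ i` (common upper bound; membership in `C'` is stable
under transition by `incl.comm`), `m' · t(b)` has values in `C'_j`; so `m' · infl z = 0`; as `z` is
`p`-primary, `infl z = 0`. -/
def CapKerSpec : Prop :=
  ∀ (𝒯 : GTower), 𝒯.Directed → (∀ i, Finite (𝒯.G i)) →
    ∀ (C' C : 𝒯.Mod) (incl : Hom C' C) (p : ℕ), p.Prime → IsCap incl p →
    ∀ n : ℕ, n = 1 ∨ n = 2 → ∀ (i : 𝒯.ι) (z : groupCohomology (C'.M i) n) (a : ℕ),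
      p ^ a • z = 0 → (incl.map i n).hom z = 0 → C'.EvZero n z

/-- **KG-AB3b.**  Lifting of `p`-torsion classes of `H²` passes from `C` to the subsystem `C'`
(formal from `CapKerSpec`). -/
def LiftCapSpec : Prop :=
  ∀ (𝒯 : GTower), 𝒯.Directed → (∀ i, Finite (𝒯.G i)) →
    ∀ (J C' C : 𝒯.Mod) (ψ : Hom J C') (incl : Hom C' C) (p : ℕ), p.Prime → IsCap incl p →
      LiftTors (ψ.comp incl) p 2 → LiftTors ψ p 2

/-- **KG-AB3c.**  If the `p`-primary part of `H¹(C_k)` vanishes for all large `k`, then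
`colim H¹(C') ⊗ ℤ/p = 0` (formal from `CapKerSpec`: the prime-to-`p` part of a class of the finite
group `G_i` is divisible by `p`, the `p`-primary part dies). -/
def DivCapSpec : Prop :=
  ∀ (𝒯 : GTower), 𝒯.Directed → (∀ i, Finite (𝒯.G i)) →
    ∀ (C' C : 𝒯.Mod) (incl : Hom C' C) (p : ℕ), p.Prime → IsCap incl p →
      (∀ i : 𝒯.ι, ∃ j : 𝒯.ι, i ≤ j ∧ ∀ k : 𝒯.ι, j ≤ k →
        ∀ (c : groupCohomology (C.M k) 1) (a : ℕ), p ^ a • c = 0 → c = 0) →
      C'.EvDiv p 1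

/-- **KG-AB4.**  If the `p`-torsion of `H²(C_k)` is cyclic for all large `k` and, at arbitrarily
high levels, some `p`-torsion class of `H²(J)` has non-zero image in `H²(C)`, then `p`-torsion
classes of `H²(C)` lift to `p`-torsion classes of `H²(J)` at a higher level. -/
def LiftCycSpec : Prop :=
  ∀ (𝒯 : GTower) (J C : 𝒯.Mod) (ψ : Hom J C) (p : ℕ), p.Prime →
    (∀ i : 𝒯.ι, ∃ j : 𝒯.ι, i ≤ j ∧ ∀ k : 𝒯.ι, j ≤ k →
      PTorsCyclic (groupCohomology (C.M k) 2) p) →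
    (∀ i : 𝒯.ι, ∃ (j : 𝒯.ι) (_ : i ≤ j) (y : groupCohomology (J.M j) 2),
      p • y = 0 ∧ (ψ.map j 2).hom y ≠ 0) →
    LiftTors ψ p 2

/-- **KG-ABS** (goal of the abstract part).  Systems `E → J → C' ⊂ C` over a directed tower of
finite groups with: `E → J → C'` short exact, capitulation for `C' ⊂ C`, `H³(J)[p]` and
`H²(J) ⊗ ℤ/p` eventually zero, the `p`-primary part of `H¹(C)` eventually zero, the `p`-torsion of
`H²(C)` eventually cyclic, local classes surviving in `H²(C)` at arbitrarily high levels.  Then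
`colim H³(E)[p] = 0` and `colim H²(E) ⊗ ℤ/p = 0`. -/
def AbsKummerSpec : Prop :=
  ∀ (𝒯 : GTower), 𝒯.Directed → (∀ i, Finite (𝒯.G i)) →
    ∀ (E J C' C : 𝒯.Mod) (φ : Hom E J) (ψ : Hom J C') (incl : Hom C' C) (p : ℕ), p.Prime →
      IsSES φ ψ → IsCap incl p → J.EvTors p 3 → J.EvDiv p 2 →
      (∀ i : 𝒯.ι, ∃ j : 𝒯.ι, i ≤ j ∧ ∀ k : 𝒯.ι, j ≤ k →
        ∀ (c : groupCohomology (C.M k) 1) (a : ℕ), p ^ a • c = 0 → c = 0) →
      (∀ i : 𝒯.ι, ∃ j : 𝒯.ι, i ≤ j ∧ ∀ k : 𝒯.ι, j ≤ k →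
        PTorsCyclic (groupCohomology (C.M k) 2) p) →
      (∀ i : 𝒯.ι, ∃ (j : 𝒯.ι) (_ : i ≤ j) (y : groupCohomology (J.M j) 2),
        p • y = 0 ∧ ((ψ.comp incl).map j 2).hom y ≠ 0) →
      E.EvTors p 3 ∧ E.EvDiv p 2

/-- The abstract part, assembled. -/
theorem absKummer_of (h1 : ChaseET3Spec) (h2 : ChaseED2Spec) (h3b : LiftCapSpec)
    (h3c : DivCapSpec) (h4 : LiftCycSpec) : AbsKummerSpec := by
  intro 𝒯 hdir hfin E J C' C φ ψ incl p hp hses hcap hJ3 hJ2 hH1 hcyc hloc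
  have hlift : LiftTors ψ p 2 :=
    h3b 𝒯 hdir hfin J C' C ψ incl p hp hcap (h4 𝒯 J C (ψ.comp incl) p hp hcyc hloc)
  exact ⟨h1 𝒯 E J C' φ ψ p hp hses hJ3 hJ2 hlift,
    h2 𝒯 E J C' φ ψ p hp hses hJ2 hlift (h3c 𝒯 hdir hfin C' C incl p hp hcap hH1)⟩

end Fermat.Agent.S55.KG
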