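import Fermat.Agent.S55.KG.Abs

/-!
# S55, layer KG, leaf KG-AB3a `CapKerSpec` (helper454)

Capitulation on cohomology: for a directed tower of finite groups and a subsystem `C' ⊂ C` with
capitulation, a `p`-primary class of `Hⁿ(C'_i)` (`n = 1, 2`) dying in `Hⁿ(C_i)` dies in
`Hⁿ(C'_j)` for some `j ≥ i`.

* `exists_clear` : finitely many elements of `C_i` are moved into `C'_j` by `m' · t_{ij}`,
  `m'` prime to `p`;
* `capKer : CapKerSpec`.
-/

set_option autoImplicit false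
set_option linter.style.haveILetI false

open CategoryTheory groupCohomology

noncomputable section

namespace Fermat.Agent.S55.KG.H454

open Fermat.Agent.S55.KG GTower.Mod

variable {𝒯 : GTower}

/-- transport of membership in `C'` along the tower -/
theorem t_mem_range {C' C : 𝒯.Mod} (incl : Hom C' C) {j k : 𝒯.ι} (h : j ≤ k)
    {x : (C.M j).V} (hx : x ∈ Set.range (incl.f j).hom) :
    (C.t h).hom x ∈ Set.range (incl.f k).hom := by
  obtain ⟨y, rfl⟩ := hx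
  exact ⟨(C'.t h).hom y, (incl.comm h y).symm⟩

theorem nsmul_mem_range {C' C : 𝒯.Mod} (incl : Hom C' C) {j : 𝒯.ι} (n : ℕ)
    {x : (C.M j).V} (hx : x ∈ Set.range (incl.f j).hom) :
    n • x ∈ Set.range (incl.f j).hom := by
  obtain ⟨y, rfl⟩ := hx
  exact ⟨n • y, map_nsmul _ _ _⟩

/-- **Clearing lemma.** Finitely many elements of `C_i` are moved into `C'_j`, `j ≥ i`, by
`m' · t_{ij}` with `m'` prime to `p`. -/
theorem exists_clear (hdir : 𝒯.Directed) {C' C : 𝒯.Mod} (incl : Hom C' C) {p : ℕ}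
    (hp : p.Prime) (hcap : IsCap incl p) (i : 𝒯.ι) {S : Type} (c : S → (C.M i).V)
    (s : Finset S) :
    ∃ (m : ℕ) (j : 𝒯.ι) (h : i ≤ j), ¬ p ∣ m ∧
      ∀ x ∈ s, (C.t h).hom (m • c x) ∈ Set.range (incl.f j).hom := by
  classical
  induction s using Finset.induction_on with
  | empty =>
    exact ⟨1, i, le_refl i, fun h => hp.one_lt.ne' (Nat.dvd_one.mp h), fun x hx => by simp at hx⟩
  | insert x s hxs ih =>
    obtain ⟨m₁, j₁, h₁, hm₁, hs⟩ := ih
    obtain ⟨m, hm0, hm⟩ := hcap.2.1 i (c x)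
    obtain ⟨e, m₂, hm₂, rfl⟩ := Nat.exists_eq_pow_mul_and_not_dvd hm0.ne' p hp.ne_one
    have hx2 : p ^ e • (m₂ • c x) ∈ Set.range (incl.f i).hom := by
      rw [← mul_smul]
      exact hm
    obtain ⟨j₂, h₂, hj₂⟩ := hcap.2.2 i (m₂ • c x) e hx2
    obtain ⟨k, hk₁, hk₂⟩ := hdir j₁ j₂
    refine ⟨m₁ * m₂, k, h₁.trans hk₁, ?_, ?_⟩
    · intro hdvd
      rcases (Nat.Prime.dvd_mul hp).mp hdvd with h | h
      · exact hm₁ h
      · exact hm₂ h
    · intro y hy
      rcases Finset.mem_insert.mp hy with rfl | hy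
      · have h3 := t_mem_range incl hk₂ hj₂
        rw [C.t_trans h₂ hk₂] at h3
        have h4 := nsmul_mem_range incl m₁ h3
        rw [← map_nsmul, ← mul_smul] at h4
        have h5 : (C.t (h₁.trans hk₁)).hom = (C.t (h₂.trans hk₂)).hom := rfl
        rw [h5]
        exact h4
      · have h3 := t_mem_range incl hk₁ (hs y hy)
        rw [C.t_trans h₁ hk₁] at h3
        have h4 := nsmul_mem_range incl m₂ h3
        rw [← map_nsmul, ← mul_smul, mul_comm] at h4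
        exact h4


/-- a class killed by `m` prime to `p` and by `p ^ a` vanishes -/
theorem eq_zero_of_nsmul {A : Type*} [AddCommGroup A] {p m a : ℕ} (hp : p.Prime)
    (hm : ¬ p ∣ m) {y : A} (h1 : m • y = 0) (h2 : p ^ a • y = 0) : y = 0 := by
  have hcop : Nat.Coprime m (p ^ a) :=
    Nat.Coprime.pow_right a ((Nat.Prime.coprime_iff_not_dvd hp).mpr hm).symm
  have hd1 : addOrderOf y ∣ m := addOrderOf_dvd_of_nsmul_eq_zero h1
  have hd2 : addOrderOf y ∣ p ^ a := addOrderOf_dvd_of_nsmul_eq_zero h2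
  have hd : addOrderOf y ∣ 1 := by
    have := Nat.dvd_gcd hd1 hd2
    rwa [hcop.gcd_eq_one] at this
  exact AddMonoid.addOrderOf_eq_one_iff.mp (Nat.dvd_one.mp hd)

/-- equivariance of the transition maps -/
theorem t_smul (X : 𝒯.Mod) {i j : 𝒯.ι} (h : i ≤ j) (g : 𝒯.G j) (x : (X.M i).V) :
    (X.t h).hom ((X.M i).ρ (𝒯.π h g) x) = (X.M j).ρ g ((X.t h).hom x) :=
  Rep.hom_comm_apply (X.t h) g x

theorem incl_smul {C' C : 𝒯.Mod} (incl : Hom C' C) (i : 𝒯.ι) (g : 𝒯.G i) (x : (C'.M i).V) :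
    (incl.f i).hom ((C'.M i).ρ g x) = (C.M i).ρ g ((incl.f i).hom x) :=
  Rep.hom_comm_apply (incl.f i) g x

/-- the case `n = 1` -/
theorem capKer_one (hdir : 𝒯.Directed) {C' C : 𝒯.Mod} (incl : Hom C' C) {p : ℕ}
    (hp : p.Prime) (hcap : IsCap incl p) (i : 𝒯.ι) (z : groupCohomology (C'.M i) 1) (a : ℕ)
    (hz : p ^ a • z = 0) (hz0 : (incl.map i 1).hom z = 0) : C'.EvZero 1 z := by
  induction z using H1_induction_on with
  | h ζ =>
    have h1 : (incl.map i 1).hom ((H1π (C'.M i)).hom ζ) =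
        (H1π (C.M i)).hom (mapCocycles₁ (MonoidHom.id (𝒯.G i)) (incl.f i) ζ) :=
      congr($(H1π_comp_map (A := C'.M i) (B := C.M i) (MonoidHom.id (𝒯.G i)) (incl.f i)) ζ)
    have hz0' : (H1π (C.M i)).hom (mapCocycles₁ (MonoidHom.id (𝒯.G i)) (incl.f i) ζ) = 0 := by
      rw [← h1]; exact hz0
    rw [H1π_eq_zero_iff] at hz0'
    obtain ⟨b, hb⟩ := hz0'
    have hb' : ∀ g : 𝒯.G i, (C.M i).ρ g b - b = (incl.f i).hom (ζ g) := fun g =>
      congrFun hb g
    obtain ⟨m, j, h, hm, hmem⟩ := exists_clear hdir incl hp hcap i (fun _ : Unit => b) {()}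
    obtain ⟨b', hb'j⟩ := hmem () (Finset.mem_singleton_self _)
    refine ⟨j, h, ?_⟩
    have h2 : (C'.infl h 1).hom ((H1π (C'.M i)).hom ζ) =
        (H1π (C'.M j)).hom (mapCocycles₁ (𝒯.π h) (C'.t h) ζ) :=
      congr($(H1π_comp_map (A := C'.M i) (B := C'.M j) (𝒯.π h) (C'.t h)) ζ)
    have hpa : p ^ a • (C'.infl h 1).hom ((H1π (C'.M i)).hom ζ) = 0 := by
      rw [← map_nsmul]
      have : p ^ a • (H1π (C'.M i)).hom ζ = 0 := hz
      rw [this, map_zero]
    refine eq_zero_of_nsmul hp hm ?_ hpa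
    rw [h2, ← map_nsmul, H1π_eq_zero_iff]
    refine ⟨b', ?_⟩
    funext g
    apply hcap.1 j
    show (incl.f j).hom ((C'.M j).ρ g b' - b') =
      (incl.f j).hom (m • (C'.t h).hom (ζ (𝒯.π h g)))
    have hR : (incl.f j).hom (m • (C'.t h).hom (ζ (𝒯.π h g))) =
        m • ((C.M j).ρ g ((C.t h).hom b) - (C.t h).hom b) := by
      rw [map_nsmul, ← incl.comm h, ← hb', map_sub, t_smul]
    have hL : (incl.f j).hom ((C'.M j).ρ g b' - b') =
        m • ((C.M j).ρ g ((C.t h).hom b) - (C.t h).hom b) := by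
      rw [map_sub, incl_smul, hb'j, map_nsmul, map_nsmul, smul_sub]
    rw [hL, hR]


/-- the case `n = 2` -/
theorem capKer_two (hdir : 𝒯.Directed) (hfin : ∀ i, Finite (𝒯.G i)) {C' C : 𝒯.Mod}
    (incl : Hom C' C) {p : ℕ} (hp : p.Prime) (hcap : IsCap incl p) (i : 𝒯.ι)
    (z : groupCohomology (C'.M i) 2) (a : ℕ)
    (hz : p ^ a • z = 0) (hz0 : (incl.map i 2).hom z = 0) : C'.EvZero 2 z := by
  induction z using H2_induction_on with
  | h ζ =>
    have h1 : (incl.map i 2).hom ((H2π (C'.M i)).hom ζ) =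
        (H2π (C.M i)).hom (mapCocycles₂ (MonoidHom.id (𝒯.G i)) (incl.f i) ζ) :=
      congr($(H2π_comp_map (A := C'.M i) (B := C.M i) (MonoidHom.id (𝒯.G i)) (incl.f i)) ζ)
    have hz0' : (H2π (C.M i)).hom (mapCocycles₂ (MonoidHom.id (𝒯.G i)) (incl.f i) ζ) = 0 := by
      rw [← h1]; exact hz0
    rw [H2π_eq_zero_iff] at hz0'
    obtain ⟨b, hb⟩ := hz0'
    have hb' : ∀ g k : 𝒯.G i, (C.M i).ρ g (b k) - b (g * k) + b g =
        (incl.f i).hom (ζ (g, k)) := fun g k => congrFun hb (g, k)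
    haveI := hfin i
    letI : Fintype (𝒯.G i) := Fintype.ofFinite (𝒯.G i)
    obtain ⟨m, j, h, hm, hmem⟩ := exists_clear hdir incl hp hcap i b Finset.univ
    choose b' hb'j using fun g => hmem g (Finset.mem_univ g)
    refine ⟨j, h, ?_⟩
    have h2 : (C'.infl h 2).hom ((H2π (C'.M i)).hom ζ) =
        (H2π (C'.M j)).hom (mapCocycles₂ (𝒯.π h) (C'.t h) ζ) :=
      congr($(H2π_comp_map (A := C'.M i) (B := C'.M j) (𝒯.π h) (C'.t h)) ζ)
    have hpa : p ^ a • (C'.infl h 2).hom ((H2π (C'.M i)).hom ζ) = 0 := by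
      rw [← map_nsmul]
      have : p ^ a • (H2π (C'.M i)).hom ζ = 0 := hz
      rw [this, map_zero]
    refine eq_zero_of_nsmul hp hm ?_ hpa
    rw [h2, ← map_nsmul, H2π_eq_zero_iff]
    refine ⟨fun γ => b' (𝒯.π h γ), ?_⟩
    funext ⟨γ, δ⟩
    apply hcap.1 j
    show (incl.f j).hom ((C'.M j).ρ γ (b' (𝒯.π h δ)) - b' (𝒯.π h (γ * δ)) + b' (𝒯.π h γ)) =
      (incl.f j).hom (m • (C'.t h).hom (ζ (𝒯.π h γ, 𝒯.π h δ)))
    have hR : (incl.f j).hom (m • (C'.t h).hom (ζ (𝒯.π h γ, 𝒯.π h δ))) =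
        m • ((C.M j).ρ γ ((C.t h).hom (b (𝒯.π h δ))) - (C.t h).hom (b (𝒯.π h γ * 𝒯.π h δ)) +
          (C.t h).hom (b (𝒯.π h γ))) := by
      rw [map_nsmul, ← incl.comm h, ← hb', map_add, map_sub, t_smul]
    have hL : (incl.f j).hom ((C'.M j).ρ γ (b' (𝒯.π h δ)) - b' (𝒯.π h (γ * δ)) +
          b' (𝒯.π h γ)) =
        m • ((C.M j).ρ γ ((C.t h).hom (b (𝒯.π h δ))) - (C.t h).hom (b (𝒯.π h γ * 𝒯.π h δ)) +
          (C.t h).hom (b (𝒯.π h γ))) := by
      rw [map_add, map_sub, incl_smul, hb'j, hb'j, hb'j, map_mul, map_nsmul, map_nsmul,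
        map_nsmul, map_nsmul, smul_add, smul_sub]
    rw [hL, hR]

/-- **KG-AB3a.** Capitulation on cohomology. -/
theorem capKer : CapKerSpec := by
  intro 𝒯 hdir hfin C' C incl p hp hcap n hn i z a hz hz0
  rcases hn with rfl | rfl
  · exact capKer_one hdir incl hp hcap i z a hz hz0
  · exact capKer_two hdir hfin incl hp hcap i z a hz hz0

end Fermat.Agent.S55.KG.H454

end
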