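import Fermat.Agent.S55.KG.ChaseToolsH798

/-!
# S55, layer KG, leaf KG-AB2 (helper798): `chaseED2 : ChaseED2Spec`

The chase in degree 2 of `KG/Abs.lean`: for a levelwise short exact sequence `E → J → C`,
`colim H²(J) ⊗ ℤ/p = 0`, lifting of `p`-torsion of `H²(C)` and `colim H¹(C) ⊗ ℤ/p = 0` give
`colim H²(E) ⊗ ℤ/p = 0`.
-/

set_option autoImplicit false

open CategoryTheory groupCohomology

namespace Fermat.Agent.S55.KG.H798

open Fermat.Agent.S55.KG GTower.Mod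

/-- **KG-AB2.** -/
theorem chaseED2 : ChaseED2Spec := by
  intro 𝒯 E J C φ ψ p _ hses hJ hlift hC i x
  -- step 1: `infl φ_* x = p z`
  obtain ⟨j, h1, z, hz⟩ := hJ i ((φ.map i 2).hom x)
  -- step 2: `ζ = ψ_* z` is `p`-torsion
  have hζ : p • (ψ.map j 2).hom z = 0 := by
    rw [← map_nsmul, ← hz, infl_map φ h1 2 x]
    exact map_map_eq_zero φ ψ hses j 2 _
  -- step 3: lift `ζ`
  obtain ⟨k, h2, t, ht0, ht⟩ := hlift j ((ψ.map j 2).hom z) hζ
  -- step 4: `infl z - t = φ_* w`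
  have h4 : (ψ.map k 2).hom ((J.infl h2 2).hom z - t) = 0 := by
    rw [map_sub, ht, ← infl_map ψ h2 2 z, sub_self]
  obtain ⟨w, hw⟩ := exact_mid φ ψ hses k 2 _ h4
  -- step 5: `φ_* (infl x - p w) = 0`
  have h5 : (φ.map k 2).hom ((E.infl (h1.trans h2) 2).hom x - p • w) = 0 := by
    rw [map_sub, map_nsmul, hw, ← infl_map φ (h1.trans h2) 2 x, ← infl_trans J h1 h2 2, hz,
      map_nsmul, smul_sub, ht0, sub_zero, sub_self]
  -- step 6: `infl x - p w = δ c`
  obtain ⟨c, hc⟩ := exact_left φ ψ hses k 1 _ h5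
  -- step 7: `infl c = p c'`
  obtain ⟨m, h3, c', hc'⟩ := hC k c
  -- step 8
  refine ⟨m, (h1.trans h2).trans h3, (del φ ψ hses m 1).hom c' + (E.infl h3 2).hom w, ?_⟩
  have h8 : (E.infl (h1.trans h2) 2).hom x = (del φ ψ hses k 1).hom c + p • w := by
    rw [hc, sub_add_cancel]
  rw [← infl_trans E (h1.trans h2) h3 2 x, h8, map_add, map_nsmul, del_infl φ ψ hses h3 1 c, hc',
    map_nsmul, smul_add]

end Fermat.Agent.S55.KG.H798
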