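import Fermat.Agent.S55.KG.Abs
import Fermat.Agent.S55.H783.Natural

/-!
# S55, layer KG, leaf KG-AB1 (subtask 600; helper206): the chase in degree 3

`chaseET3 : ChaseET3Spec`.  Also the general tools for chases over a tower (reusable for
KG-AB2): levelwise short exact sequences `ses`, exactness of the long exact sequence in
elementwise form (`exists_δ_eq`, `exists_map_g_eq`, `exists_map_f_eq`, `δ_map_g`, `map_f_δ`),
transitivity of inflation (`infl_trans`), naturality of `φ_*` and of `δ` with respect to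
inflation (`infl_map`, `infl_δ`).
-/

set_option autoImplicit false

open CategoryTheory groupCohomology

namespace Fermat.Agent.S55.KG.H206

open GTower.Mod

section General

variable {k : Type} [CommRing k]

/-- Composition of `groupCohomology.map`s, triangle form, elementwise. -/
lemma map_tri_apply {G H K : Type} [Group G] [Group H] [Group K]
    {A : Rep.{0} k K} {B : Rep.{0} k H} {C : Rep.{0} k G} (f : H →* K) (g : G →* H)
    (e : G →* K) (φ : Rep.res f A ⟶ B) (ψ : Rep.res g B ⟶ C) (χ : Rep.res e A ⟶ C)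
    (hfg : f.comp g = e) (h : ∀ a : A.V, ψ.hom (φ.hom a) = χ.hom a) (n : ℕ)
    (x : groupCohomology A n) :
    (groupCohomology.map g ψ n).hom ((groupCohomology.map f φ n).hom x) =
      (groupCohomology.map e χ n).hom x := by
  have h1 : groupCohomology.map f φ n ≫ groupCohomology.map g ψ n =
      groupCohomology.map e χ n := by
    rw [← groupCohomology.map_comp]
    exact groupCohomology.map_congr hfg (LinearMap.ext h) n
  rw [← h1]
  rfl

/-- Composition of `groupCohomology.map`s, square form, elementwise. -/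
lemma map_sq_apply {G H₁ H₂ K : Type} [Group G] [Group H₁] [Group H₂] [Group K]
    {A : Rep.{0} k K} {B₁ : Rep.{0} k H₁} {B₂ : Rep.{0} k H₂} {C : Rep.{0} k G}
    (f₁ : H₁ →* K) (g₁ : G →* H₁) (f₂ : H₂ →* K) (g₂ : G →* H₂)
    (φ₁ : Rep.res f₁ A ⟶ B₁) (ψ₁ : Rep.res g₁ B₁ ⟶ C)
    (φ₂ : Rep.res f₂ A ⟶ B₂) (ψ₂ : Rep.res g₂ B₂ ⟶ C)
    (hfg : f₁.comp g₁ = f₂.comp g₂)
    (h : ∀ a : A.V, ψ₁.hom (φ₁.hom a) = ψ₂.hom (φ₂.hom a)) (n : ℕ)
    (x : groupCohomology A n) :
    (groupCohomology.map g₁ ψ₁ n).hom ((groupCohomology.map f₁ φ₁ n).hom x) =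
      (groupCohomology.map g₂ ψ₂ n).hom ((groupCohomology.map f₂ φ₂ n).hom x) := by
  have h1 : groupCohomology.map f₁ φ₁ n ≫ groupCohomology.map g₁ ψ₁ n =
      groupCohomology.map f₂ φ₂ n ≫ groupCohomology.map g₂ ψ₂ n := by
    rw [← groupCohomology.map_comp, ← groupCohomology.map_comp]
    exact groupCohomology.map_congr hfg (LinearMap.ext h) n
  exact congrArg (fun F => F.hom x) h1

variable {G : Type} [Group G]

/-- Exactness of the long exact sequence at `Hʲ(X₁)`, elementwise. -/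
lemma exists_δ_eq {X : ShortComplex (Rep.{0} k G)} (hX : X.ShortExact) (i j : ℕ) (hij : i + 1 = j)
    (y : groupCohomology X.X₁ j)
    (hy : (groupCohomology.map (MonoidHom.id G) X.f j).hom y = 0) :
    ∃ z : groupCohomology X.X₃ i, (δ hX i j hij).hom z = y := by
  have hex := mapShortComplex₁_exact hX hij
  rw [ShortComplex.moduleCat_exact_iff_ker_sub_range] at hex
  obtain ⟨z, hz⟩ := hex hy
  exact ⟨z, hz⟩

/-- Exactness of the long exact sequence at `Hⁱ(X₃)`, elementwise. -/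
lemma exists_map_g_eq {X : ShortComplex (Rep.{0} k G)} (hX : X.ShortExact) (i j : ℕ)
    (hij : i + 1 = j) (c : groupCohomology X.X₃ i) (hc : (δ hX i j hij).hom c = 0) :
    ∃ x : groupCohomology X.X₂ i, (groupCohomology.map (MonoidHom.id G) X.g i).hom x = c := by
  have hex := mapShortComplex₃_exact hX hij
  rw [ShortComplex.moduleCat_exact_iff_ker_sub_range] at hex
  obtain ⟨z, hz⟩ := hex hc
  exact ⟨z, hz⟩

/-- Exactness of the long exact sequence at `Hⁱ(X₂)`, elementwise. -/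
lemma exists_map_f_eq {X : ShortComplex (Rep.{0} k G)} (hX : X.ShortExact) (i : ℕ)
    (x : groupCohomology X.X₂ i)
    (hx : (groupCohomology.map (MonoidHom.id G) X.g i).hom x = 0) :
    ∃ w : groupCohomology X.X₁ i, (groupCohomology.map (MonoidHom.id G) X.f i).hom w = x := by
  have hex := mapShortComplex₂_exact hX i
  rw [ShortComplex.moduleCat_exact_iff_ker_sub_range] at hex
  obtain ⟨z, hz⟩ := hex hx
  exact ⟨z, hz⟩

/-- `δ ∘ g_* = 0`, elementwise. -/
lemma δ_map_g {X : ShortComplex (Rep.{0} k G)} (hX : X.ShortExact) (i j : ℕ) (hij : i + 1 = j)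
    (w : groupCohomology X.X₂ i) :
    (δ hX i j hij).hom ((groupCohomology.map (MonoidHom.id G) X.g i).hom w) = 0 := by
  have h := (mapShortComplex₃ hX hij).zero
  exact congrArg (fun F => F.hom w) h

/-- `f_* ∘ δ = 0`, elementwise. -/
lemma map_f_δ {X : ShortComplex (Rep.{0} k G)} (hX : X.ShortExact) (i j : ℕ) (hij : i + 1 = j)
    (c : groupCohomology X.X₃ i) :
    (groupCohomology.map (MonoidHom.id G) X.f j).hom ((δ hX i j hij).hom c) = 0 := by
  have h := (mapShortComplex₁ hX hij).zero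
  exact congrArg (fun F => F.hom c) h

/-- A short complex of representations which is short exact elementwise is short exact. -/
lemma shortExact_of_elementwise (X : ShortComplex (Rep.{0} k G))
    (hinj : Function.Injective X.f.hom) (hsurj : Function.Surjective X.g.hom)
    (hex : ∀ x : X.X₂.V, X.g.hom x = 0 → ∃ e : X.X₁.V, X.f.hom e = x) : X.ShortExact where
  exact := by
    rw [← ShortComplex.exact_map_iff_of_faithful _ (forget₂ (Rep.{0} k G) (ModuleCat k)),
      ShortComplex.moduleCat_exact_iff_ker_sub_range]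
    intro b hb
    have hb' : X.g.hom (show X.X₂.V from b) = 0 := hb
    obtain ⟨e, he⟩ := hex _ hb'
    exact ⟨e, he⟩
  mono_f := by
    rw [Rep.mono_iff_injective]
    exact hinj
  epi_g := by
    rw [Rep.epi_iff_surjective]
    exact hsurj

end General

section Tower

variable {𝒯 : GTower}

/-- Transitivity of inflation. -/
lemma infl_trans (X : 𝒯.Mod) {i j l : 𝒯.ι} (h : i ≤ j) (h' : j ≤ l) (n : ℕ)
    (y : groupCohomology (X.M i) n) :
    (X.infl h' n).hom ((X.infl h n).hom y) = (X.infl (h.trans h') n).hom y :=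
  map_tri_apply (𝒯.π h) (𝒯.π h') (𝒯.π (h.trans h')) (X.t h) (X.t h') (X.t (h.trans h'))
    (MonoidHom.ext fun g => 𝒯.π_trans h h' g) (X.t_trans h h') n y

/-- Naturality of the maps induced by a morphism of systems with respect to inflation. -/
lemma infl_map {X Y : 𝒯.Mod} (φ : Hom X Y) {i j : 𝒯.ι} (h : i ≤ j) (n : ℕ)
    (x : groupCohomology (X.M i) n) :
    (Y.infl h n).hom ((φ.map i n).hom x) = (φ.map j n).hom ((X.infl h n).hom x) :=
  map_sq_apply (MonoidHom.id (𝒯.G i)) (𝒯.π h) (𝒯.π h) (MonoidHom.id (𝒯.G j))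
    (φ.f i) (Y.t h) (X.t h) (φ.f j) rfl (φ.comm h) n x

variable {E J C : 𝒯.Mod} {φ : Hom E J} {ψ : Hom J C}

/-- The short complex `E_i → J_i → C_i`. -/
noncomputable def ses (hses : IsSES φ ψ) (i : 𝒯.ι) : ShortComplex (Rep.{0} ℤ (𝒯.G i)) :=
  ShortComplex.mk (φ.f i) (ψ.f i) (by
    apply Rep.hom_ext
    apply DFunLike.ext
    intro e
    exact ((hses i).2.2 ((φ.f i).hom e)).2 ⟨e, rfl⟩)

lemma ses_shortExact (hses : IsSES φ ψ) (i : 𝒯.ι) : (ses hses i).ShortExact :=
  shortExact_of_elementwise (ses hses i) (hses i).1 (hses i).2.1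
    (fun x hx => ((hses i).2.2 x).1 hx)

/-- The morphism of short exact sequences given by the transition maps. -/
noncomputable def sesHom (hses : IsSES φ ψ) {i j : 𝒯.ι} (h : i ≤ j) :
    (ses hses i).map (Rep.resFunctor (𝒯.π h)) ⟶ ses hses j where
  τ₁ := E.t h
  τ₂ := J.t h
  τ₃ := C.t h
  comm₁₂ := by
    apply Rep.hom_ext
    apply DFunLike.ext
    intro e
    exact (φ.comm h e).symm
  comm₂₃ := by
    apply Rep.hom_ext
    apply DFunLike.ext
    intro x
    exact (ψ.comm h x).symm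

/-- The connecting homomorphism `Hᵃ(C_i) ⟶ Hᵇ(E_i)`, `b = a + 1`. -/
noncomputable def dlt (hses : IsSES φ ψ) (i : 𝒯.ι) (a b : ℕ) (hab : a + 1 = b) :
    groupCohomology (C.M i) a ⟶ groupCohomology (E.M i) b :=
  δ (ses_shortExact hses i) a b hab

/-- Exactness at `Hᵇ(E_i)`. -/
lemma exists_dlt_eq (hses : IsSES φ ψ) (i : 𝒯.ι) (a b : ℕ) (hab : a + 1 = b)
    (y : groupCohomology (E.M i) b) (hy : (φ.map i b).hom y = 0) :
    ∃ c : groupCohomology (C.M i) a, (dlt hses i a b hab).hom c = y :=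
  exists_δ_eq (ses_shortExact hses i) a b hab y hy

/-- Exactness at `Hᵃ(C_i)`. -/
lemma exists_psi_eq (hses : IsSES φ ψ) (i : 𝒯.ι) (a b : ℕ) (hab : a + 1 = b)
    (c : groupCohomology (C.M i) a) (hc : (dlt hses i a b hab).hom c = 0) :
    ∃ x : groupCohomology (J.M i) a, (ψ.map i a).hom x = c :=
  exists_map_g_eq (ses_shortExact hses i) a b hab c hc

/-- Exactness at `Hᵃ(J_i)`. -/
lemma exists_phi_eq (hses : IsSES φ ψ) (i : 𝒯.ι) (a : ℕ)
    (x : groupCohomology (J.M i) a) (hx : (ψ.map i a).hom x = 0) :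
    ∃ w : groupCohomology (E.M i) a, (φ.map i a).hom w = x :=
  exists_map_f_eq (ses_shortExact hses i) a x hx

/-- `δ ∘ ψ_* = 0`. -/
lemma dlt_psi (hses : IsSES φ ψ) (i : 𝒯.ι) (a b : ℕ) (hab : a + 1 = b)
    (w : groupCohomology (J.M i) a) : (dlt hses i a b hab).hom ((ψ.map i a).hom w) = 0 :=
  δ_map_g (ses_shortExact hses i) a b hab w

/-- `φ_* ∘ δ = 0`. -/
lemma phi_dlt (hses : IsSES φ ψ) (i : 𝒯.ι) (a b : ℕ) (hab : a + 1 = b)
    (c : groupCohomology (C.M i) a) : (φ.map i b).hom ((dlt hses i a b hab).hom c) = 0 :=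
  map_f_δ (ses_shortExact hses i) a b hab c

/-- Naturality of the connecting homomorphism with respect to inflation. -/
lemma infl_dlt (hses : IsSES φ ψ) {i j : 𝒯.ι} (h : i ≤ j) (a b : ℕ) (hab : a + 1 = b)
    (c : groupCohomology (C.M i) a) :
    (E.infl h b).hom ((dlt hses i a b hab).hom c) =
      (dlt hses j a b hab).hom ((C.infl h a).hom c) := by
  have key := Fermat.Agent.S55.H783.δ_naturality_map (𝒯.π h) (ses_shortExact hses i)
    (ses_shortExact hses j) (sesHom hses h) a b hab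
  exact congrArg (fun F => F.hom c) key

end Tower

/-- **KG-AB1**: the chase in degree 3. -/
theorem chaseET3 : ChaseET3Spec := by
  intro 𝒯 E J C φ ψ p _ hses hJ3 hJ2 hlift i y hy
  -- 1. `φ_* y` dies at a level `j`
  have h1 : p • (φ.map i 3).hom y = 0 := by rw [← map_nsmul, hy, map_zero]
  obtain ⟨j, hij, hj⟩ := hJ3 i _ h1
  have h2 : (φ.map j 3).hom ((E.infl hij 3).hom y) = 0 := by
    rw [← infl_map φ hij 3 y]; exact hj
  -- 2. `infl y = δ c`
  obtain ⟨c, hc⟩ := exists_dlt_eq hses j 2 3 rfl _ h2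
  -- 3. `p • c = ψ_* x`
  have h3 : (dlt hses j 2 3 rfl).hom (p • c) = 0 := by
    rw [map_nsmul, hc, ← map_nsmul, hy, map_zero]
  obtain ⟨x, hx⟩ := exists_psi_eq hses j 2 3 rfl _ h3
  -- 4. `infl x = p • x'` at a level `l`
  obtain ⟨l, hjl, x', hxx'⟩ := hJ2 j x
  -- 5. `c' := infl c - ψ_* x'` is `p`-torsion
  have h5 : p • ((C.infl hjl 2).hom c - (ψ.map l 2).hom x') = 0 := by
    rw [smul_sub, ← map_nsmul, ← hx, ← map_nsmul, ← hxx', infl_map ψ hjl 2 x, sub_self]
  -- 6. `infl c' = ψ_* t` at a level `m`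
  obtain ⟨m, hlm, t, -, htc⟩ := hlift l _ h5
  refine ⟨m, hij.trans (hjl.trans hlm), ?_⟩
  -- 7. conclusion
  have h7 : (C.infl (hjl.trans hlm) 2).hom c =
      (ψ.map m 2).hom (t + (J.infl hlm 2).hom x') := by
    rw [map_add, htc, map_sub, infl_trans C hjl hlm 2 c, infl_map ψ hlm 2 x', sub_add_cancel]
  rw [← infl_trans E hij (hjl.trans hlm) 3 y, ← hc, infl_dlt hses (hjl.trans hlm) 2 3 rfl c, h7]
  exact dlt_psi hses m 2 3 rfl _

end Fermat.Agent.S55.KG.H206
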