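import Fermat.Agent.S55.KG.Abs
import Fermat.Agent.S55.H783.Natural

/-!
# S55, layer KG, leaves KG-AB1 and KG-AB2 (helper774)

The two long-exact-sequence chases over a tower:

* `chaseET3 : ChaseET3Spec`  (`colim H³(E)[p] = 0`),
* `chaseED2 : ChaseED2Spec`  (`colim H²(E) ⊗ ℤ/p = 0`).

Ingredients: the long exact cohomology sequence of Mathlib, functoriality of
`groupCohomology.map`, naturality of `δ` along group homomorphisms (`H783.δ_naturality_map`).
-/

set_option autoImplicit false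

open CategoryTheory groupCohomology

namespace Fermat.Agent.S55.KG.H774

open GTower.Mod

/-! ## Generalities on `groupCohomology.map` -/

section Gen

variable {G H : Type} [Group G] [Group H]

/-- Morphisms of representations are determined by their values. -/
lemma hom_ext_h774 {A B : Rep.{0} ℤ G} (φ φ' : A ⟶ B) (h : ∀ x : A.V, φ.hom x = φ'.hom x) :
    φ = φ' := by
  apply Rep.hom_ext
  exact DFunLike.ext _ _ h

/-- `groupCohomology.map` only depends on the underlying maps. -/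
lemma map_congr_h774 {A : Rep.{0} ℤ H} {B : Rep.{0} ℤ G} {f f' : G →* H} (hf : f = f')
    (φ : Rep.res f A ⟶ B) (φ' : Rep.res f' A ⟶ B) (h : ∀ x : A.V, φ.hom x = φ'.hom x) (n : ℕ)
    (y : groupCohomology A n) :
    (groupCohomology.map f φ n).hom y = (groupCohomology.map f' φ' n).hom y := by
  subst hf
  rw [hom_ext_h774 φ φ' h]

/-- A short complex of representations which is short exact elementwise. -/
lemma shortExact_of_elementwise_h774 {k : Type} [CommRing k] (S : ShortComplex (Rep.{0} k G))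
    (hinj : Function.Injective S.f.hom) (hsurj : Function.Surjective S.g.hom)
    (hex : ∀ x : S.X₂.V, S.g.hom x = 0 → ∃ e : S.X₁.V, S.f.hom e = x) : S.ShortExact where
  exact := by
    rw [← ShortComplex.exact_map_iff_of_faithful _ (forget₂ (Rep.{0} k G) (ModuleCat.{0} k)),
      ShortComplex.moduleCat_exact_iff_ker_sub_range]
    intro x hx
    obtain ⟨e, he⟩ := hex x hx
    exact ⟨e, he⟩
  mono_f := (Rep.mono_iff_injective _).2 hinj
  epi_g := (Rep.epi_iff_surjective _).2 hsurj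

end Gen

/-! ## Functoriality of inflation in a system -/

section Sys

variable {𝒯 : GTower}

/-- Transitivity of inflation. -/
lemma infl_infl (X : 𝒯.Mod) {i j k : 𝒯.ι} (h : i ≤ j) (h' : j ≤ k) (n : ℕ)
    (y : groupCohomology (X.M i) n) :
    (X.infl h' n).hom ((X.infl h n).hom y) = (X.infl (h.trans h') n).hom y := by
  have h1 := groupCohomology.map_comp (𝒯.π h) (𝒯.π h') (X.t h) (X.t h') n
  have h2 : (X.infl h' n).hom ((X.infl h n).hom y) =
      (groupCohomology.map ((𝒯.π h).comp (𝒯.π h'))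
        ((Rep.resFunctor (𝒯.π h')).map (X.t h) ≫ X.t h') n).hom y := by
    rw [h1]
    rfl
  rw [h2]
  exact map_congr_h774 (MonoidHom.ext fun g => 𝒯.π_trans h h' g) _ _
    (fun x => X.t_trans h h' x) n y

/-- Inflation commutes with the maps induced by a morphism of systems. -/
lemma map_infl {X Y : 𝒯.Mod} (φ : Hom X Y) {i j : 𝒯.ι} (h : i ≤ j) (n : ℕ)
    (y : groupCohomology (X.M i) n) :
    (φ.map j n).hom ((X.infl h n).hom y) = (Y.infl h n).hom ((φ.map i n).hom y) := by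
  have h1 := groupCohomology.map_comp (𝒯.π h) (MonoidHom.id (𝒯.G j)) (X.t h) (φ.f j) n
  have h2 := groupCohomology.map_comp (MonoidHom.id (𝒯.G i)) (𝒯.π h) (φ.f i) (Y.t h) n
  have e1 : (φ.map j n).hom ((X.infl h n).hom y) =
      (groupCohomology.map ((𝒯.π h).comp (MonoidHom.id (𝒯.G j)))
        ((Rep.resFunctor (MonoidHom.id (𝒯.G j))).map (X.t h) ≫ φ.f j) n).hom y := by
    rw [h1]
    rfl
  have e2 : (Y.infl h n).hom ((φ.map i n).hom y) =
      (groupCohomology.map ((MonoidHom.id (𝒯.G i)).comp (𝒯.π h))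
        ((Rep.resFunctor (𝒯.π h)).map (φ.f i) ≫ Y.t h) n).hom y := by
    rw [h2]
    rfl
  rw [e1, e2]
  exact map_congr_h774 rfl _ _ (fun x => (φ.comm h x).symm) n y

end Sys

/-! ## The levelwise short exact sequences -/

section SES

variable {𝒯 : GTower} {E J C : 𝒯.Mod} (φ : Hom E J) (ψ : Hom J C)

/-- The short complex `E i → J i → C i`. -/
def sc (hses : IsSES φ ψ) (i : 𝒯.ι) : ShortComplex (Rep.{0} ℤ (𝒯.G i)) :=
  ShortComplex.mk (φ.f i) (ψ.f i)
    (hom_ext_h774 _ _ fun x => ((hses i).2.2 ((φ.f i).hom x)).2 ⟨x, rfl⟩)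

lemma sc_shortExact (hses : IsSES φ ψ) (i : 𝒯.ι) : (sc φ ψ hses i).ShortExact :=
  shortExact_of_elementwise_h774 _ (hses i).1 (hses i).2.1
    (fun x hx => ((hses i).2.2 x).1 hx)

variable (hses : IsSES φ ψ)
include hses

/-- The connecting homomorphism at level `i`. -/
noncomputable def del (i : 𝒯.ι) (a b : ℕ) (hab : a + 1 = b) :
    groupCohomology (C.M i) a → groupCohomology (E.M i) b :=
  fun c => (δ (sc_shortExact φ ψ hses i) a b hab).hom c

lemma del_add (i : 𝒯.ι) (a b : ℕ) (hab : a + 1 = b) (c c' : groupCohomology (C.M i) a) :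
    del φ ψ hses i a b hab (c + c') = del φ ψ hses i a b hab c + del φ ψ hses i a b hab c' :=
  map_add _ _ _

lemma del_nsmul (i : 𝒯.ι) (a b : ℕ) (hab : a + 1 = b) (m : ℕ) (c : groupCohomology (C.M i) a) :
    del φ ψ hses i a b hab (m • c) = m • del φ ψ hses i a b hab c :=
  map_nsmul _ _ _

/-- Exactness at `Hᵇ(E)`. -/
lemma exists_del_eq (i : 𝒯.ι) (a b : ℕ) (hab : a + 1 = b) (y : groupCohomology (E.M i) b)
    (hy : (φ.map i b).hom y = 0) : ∃ c, del φ ψ hses i a b hab c = y := by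
  have hex := mapShortComplex₁_exact (sc_shortExact φ ψ hses i) hab
  rw [ShortComplex.moduleCat_exact_iff_ker_sub_range] at hex
  obtain ⟨z, hz⟩ := hex hy
  exact ⟨z, hz⟩

/-- Exactness at `Hⁿ(J)`. -/
lemma exists_map_eq (i : 𝒯.ι) (n : ℕ) (x : groupCohomology (J.M i) n)
    (hx : (ψ.map i n).hom x = 0) : ∃ w, (φ.map i n).hom w = x := by
  have hex := mapShortComplex₂_exact (sc_shortExact φ ψ hses i) n
  rw [ShortComplex.moduleCat_exact_iff_ker_sub_range] at hex
  obtain ⟨z, hz⟩ := hex hx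
  exact ⟨z, hz⟩

/-- Exactness at `Hᵃ(C)`. -/
lemma exists_map_eq_of_del (i : 𝒯.ι) (a b : ℕ) (hab : a + 1 = b)
    (c : groupCohomology (C.M i) a) (hc : del φ ψ hses i a b hab c = 0) :
    ∃ x, (ψ.map i a).hom x = c := by
  have hex := mapShortComplex₃_exact (sc_shortExact φ ψ hses i) hab
  rw [ShortComplex.moduleCat_exact_iff_ker_sub_range] at hex
  obtain ⟨z, hz⟩ := hex hc
  exact ⟨z, hz⟩

/-- `δ ∘ ψ_* = 0`. -/
lemma del_map (i : 𝒯.ι) (a b : ℕ) (hab : a + 1 = b) (x : groupCohomology (J.M i) a) :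
    del φ ψ hses i a b hab ((ψ.map i a).hom x) = 0 := by
  have h := (mapShortComplex₃ (sc_shortExact φ ψ hses i) hab).zero
  exact congrArg (fun F => F.hom x) h

/-- `φ_* ∘ δ = 0`. -/
lemma map_del (i : 𝒯.ι) (a b : ℕ) (hab : a + 1 = b) (c : groupCohomology (C.M i) a) :
    (φ.map i b).hom (del φ ψ hses i a b hab c) = 0 := by
  have h := (mapShortComplex₁ (sc_shortExact φ ψ hses i) hab).zero
  exact congrArg (fun F => F.hom c) h

/-- `ψ_* ∘ φ_* = 0`. -/
lemma map_map (i : 𝒯.ι) (n : ℕ) (w : groupCohomology (E.M i) n) :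
    (ψ.map i n).hom ((φ.map i n).hom w) = 0 := by
  have h := (mapShortComplex₂ (sc φ ψ hses i) n).zero
  exact congrArg (fun F => F.hom w) h

/-- Naturality of `δ` with respect to inflation. -/
lemma infl_del {i j : 𝒯.ι} (h : i ≤ j) (a b : ℕ) (hab : a + 1 = b)
    (c : groupCohomology (C.M i) a) :
    (E.infl h b).hom (del φ ψ hses i a b hab c) =
      del φ ψ hses j a b hab ((C.infl h a).hom c) := by
  let Φ : (sc φ ψ hses i).map (Rep.resFunctor (𝒯.π h)) ⟶ sc φ ψ hses j :=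
    { τ₁ := E.t h
      τ₂ := J.t h
      τ₃ := C.t h
      comm₁₂ := hom_ext_h774 _ _ fun x => (φ.comm h x).symm
      comm₂₃ := hom_ext_h774 _ _ fun x => (ψ.comm h x).symm }
  have key := Fermat.Agent.S55.H783.δ_naturality_map (𝒯.π h) (sc_shortExact φ ψ hses i)
    (sc_shortExact φ ψ hses j) Φ a b hab
  exact congrArg (fun F => F.hom c) key

end SES

/-! ## The two chases -/

/-- **KG-AB1.** -/
theorem chaseET3 : ChaseET3Spec := by
  intro 𝒯 E J C φ ψ p _ hses hJ3 hJ2 hlift i y hy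
  have h1 : p • (φ.map i 3).hom y = 0 := by rw [← map_nsmul, hy, map_zero]
  obtain ⟨j, hij, hj⟩ := hJ3 i _ h1
  have hy'0 : (φ.map j 3).hom ((E.infl hij 3).hom y) = 0 := by rw [map_infl, hj]
  obtain ⟨c, hc⟩ := exists_del_eq φ ψ hses j 2 3 rfl _ hy'0
  have hpy' : p • (E.infl hij 3).hom y = 0 := by rw [← map_nsmul, hy, map_zero]
  have hpc : del φ ψ hses j 2 3 rfl (p • c) = 0 := by rw [del_nsmul, hc, hpy']
  obtain ⟨x, hx⟩ := exists_map_eq_of_del φ ψ hses j 2 3 rfl (p • c) hpc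
  obtain ⟨k, hjk, x', hx'⟩ := hJ2 j x
  have hpc' : p • ((C.infl hjk 2).hom c - (ψ.map k 2).hom x') = 0 := by
    rw [smul_sub, ← map_nsmul, ← map_nsmul, ← hx', ← hx, map_infl, sub_self]
  obtain ⟨m, hkm, t, -, ht⟩ := hlift k _ hpc'
  refine ⟨m, hij.trans (hjk.trans hkm), ?_⟩
  rw [← infl_infl E hij (hjk.trans hkm), ← hc, infl_del, ← infl_infl C hjk hkm]
  have h2 : (C.infl hjk 2).hom c =
      ((C.infl hjk 2).hom c - (ψ.map k 2).hom x') + (ψ.map k 2).hom x' := by abel
  rw [h2, map_add, ← ht, ← map_infl, ← map_add, del_map]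

/-- **KG-AB2.** -/
theorem chaseED2 : ChaseED2Spec := by
  intro 𝒯 E J C φ ψ p _ hses hJ2 hlift hC1 i x
  obtain ⟨j, hij, z, hz⟩ := hJ2 i ((φ.map i 2).hom x)
  have hζ : p • (ψ.map j 2).hom z = 0 := by
    rw [← map_nsmul, ← hz, ← map_infl, map_map φ ψ hses]
  obtain ⟨k, hjk, t, hpt, ht⟩ := hlift j _ hζ
  have h2 : (ψ.map k 2).hom ((J.infl hjk 2).hom z - t) = 0 := by
    rw [map_sub, map_infl, ht, sub_self]
  obtain ⟨w, hw⟩ := exists_map_eq φ ψ hses k 2 _ h2
  have h3 : (φ.map k 2).hom ((E.infl (hij.trans hjk) 2).hom x - p • w) = 0 := by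
    rw [map_sub, map_nsmul, hw, map_infl, ← infl_infl J hij hjk, hz, map_nsmul, smul_sub, hpt]
    abel
  obtain ⟨c, hc⟩ := exists_del_eq φ ψ hses k 1 2 rfl _ h3
  obtain ⟨m, hkm, c', hc'⟩ := hC1 k c
  refine ⟨m, hij.trans (hjk.trans hkm),
    (E.infl hkm 2).hom w + del φ ψ hses m 1 2 rfl c', ?_⟩
  have h4 : (E.infl (hij.trans hjk) 2).hom x = p • w + del φ ψ hses k 1 2 rfl c := by
    rw [hc]
    abel
  rw [← infl_infl E (hij.trans hjk) hkm, h4, map_add, map_nsmul, infl_del, hc', del_nsmul,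
    smul_add]

end Fermat.Agent.S55.KG.H774
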