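import Fermat.Agent.S55.KG.Abs
import Fermat.Agent.S55.KL.KummerH3H289
import Fermat.Agent.S55.KL.DeltaNatH304

/-!
# S55, layer KG, leaves KG-AB2 and KG-AB1 (helper934): the two formal chases

* `chaseED2 : ChaseED2Spec`  (`colim H²(E) ⊗ ℤ/p = 0`),
* `chaseET3 : ChaseET3Spec`  (`colim H³(E)[p] = 0`),

for a levelwise short exact sequence `E → J → C` of systems of modules over a tower of groups.
Tools: the long exact sequence of Mathlib, naturality of `δ` along group homomorphisms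
(`KL.H304.deltaNat`), functoriality of `groupCohomology.map` (`KL.H289.map_sq_apply`,
`map_tri_apply`).
-/

set_option autoImplicit false
set_option linter.style.haveILetI false

open CategoryTheory groupCohomology

namespace Fermat.Agent.S55.KG.H934

open Fermat.Agent.S55.KG Fermat.Agent.S55.KG.GTower.Mod Fermat.Agent.S55.KL
  Fermat.Agent.S55.KL.H289

/-! ## The long exact sequence, elementwise -/

section LES

variable {k : Type} [CommRing k] {G : Type} [Group G]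

/-- Exactness at `Hⁿ(X₂)`, elementwise. -/
lemma exists_map_f_eq {X : ShortComplex (Rep.{0} k G)} (hX : X.ShortExact) (n : ℕ)
    (z : groupCohomology X.X₂ n)
    (hz : (groupCohomology.map (MonoidHom.id G) X.g n).hom z = 0) :
    ∃ w : groupCohomology X.X₁ n, (groupCohomology.map (MonoidHom.id G) X.f n).hom w = z := by
  have hex := mapShortComplex₂_exact hX n
  rw [ShortComplex.moduleCat_exact_iff_ker_sub_range] at hex
  obtain ⟨w, hw⟩ := hex hz
  exact ⟨w, hw⟩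

/-- Exactness at `Hⁱ(X₃)`, elementwise. -/
lemma exists_map_g_eq {X : ShortComplex (Rep.{0} k G)} (hX : X.ShortExact) (i j : ℕ)
    (hij : i + 1 = j) (c : groupCohomology X.X₃ i) (hc : (δ hX i j hij).hom c = 0) :
    ∃ x : groupCohomology X.X₂ i, (groupCohomology.map (MonoidHom.id G) X.g i).hom x = c := by
  have hex := mapShortComplex₃_exact hX hij
  rw [ShortComplex.moduleCat_exact_iff_ker_sub_range] at hex
  obtain ⟨x, hx⟩ := hex hc
  exact ⟨x, hx⟩

/-- `g_* ∘ f_* = 0`, elementwise. -/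
lemma map_g_map_f {X : ShortComplex (Rep.{0} k G)} (n : ℕ) (w : groupCohomology X.X₁ n) :
    (groupCohomology.map (MonoidHom.id G) X.g n).hom
      ((groupCohomology.map (MonoidHom.id G) X.f n).hom w) = 0 := by
  have h := (mapShortComplex₂ X n).zero
  exact congrArg (fun F => F.hom w) h

/-- The short complex attached to an elementwise exact pair of morphisms. -/
noncomputable def mkSC {A B C : Rep.{0} k G} (f : A ⟶ B) (g : B ⟶ C)
    (hex : ∀ x : B.V, g.hom x = 0 ↔ ∃ e : A.V, f.hom e = x) : ShortComplex (Rep.{0} k G) :=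
  ShortComplex.mk f g (by
    apply Rep.hom_ext
    apply DFunLike.ext
    intro x
    exact (hex _).2 ⟨x, rfl⟩)

lemma mkSC_shortExact {A B C : Rep.{0} k G} (f : A ⟶ B) (g : B ⟶ C)
    (hf : Function.Injective f.hom) (hg : Function.Surjective g.hom)
    (hex : ∀ x : B.V, g.hom x = 0 ↔ ∃ e : A.V, f.hom e = x) : (mkSC f g hex).ShortExact where
  exact := by
    rw [← ShortComplex.exact_map_iff_of_faithful _ (forget₂ (Rep k G) (ModuleCat k)),
      ShortComplex.moduleCat_exact_iff_ker_sub_range]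
    intro b hb
    obtain ⟨e, he⟩ := (hex b).1 hb
    exact ⟨e, he⟩
  mono_f := (Rep.mono_iff_injective _).2 hf
  epi_g := (Rep.epi_iff_surjective _).2 hg

end LES

/-! ## The levelwise short exact sequences of a system -/

section Sys

variable {𝒯 : GTower} {E J C : 𝒯.Mod} (φ : Hom E J) (ψ : Hom J C)

/-- The short complex `E_i → J_i → C_i`. -/
noncomputable def ses (hses : IsSES φ ψ) (i : 𝒯.ι) : ShortComplex (Rep.{0} ℤ (𝒯.G i)) :=
  mkSC (φ.f i) (ψ.f i) (hses i).2.2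

lemma ses_shortExact (hses : IsSES φ ψ) (i : 𝒯.ι) : (ses φ ψ hses i).ShortExact :=
  mkSC_shortExact (φ.f i) (ψ.f i) (hses i).1 (hses i).2.1 (hses i).2.2

/-- transitivity of inflation -/
lemma infl_infl (X : 𝒯.Mod) {i j l : 𝒯.ι} (h : i ≤ j) (h' : j ≤ l) (n : ℕ)
    (x : groupCohomology (X.M i) n) :
    (X.infl h' n).hom ((X.infl h n).hom x) = (X.infl (h.trans h') n).hom x :=
  map_tri_apply (𝒯.π h) (𝒯.π h') (𝒯.π (h.trans h')) (X.t h) (X.t h') (X.t (h.trans h'))
    (MonoidHom.ext fun g => 𝒯.π_trans h h' g) (fun a => X.t_trans h h' a) n x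

/-- a morphism of systems commutes with inflation -/
lemma map_infl {X Y : 𝒯.Mod} (α : Hom X Y) {i j : 𝒯.ι} (h : i ≤ j) (n : ℕ)
    (x : groupCohomology (X.M i) n) :
    (α.map j n).hom ((X.infl h n).hom x) = (Y.infl h n).hom ((α.map i n).hom x) :=
  (map_sq_id (𝒯.π h) (α.f i) (α.f j) (X.t h) (Y.t h) (fun a => α.comm h a) n x).symm

/-- The connecting homomorphism of `E_i → J_i → C_i`, with the types of the system. -/
noncomputable def dlt (hses : IsSES φ ψ) (i : 𝒯.ι) (a b : ℕ) (hab : a + 1 = b) :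
    groupCohomology (C.M i) a →ₗ[ℤ] groupCohomology (E.M i) b :=
  (δ (ses_shortExact φ ψ hses i) a b hab).hom

/-- exactness at `Hᵇ(E_i)` -/
lemma exists_dlt_eq (hses : IsSES φ ψ) (i : 𝒯.ι) (a b : ℕ) (hab : a + 1 = b)
    (y : groupCohomology (E.M i) b) (hy : (φ.map i b).hom y = 0) :
    ∃ c : groupCohomology (C.M i) a, dlt φ ψ hses i a b hab c = y :=
  exists_δ_eq (ses_shortExact φ ψ hses i) a b hab y hy

/-- exactness at `Hᵃ(C_i)` -/
lemma exists_map_ψ_eq (hses : IsSES φ ψ) (i : 𝒯.ι) (a b : ℕ) (hab : a + 1 = b)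
    (c : groupCohomology (C.M i) a) (hc : dlt φ ψ hses i a b hab c = 0) :
    ∃ x : groupCohomology (J.M i) a, (ψ.map i a).hom x = c :=
  exists_map_g_eq (ses_shortExact φ ψ hses i) a b hab c hc

/-- exactness at `Hⁿ(J_i)` -/
lemma exists_map_φ_eq (hses : IsSES φ ψ) (i : 𝒯.ι) (n : ℕ)
    (z : groupCohomology (J.M i) n) (hz : (ψ.map i n).hom z = 0) :
    ∃ w : groupCohomology (E.M i) n, (φ.map i n).hom w = z :=
  exists_map_f_eq (ses_shortExact φ ψ hses i) n z hz

lemma map_ψ_map_φ (hses : IsSES φ ψ) (i : 𝒯.ι) (n : ℕ) (w : groupCohomology (E.M i) n) :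
    (ψ.map i n).hom ((φ.map i n).hom w) = 0 :=
  map_g_map_f (X := ses φ ψ hses i) n w

lemma dlt_map_ψ (hses : IsSES φ ψ) (i : 𝒯.ι) (a b : ℕ) (hab : a + 1 = b)
    (x : groupCohomology (J.M i) a) : dlt φ ψ hses i a b hab ((ψ.map i a).hom x) = 0 :=
  δ_map_g (ses_shortExact φ ψ hses i) a b hab x

/-- naturality of `δ` under inflation -/
lemma dlt_infl (hses : IsSES φ ψ) {i j : 𝒯.ι} (h : i ≤ j) (a b : ℕ) (hab : a + 1 = b)
    (c : groupCohomology (C.M i) a) :
    (E.infl h b).hom (dlt φ ψ hses i a b hab c) =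
      dlt φ ψ hses j a b hab ((C.infl h a).hom c) := by
  have key := H304.deltaNat ℤ (𝒯.G j) (𝒯.G i) (𝒯.π h) (ses φ ψ hses i)
    (ses_shortExact φ ψ hses i) (ses φ ψ hses j) (ses_shortExact φ ψ hses j)
    (E.t h) (J.t h) (C.t h)
    (by
      apply Rep.hom_ext
      apply DFunLike.ext
      intro x
      exact φ.comm h x)
    (by
      apply Rep.hom_ext
      apply DFunLike.ext
      intro x
      exact ψ.comm h x)
    a b hab
  exact congrArg (fun F => F.hom c) key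

end Sys

/-! ## KG-AB2 -/

/-- **KG-AB2.** -/
theorem chaseED2 : ChaseED2Spec := by
  intro 𝒯 E J C φ ψ p _ hses hJ2 hL hC1 i x
  -- 1. `infl φ_* x = p z`
  obtain ⟨j, hij, z, hz⟩ := hJ2 i ((φ.map i 2).hom x)
  -- 2. `ζ = ψ_* z` is `p`-torsion
  have hζ : p • (ψ.map j 2).hom z = 0 := by
    rw [← map_nsmul, ← hz, map_infl ψ hij 2, map_ψ_map_φ φ ψ hses i 2 x, map_zero]
  -- 3. lift `ζ`
  obtain ⟨l, hjl, t, hpt, ht⟩ := hL j _ hζ
  -- 4. `infl z - t = φ_* w`
  have h4 : (ψ.map l 2).hom ((J.infl hjl 2).hom z - t) = 0 := by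
    rw [map_sub, map_infl ψ hjl 2, ht, sub_self]
  obtain ⟨w, hw⟩ := exists_map_φ_eq φ ψ hses l 2 _ h4
  -- 5. `infl x - p w = δ c`
  have h5 : (φ.map l 2).hom ((E.infl (hij.trans hjl) 2).hom x - p • w) = 0 := by
    rw [map_sub, map_nsmul, hw, map_infl φ (hij.trans hjl) 2, ← infl_infl J hij hjl 2, hz,
      map_nsmul, nsmul_sub, hpt, sub_zero, sub_self]
  obtain ⟨c, hc⟩ := exists_dlt_eq φ ψ hses l 1 2 rfl _ h5
  -- 6. `infl c = p c'`
  obtain ⟨m, hlm, c', hc'⟩ := hC1 l c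
  -- 7. conclusion
  refine ⟨m, (hij.trans hjl).trans hlm,
    (E.infl hlm 2).hom w + dlt φ ψ hses m 1 2 rfl c', ?_⟩
  have h7 : (E.infl hlm 2).hom ((E.infl (hij.trans hjl) 2).hom x - p • w) =
      dlt φ ψ hses m 1 2 rfl ((C.infl hlm 1).hom c) := by
    rw [← hc]
    exact dlt_infl φ ψ hses hlm 1 2 rfl c
  rw [map_sub, map_nsmul, infl_infl E (hij.trans hjl) hlm 2, hc', map_nsmul,
    sub_eq_iff_eq_add] at h7
  rw [h7, nsmul_add, add_comm]

/-! ## KG-AB1 -/

/-- **KG-AB1.** -/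
theorem chaseET3 : ChaseET3Spec := by
  intro 𝒯 E J C φ ψ p _ hses hJ3 hJ2 hL i y hy
  -- 1. `φ_* y` dies at `j`
  have hφy : p • (φ.map i 3).hom y = 0 := by rw [← map_nsmul, hy, map_zero]
  obtain ⟨j, hij, hj⟩ := hJ3 i _ hφy
  have h1 : (φ.map j 3).hom ((E.infl hij 3).hom y) = 0 := by
    rw [map_infl φ hij 3]
    exact hj
  -- 2. `infl y = δ c`
  obtain ⟨c, hc⟩ := exists_dlt_eq φ ψ hses j 2 3 rfl _ h1
  -- 3. `p c = ψ_* x`
  have h3 : dlt φ ψ hses j 2 3 rfl (p • c) = 0 := by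
    rw [map_nsmul, hc, ← map_nsmul, hy, map_zero]
  obtain ⟨x, hx⟩ := exists_map_ψ_eq φ ψ hses j 2 3 rfl _ h3
  -- 4. `infl x = p x'`
  obtain ⟨l, hjl, x', hx'l⟩ := hJ2 j x
  -- 5. `c' := infl c - ψ_* x'` is `p`-torsion
  have h5 : p • ((C.infl hjl 2).hom c - (ψ.map l 2).hom x') = 0 := by
    rw [nsmul_sub, ← map_nsmul, ← hx, ← map_infl ψ hjl 2, hx'l, map_nsmul, sub_self]
  -- 6. lift `c'`
  obtain ⟨m, hlm, t, -, ht⟩ := hL l _ h5
  -- 7. conclusion
  refine ⟨m, (hij.trans hjl).trans hlm, ?_⟩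
  have e1 : (C.infl (hjl.trans hlm) 2).hom c =
      (ψ.map m 2).hom (t + (J.infl hlm 2).hom x') := by
    rw [map_add, ht, map_sub, infl_infl C hjl hlm 2, map_infl ψ hlm 2, sub_add_cancel]
  have e2 : (E.infl (hjl.trans hlm) 3).hom ((E.infl hij 3).hom y) = 0 := by
    rw [← hc, dlt_infl φ ψ hses (hjl.trans hlm) 2 3 rfl c, e1]
    exact dlt_map_ψ φ ψ hses m 2 3 rfl _
  rw [← e2]
  exact (infl_infl E hij (hjl.trans hlm) 3 y).symm

end Fermat.Agent.S55.KG.H934
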