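import Fermat.Agent.S55.KG.Abs
import Fermat.Agent.S55.H783.Natural

/-!
# S55, layer KG: tools for the long exact sequence chases (helper798)

For a levelwise short exact sequence `E → J → C` of systems of modules over a tower:
* `infl_map`   : `φ_*` commutes with inflation;
* `infl_trans` : inflation is transitive;
* `del`        : the connecting map `Hⁿ(C_i) → Hⁿ⁺¹(E_i)`, `del_infl` its naturality in the level;
* `exact_mid`, `exact_left`, `exact_right` : the three exactness statements, elementwise;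
* `map_map_eq_zero`, `del_map_eq_zero`, `map_del_eq_zero` : the three compositions vanish.
-/

set_option autoImplicit false

open CategoryTheory groupCohomology

namespace Fermat.Agent.S55.KG.H798

open Fermat.Agent.S55.KG GTower.Mod

noncomputable section

section Generic

variable {G H K : Type} [Group G] [Group H] [Group K]
  {A : Rep.{0} ℤ K} {B : Rep.{0} ℤ H} {C : Rep.{0} ℤ G}

/-- Composition of two maps on cohomology, elementwise, with the composite described pointwise. -/
theorem map_map_apply (f : H →* K) (g : G →* H) (φ : Rep.res f A ⟶ B) (ψ : Rep.res g B ⟶ C)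
    (fg : G →* K) (χ : Rep.res fg A ⟶ C) (hfg : ∀ x, f (g x) = fg x)
    (hχ : ∀ a : A.V, ψ.hom (φ.hom a) = χ.hom a) (n : ℕ) (x : groupCohomology A n) :
    (groupCohomology.map g ψ n).hom ((groupCohomology.map f φ n).hom x) =
      (groupCohomology.map fg χ n).hom x := by
  have h := groupCohomology.map_comp (k := ℤ) f g φ ψ n
  have hfg' : f.comp g = fg := MonoidHom.ext fun x => hfg x
  subst hfg'
  have h2 : groupCohomology.map (f.comp g) ((Rep.resFunctor g).map φ ≫ ψ) n =
      groupCohomology.map (f.comp g) χ n := by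
    congr 1
    apply Rep.Hom.ext
    apply DFunLike.ext
    intro a
    exact hχ a
  have key := h.symm.trans h2
  exact congrArg (fun t => t.hom x) key

end Generic

variable {𝒯 : GTower}

/-- `φ_*` commutes with inflation. -/
theorem infl_map {X Y : 𝒯.Mod} (φ : Hom X Y) {i j : 𝒯.ι} (h : i ≤ j) (n : ℕ)
    (x : groupCohomology (X.M i) n) :
    (Y.infl h n).hom ((φ.map i n).hom x) = (φ.map j n).hom ((X.infl h n).hom x) := by
  have h1 := map_map_apply (MonoidHom.id (𝒯.G i)) (𝒯.π h) (φ.f i) (Y.t h) (𝒯.π h)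
    ((Rep.resFunctor (𝒯.π h)).map (φ.f i) ≫ Y.t h) (fun _ => rfl) (fun _ => rfl) n x
  have h2 := map_map_apply (𝒯.π h) (MonoidHom.id (𝒯.G j)) (X.t h) (φ.f j) (𝒯.π h)
    ((Rep.resFunctor (𝒯.π h)).map (φ.f i) ≫ Y.t h) (fun _ => rfl) (fun a => (φ.comm h a).symm) n x
  exact h1.trans h2.symm

/-- Inflation is transitive. -/
theorem infl_trans (X : 𝒯.Mod) {i j k : 𝒯.ι} (h : i ≤ j) (h' : j ≤ k) (n : ℕ)
    (x : groupCohomology (X.M i) n) :
    (X.infl h' n).hom ((X.infl h n).hom x) = (X.infl (h.trans h') n).hom x :=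
  map_map_apply (𝒯.π h) (𝒯.π h') (X.t h) (X.t h') (𝒯.π (h.trans h')) (X.t (h.trans h'))
    (fun g => 𝒯.π_trans h h' g) (fun a => X.t_trans h h' a) n x


/-- Exactness of a short complex of representations, elementwise. -/
theorem rep_exact_iff798 {k G : Type} [CommRing k] [Group G] (S : ShortComplex (Rep.{0} k G)) :
    S.Exact ↔ ∀ x : S.X₂.V, S.g.hom x = 0 → ∃ y : S.X₁.V, S.f.hom y = x := by
  rw [← ShortComplex.exact_map_iff_of_faithful S (forget₂ (Rep.{0} k G) (ModuleCat.{0} k)),
    ShortComplex.moduleCat_exact_iff]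
  rfl

variable {𝒯 : GTower} {E J C : 𝒯.Mod} (φ : Hom E J) (ψ : Hom J C)

/-- The short complex `E_i → J_i → C_i`. -/
def sc (hses : IsSES φ ψ) (i : 𝒯.ι) : ShortComplex (Rep.{0} ℤ (𝒯.G i)) :=
  ShortComplex.mk (φ.f i) (ψ.f i) (by
    apply Rep.Hom.ext
    apply DFunLike.ext
    intro x
    exact ((hses i).2.2 ((φ.f i).hom x)).2 ⟨x, rfl⟩)

theorem sc_shortExact (hses : IsSES φ ψ) (i : 𝒯.ι) : (sc φ ψ hses i).ShortExact where
  exact := (rep_exact_iff798 _).2 fun x hx => ((hses i).2.2 x).1 hx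
  mono_f := (Rep.mono_iff_injective _).2 (hses i).1
  epi_g := (Rep.epi_iff_surjective _).2 (hses i).2.1

/-- The connecting map `Hⁿ(C_i) → Hⁿ⁺¹(E_i)`. -/
def del (hses : IsSES φ ψ) (i : 𝒯.ι) (n : ℕ) :
    groupCohomology (C.M i) n ⟶ groupCohomology (E.M i) (n + 1) :=
  groupCohomology.δ (sc_shortExact φ ψ hses i) n (n + 1) rfl

variable (hses : IsSES φ ψ)
include hses

theorem map_map_eq_zero (i : 𝒯.ι) (n : ℕ) (x : groupCohomology (E.M i) n) :
    (ψ.map i n).hom ((φ.map i n).hom x) = 0 := by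
  have h := (groupCohomology.mapShortComplex₂ (sc φ ψ hses i) n).zero
  exact congrArg (fun t => t.hom x) h

theorem exact_mid (i : 𝒯.ι) (n : ℕ) (y : groupCohomology (J.M i) n)
    (hy : (ψ.map i n).hom y = 0) : ∃ w : groupCohomology (E.M i) n, (φ.map i n).hom w = y :=
  (ShortComplex.moduleCat_exact_iff _).1
    (groupCohomology.mapShortComplex₂_exact (sc_shortExact φ ψ hses i) n) y hy

theorem map_del_eq_zero (i : 𝒯.ι) (n : ℕ) (c : groupCohomology (C.M i) n) :
    (φ.map i (n + 1)).hom ((del φ ψ hses i n).hom c) = 0 := by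
  have h := (groupCohomology.mapShortComplex₁ (sc_shortExact φ ψ hses i) (rfl : n + 1 = n + 1)).zero
  exact congrArg (fun t => t.hom c) h

theorem exact_left (i : 𝒯.ι) (n : ℕ) (u : groupCohomology (E.M i) (n + 1))
    (hu : (φ.map i (n + 1)).hom u = 0) :
    ∃ c : groupCohomology (C.M i) n, (del φ ψ hses i n).hom c = u :=
  (ShortComplex.moduleCat_exact_iff _).1
    (groupCohomology.mapShortComplex₁_exact (sc_shortExact φ ψ hses i) (rfl : n + 1 = n + 1)) u hu

theorem del_map_eq_zero (i : 𝒯.ι) (n : ℕ) (y : groupCohomology (J.M i) n) :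
    (del φ ψ hses i n).hom ((ψ.map i n).hom y) = 0 := by
  have h := (groupCohomology.mapShortComplex₃ (sc_shortExact φ ψ hses i) (rfl : n + 1 = n + 1)).zero
  exact congrArg (fun t => t.hom y) h

theorem exact_right (i : 𝒯.ι) (n : ℕ) (z : groupCohomology (C.M i) n)
    (hz : (del φ ψ hses i n).hom z = 0) :
    ∃ y : groupCohomology (J.M i) n, (ψ.map i n).hom y = z :=
  (ShortComplex.moduleCat_exact_iff _).1
    (groupCohomology.mapShortComplex₃_exact (sc_shortExact φ ψ hses i) (rfl : n + 1 = n + 1)) z hz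

/-- The morphism of short complexes `res (E_i → J_i → C_i) ⟶ (E_j → J_j → C_j)`. -/
def scHom {i j : 𝒯.ι} (h : i ≤ j) :
    (sc φ ψ hses i).map (Rep.resFunctor (𝒯.π h)) ⟶ sc φ ψ hses j where
  τ₁ := E.t h
  τ₂ := J.t h
  τ₃ := C.t h
  comm₁₂ := by
    apply Rep.Hom.ext
    apply DFunLike.ext
    intro x
    exact (φ.comm h x).symm
  comm₂₃ := by
    apply Rep.Hom.ext
    apply DFunLike.ext
    intro x
    exact (ψ.comm h x).symm

/-- The connecting map commutes with inflation. -/
theorem del_infl {i j : 𝒯.ι} (h : i ≤ j) (n : ℕ) (c : groupCohomology (C.M i) n) :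
    (E.infl h (n + 1)).hom ((del φ ψ hses i n).hom c) =
      (del φ ψ hses j n).hom ((C.infl h n).hom c) := by
  have key := Fermat.Agent.S55.H783.δ_naturality_map (𝒯.π h) (sc_shortExact φ ψ hses i)
    (sc_shortExact φ ψ hses j) (scHom φ ψ hses h) n (n + 1) rfl
  exact congrArg (fun t => t.hom c) key

end

end Fermat.Agent.S55.KG.H798
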