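import Fermat.Agent.S55.KG.Defs
import Fermat.Agent.S55.KL.Spec

/-!
# S55, layer KG (global Kummer hypotheses): frozen interface, concrete part
                                                                      (architect: helper183)

GOAL of the layer (file `KG/Closed.lean`): input A3 of the duality engine,
`PT.Surj2GlobSpec p S` (`cd_p(G_S) ≤ 2`), via the closed abstract machine of layer KL:

    KL.KummerHyp (globNLevels S) (sUnitsSm S) p   ⇒   KL.CdLeTwo …   ⇒   PT.Surj2GlobSpec p S.

`KummerHyp` for the smooth `S`-units is obtained from the tower: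
* dictionary (`DictEffSpec`, `DictDivSpec`, `DictMuSpec`): finite-level cohomology of
  `(U, sUnitsSm S)` = cohomology of `HU U L = Gal(F/K)` with values in `E(F)`;
* abstract chase (`KG/Abs.lean`, `AbsKummerSpec`) applied to `E → J → C' ⊂ C` over `towerU U S`;
* semi-local leaves `JH3Spec`, `JDivSpec`;
* class-formation leaves `CH1Spec`, `CCycSpec` (from GD1), `SesSpec` (from GD4),
  capitulation (GD5, GD5b: proved in `KG/Closed.lean`);
* ONE new arithmetic input on the tower datum: `TowerDatum.HasLocalClasses`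
  (local classes of order `p` survive in `H²(Gal(F/K), C(F))`), packaged in `GlobalInputSpec`.

Spec pattern: statements only, no `sorry`.  Producers: file `KG/<Leaf>H<seat>.lean`, namespace
`Fermat.Agent.S55.KG.H<seat>`.  Blueprint: `coord/S55-KG.md` on `origin/helper183`.
-/

set_option autoImplicit false

open CategoryTheory groupCohomology

namespace Fermat.Agent.S55.KG

open Fermat.Agent.S55.Tow Fermat.Agent.S55.E1.Lim Fermat.Agent.S55.KL

noncomputable section

variable {S : Finset Nat.Primes}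

/-! ## The global level system and the smooth `S`-units -/

/-- The normal `S`-levels of `G_ℚ`: the subgroups `Gal(ℚ̄/F)`, `F` a level of the tower. -/
def globNLevels (S : Finset Nat.Primes) : NLevels GQ where
  carrier := {W | ∃ L : Level S, W = L.U}
  normal := by
    rintro W ⟨L, rfl⟩
    exact L.normalU
  finiteIndex := by
    rintro W ⟨L, rfl⟩
    have : Finite (GQ ⧸ L.U) := Level.finiteGal L
    exact Subgroup.finiteIndex_of_finite_quotient
  nonempty := ⟨_, Fermat.Agent.S55.E1.H603.levelBot, rfl⟩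
  directed := by
    rintro W ⟨L, rfl⟩ W' ⟨L', rfl⟩
    refine ⟨_, ⟨Fermat.Agent.S55.E1.H603.levelSup L L', rfl⟩, le_inf ?_ ?_⟩
    · exact Level.U_anti (Fermat.Agent.S55.E1.H603.le_levelSup_left L L')
    · exact Level.U_anti (Fermat.Agent.S55.E1.H603.le_levelSup_right L L')

/-- The level of `globNLevels S` attached to a level of the tower. -/
def globLvl (L : Level S) : (globNLevels S).Lvl := ⟨L.U, L, rfl⟩

/-- `x ∈ ℚ̄ˣ` is an `S`-unit (the condition of `Tow.Level.IsSUnit`). -/
def IsSU (S : Finset Nat.Primes) (x : unitsQbar.V) : Prop :=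
  ∀ ℓ : Nat.Primes, ℓ ∉ S → ∀ A : ValuationSubring Qbar, A.LiesOverPrime (ℓ : ℕ) →
    ((Additive.toMul x : Qbarˣ) : Qbar) ∈ A ∧ (((Additive.toMul x)⁻¹ : Qbarˣ) : Qbar) ∈ A

/-- The smooth `S`-units: the elements of `ℚ̄ˣ` fixed by some level, all of whose conjugates are
`S`-units (`= 𝒪_S(ℚ_S)ˣ`, `ℚ_S` the maximal extension unramified outside `S`). -/
def sUnitsSmAdd (S : Finset Nat.Primes) : AddSubgroup unitsQbar.V where
  carrier := {x | (∃ L : Level S, ∀ g ∈ L.U, unitsQbar.ρ g x = x) ∧
    ∀ g : GQ, IsSU S (unitsQbar.ρ g x)}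
  zero_mem' := by
    refine ⟨⟨Fermat.Agent.S55.E1.H603.levelBot, fun g _ => map_zero _⟩, fun g ℓ _ A _ => ?_⟩
    rw [map_zero]
    have h1 : ((Additive.toMul (0 : unitsQbar.V) : Qbarˣ) : Qbar) = 1 := rfl
    have h2 : (((Additive.toMul (0 : unitsQbar.V))⁻¹ : Qbarˣ) : Qbar) = 1 := by
      have : (Additive.toMul (0 : unitsQbar.V) : Qbarˣ) = 1 := rfl
      rw [this, inv_one]
      rfl
    rw [h1, h2]
    exact ⟨A.one_mem, A.one_mem⟩
  add_mem' := by
    rintro a b ⟨⟨L, hL⟩, ha⟩ ⟨⟨L', hL'⟩, hb⟩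
    refine ⟨⟨Fermat.Agent.S55.E1.H603.levelSup L L', fun g hg => ?_⟩, fun g ℓ hℓ A hA => ?_⟩
    · rw [map_add,
        hL g (Level.U_anti (Fermat.Agent.S55.E1.H603.le_levelSup_left L L') hg),
        hL' g (Level.U_anti (Fermat.Agent.S55.E1.H603.le_levelSup_right L L') hg)]
    · rw [map_add]
      obtain ⟨h1, h2⟩ := ha g ℓ hℓ A hA
      obtain ⟨h3, h4⟩ := hb g ℓ hℓ A hA
      have e1 : (Additive.toMul (unitsQbar.ρ g a + unitsQbar.ρ g b) : Qbarˣ) =
          (Additive.toMul (unitsQbar.ρ g a) : Qbarˣ) *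
            (Additive.toMul (unitsQbar.ρ g b) : Qbarˣ) := rfl
      rw [e1, mul_inv, Units.val_mul, Units.val_mul]
      exact ⟨A.mul_mem _ _ h1 h3, A.mul_mem _ _ h2 h4⟩
  neg_mem' := by
    rintro a ⟨⟨L, hL⟩, ha⟩
    refine ⟨⟨L, fun g hg => ?_⟩, fun g ℓ hℓ A hA => ?_⟩
    · rw [map_neg, hL g hg]
    · rw [map_neg]
      obtain ⟨h1, h2⟩ := ha g ℓ hℓ A hA
      have e1 : (Additive.toMul (-(unitsQbar.ρ g a)) : Qbarˣ) =
          (Additive.toMul (unitsQbar.ρ g a) : Qbarˣ)⁻¹ := rfl
      rw [e1, inv_inv]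
      exact ⟨h2, h1⟩

lemma sUnitsSmAdd_stable (S : Finset Nat.Primes) (g : GQ) (x : unitsQbar.V)
    (hx : x ∈ sUnitsSmAdd S) : unitsQbar.ρ g x ∈ sUnitsSmAdd S := by
  obtain ⟨⟨L, hL⟩, hx2⟩ := hx
  refine ⟨⟨L, fun s hs => ?_⟩, fun g' => ?_⟩
  · have h1 : g⁻¹ * s * g ∈ L.U := by
      have := L.normalU.conj_mem s hs g⁻¹
      rwa [inv_inv] at this
    have h2 := hL _ h1
    have h3 : unitsQbar.ρ s (unitsQbar.ρ g x) = unitsQbar.ρ g (unitsQbar.ρ (g⁻¹ * s * g) x) := by
      rw [← Module.End.mul_apply, ← Module.End.mul_apply, ← map_mul, ← map_mul]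
      congr 2
      group
    rw [h3, h2]
  · have := hx2 (g' * g)
    rwa [map_mul] at this

/-- The smooth `S`-units as a `G_ℚ`-module. -/
def sUnitsSm (S : Finset Nat.Primes) : Rep.{0} ℤ GQ :=
  subRep unitsQbar (sUnitsSmAdd S) (sUnitsSmAdd_stable S)

/-! ## Semi-local leaves -/

/-- **KG-J3** (semi-local Tate).  `H³(H, J(F)) = 0` for every subgroup `H ≤ Gal(F/ℚ)`.
(Mackey/Shapiro: `H³(H, J_q(F)) = ∏_{w} H³(H_w, F_wˣ)`, and `H³` of a finite Galois extension of
local fields vanishes: layer L, `L.Closed.h3`.) -/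
def JH3Spec : Prop :=
  ∀ (S : Finset Nat.Primes) (L : Level S) (H : Subgroup L.Gal),
    Subsingleton (groupCohomology (Rep.res H.subtype (Jtot L)) 3)

/-- **KG-J2** (semi-local divisibility).  For `p ∈ S` and `U` open, every class of
`H²(HU U L, J(F))` becomes divisible by `p` at a higher level.
(`H²(H, J(F)) = ∏_w H²(H_w, F_wˣ)`, each factor cyclic of order the local degree; the local
degrees at all places above `S` are `p`-unbounded in the tower: cyclotomic `ℤ_p`-extension,
`p ∈ S`; inflation multiplies invariants by the relative local degree.) -/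
def JDivSpec : Prop :=
  ∀ (S : Finset Nat.Primes) (p : ℕ) (hp : p.Prime), (⟨p, hp⟩ : Nat.Primes) ∈ S →
    ∀ U : Subgroup GQ, IsOpenS S U → (resU U (sysJ S)).EvDiv p 2

/-! ## Class-formation leaves -/

/-- **KG-C1.**  For a tower datum good above `μ_p`: the `p`-primary part of `H¹(H, C(F))` vanishes
for every subgroup `H ≤ Gal(F/ℚ)`, `F ⊇ μ_p`.
(GD1 for a Sylow `p`-subgroup `P` of `H`; restriction to `P` is injective on `p`-primary classes:
layer T `ResIndexSpec` / `CoresSpec`.) -/
def CH1Spec : Prop :=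
  ∀ (S : Finset Nat.Primes) (p : ℕ) (D : TowerDatum S), p.Prime → D.IsGoodMu p →
    ∀ (L : Level S), L.HasMu p → ∀ (H : Subgroup L.Gal)
      (c : groupCohomology (Rep.res H.subtype (D.C L)) 1) (a : ℕ), p ^ a • c = 0 → c = 0

/-- **KG-C2.**  For a tower datum good above `μ_p`: the `p`-torsion of `H²(H, C(F))` is cyclic,
for every subgroup `H ≤ Gal(F/ℚ)`, `F ⊇ μ_p`.
(GD1 for a Sylow `p`-subgroup `P` of `H`: `H²(P, C)` is cyclic; restriction is injective on
`p`-primary classes.) -/
def CCycSpec : Prop :=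
  ∀ (S : Finset Nat.Primes) (p : ℕ) (D : TowerDatum S), p.Prime → D.IsGoodMu p →
    ∀ (L : Level S), L.HasMu p → ∀ (H : Subgroup L.Gal),
      PTorsCyclic (groupCohomology (Rep.res H.subtype (D.C L)) 2) p

/-- **KG-SES.**  `0 → E(F) → J(F) → C'(F) → 0` is exact (`S ≠ ∅`, GD4). -/
def SesSpec : Prop :=
  ∀ (S : Finset Nat.Primes) (D : TowerDatum S) (h7 : TrCompat D) (h7b : TrTrans D),
    S.Nonempty → KerDiag D → GTower.Mod.IsSES (homDiag S) (homJC1 D h7 h7b)

/-- **KG-LOC** (the new arithmetic property of the tower datum).  For every open `U` and every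
level there is a higher level `F'` and a class `y ∈ H²(HU U F', J(F'))` with `p y = 0` whose image
in `H²(HU U F', C(F'))` is non-zero.
(`K` = fixed field of `U`.  For `F' ⊇ K(μ_{p^N})`, `N` large, the decomposition group in
`Gal(F'/K)` of a prime above `p` contains a subgroup `Z` of order `p`; local class of order `p` at
that place; its image in `H²(C)` is non-zero by reciprocity over `K`: REC2-TOW
`SemiLocalInv.locClass` + `KerJSpec`.) -/
def _root_.Fermat.Agent.S55.Tow.TowerDatum.HasLocalClasses (D : TowerDatum S) (p : ℕ) : Prop :=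
  ∀ U : Subgroup GQ, IsOpenS S U → ∀ L : Level S,
    ∃ (L' : Level S) (_ : L ≤ L')
      (y : groupCohomology (Rep.res (HU U L').subtype (Jtot L')) 2),
      p • y = 0 ∧
        (groupCohomology.map (MonoidHom.id ↥(HU U L'))
          ((Rep.resFunctor (HU U L').subtype).map (jTot D L')) 2).hom y ≠ 0

/-- **INPUT of layer KG from layer G**: a tower datum, good in the sense of the engine E1
(`IsGoodFin`), with local classes. -/
def GlobalInputSpec (S : Finset Nat.Primes) (p : ℕ) : Prop :=
  ∃ D : TowerDatum S, D.IsGoodFin p ∧ D.HasLocalClasses p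

/-! ## The arithmetic of the `S`-units in the tower (goal of the chase) -/

/-- **KG-TF** (goal of the tower part).  For every open `U`: `colim H³(HU U F, E(F))[p] = 0` and
`colim H²(HU U F, E(F)) ⊗ ℤ/p = 0`. -/
def TowerKummerSpec (S : Finset Nat.Primes) (p : ℕ) : Prop :=
  ∀ U : Subgroup GQ, IsOpenS S U →
    (resU U (sysE S)).EvTors p 3 ∧ (resU U (sysE S)).EvDiv p 2

/-! ## Dictionary: the tower versus the finite-level cohomology of layer KL -/

/-- **KG-DICT** (formal).  For `U` open: eventual vanishing / divisibility in the tower of `U`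
gives effaceability in the sense of layer KL for `(U, sUnitsSm S)`, in every degree.
(For a level `L` with `L.U ≤ U`: `U/(L.U ∩ U) ≅ HU U L` and `(sUnitsSm S)^{L.U} ≅ E(F)`;
such levels are cofinal; `HL ≅` cohomology of the tower, compatibly with inflation.
Model: `KL/TransportH496.lean`, `KL/LocalH123H775.lean`.) -/
def DictEffSpec : Prop :=
  ∀ (S : Finset Nat.Primes) (p n : ℕ) (U : Subgroup GQ), IsOpenS S U →
    ((resU U (sysE S)).EvTors p n →
      EffTors ((globNLevels S).restrict U) (Rep.res U.subtype (sUnitsSm S)) p n) ∧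
    ((resU U (sysE S)).EvDiv p n →
      EffDiv ((globNLevels S).restrict U) (Rep.res U.subtype (sUnitsSm S)) p n)

/-- **KG-DIV.**  The smooth `S`-units are `p`-divisible (`p ∈ S`): GD9, `Tow.SUnitsDivSpec`
(proved on main: `Bridge.sUnitsDivSpec`). -/
def DictDivSpec : Prop :=
  ∀ (S : Finset Nat.Primes) (p : ℕ), SUnitsDivSpec S p → IsDivisibleBy (sUnitsSm S) p

/-- **KG-MU.**  `μ_p ⊂` smooth `S`-units has order `p` (`μ_p` lives at some level: GD9). -/
def DictMuSpec : Prop :=
  ∀ (S : Finset Nat.Primes) (p : ℕ), p.Prime → SUnitsDivSpec S p →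
    Nat.card (tors (sUnitsSm S) p).V = p

/-- **KG-HYP** (goal of the layer): the hypotheses of the abstract Kummer machine for the smooth
`S`-units. -/
def GlobalKummerHypSpec (S : Finset Nat.Primes) (p : ℕ) : Prop :=
  KummerHyp (globNLevels S) (sUnitsSm S) p

end

end Fermat.Agent.S55.KG
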