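/-
S55 / layer KG, leaves KG-C1 + KG-C2 (subtask 615)                                (helper139)

`cH1 : CH1Spec`, `cCyc : CCycSpec` — for a tower datum good above `μ_p`, a level `F ⊇ μ_p` and
ANY subgroup `H ≤ Gal(F/ℚ)`: the `p`-primary part of `H¹(H, C(F))` vanishes and the `p`-torsion
of `H²(H, C(F))` is cyclic.

Proof.  Let `P` be a Sylow `p`-subgroup of `H`, `P' ≤ Gal(F/ℚ)` its image.  GD1 at `P'`:
`H¹(P', C) = 0` and `H²(P', C)` is generated by one element.  Restriction `Hⁿ(H, C) → Hⁿ(P, C)` is
injective on `p`-primary classes (`T.H572.resIndex`, `p ∤ [H : P]`).  In a group generated by one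
element the `p`-torsion is cyclic (`IsAddCyclic.card_nsmul_eq_zero_le`).
Complete proofs, standard axioms only.
-/
import Fermat.Agent.S55.KG.Spec
import Fermat.Agent.S55.T.CoresH572

set_option autoImplicit false
set_option linter.style.haveILetI false

open CategoryTheory groupCohomology

noncomputable section

namespace Fermat.Agent.S55.KG.H139

open Fermat.Agent.S55 Fermat.Agent.S55.Tow

/-! ## Pure group theory -/

/-- An element killed by two coprime integers is zero. -/
theorem eq_zero_of_coprime_nsmul {A : Type} [AddCommGroup A] {m n : ℕ} (h : Nat.Coprime m n)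
    {x : A} (hm : m • x = 0) (hn : n • x = 0) : x = 0 := by
  have h3 : addOrderOf x ∣ 1 := by
    rw [← Nat.Coprime.gcd_eq_one h]
    exact Nat.dvd_gcd (addOrderOf_dvd_of_nsmul_eq_zero hm) (addOrderOf_dvd_of_nsmul_eq_zero hn)
  exact AddMonoid.addOrderOf_eq_one_iff.1 (Nat.dvd_one.1 h3)

/-- In a finite abelian group generated by one element, the `p`-torsion is cyclic. -/
theorem pTorsCyclic_of_generated {A : Type} [AddCommGroup A] [Finite A] (p : ℕ) (hp : p.Prime)
    (g : A) (hg : ∀ x : A, ∃ n : ℕ, x = n • g) : PTorsCyclic A p := by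
  classical
  intro z z' hz hz' hne
  haveI : Fact p.Prime := ⟨hp⟩
  haveI : IsAddCyclic A := ⟨⟨g, fun x => by
    obtain ⟨n, hn⟩ := hg x
    exact ⟨(n : ℤ), by rw [hn]; simp⟩⟩⟩
  letI : Fintype A := Fintype.ofFinite A
  -- the `p`-torsion has at most `p` elements
  have hle : (Finset.univ.filter fun a : A => p • a = 0).card ≤ p :=
    IsAddCyclic.card_nsmul_eq_zero_le hp.pos
  -- the multiples of `z'` are `p` elements of the `p`-torsion
  have hord : addOrderOf z' = p := addOrderOf_eq_prime hz' hne
  have hsub : (Finset.univ.filter fun a : A => a ∈ AddSubgroup.zmultiples z') ⊆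
      (Finset.univ.filter fun a : A => p • a = 0) := by
    intro a ha
    simp only [Finset.mem_filter, Finset.mem_univ, true_and] at ha ⊢
    obtain ⟨k, rfl⟩ := AddSubgroup.mem_zmultiples_iff.1 ha
    rw [smul_comm, hz', smul_zero]
  have hcardz : (Finset.univ.filter fun a : A => a ∈ AddSubgroup.zmultiples z').card = p := by
    have h1 : Nat.card (AddSubgroup.zmultiples z') = p := by
      rw [Nat.card_zmultiples, hord]
    rw [← h1, Nat.card_eq_fintype_card, Fintype.card_subtype]
  have heq : (Finset.univ.filter fun a : A => a ∈ AddSubgroup.zmultiples z') =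
      (Finset.univ.filter fun a : A => p • a = 0) :=
    Finset.eq_of_subset_of_card_le hsub (by rw [hcardz]; exact hle)
  have hzmem : z ∈ AddSubgroup.zmultiples z' := by
    have : z ∈ (Finset.univ.filter fun a : A => p • a = 0) := by
      simp only [Finset.mem_filter, Finset.mem_univ, true_and]
      exact hz
    rw [← heq] at this
    simpa only [Finset.mem_filter, Finset.mem_univ, true_and] using this
  rw [← mem_multiples_iff_mem_zmultiples] at hzmem
  obtain ⟨n, hn⟩ := hzmem
  exact ⟨n, hn.symm⟩

/-! ## Subgroups of subgroups -/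

section SubSub

variable {k Γ : Type} [CommRing k] [Group Γ] (C : Rep.{0} k Γ) (H : Subgroup Γ)
  (P : Subgroup H)

/-- `Hⁿ(P, C) ≅ Hⁿ(P', C)` for `P ≤ H ≤ Γ` and `P'` the image of `P` in `Γ`. -/
def subSubIso (n : ℕ) :
    groupCohomology (T.resSub (T.resSub C H) P) n ≅
      groupCohomology (T.resSub C (P.map H.subtype)) n :=
  groupCohomology.mapIso (A := T.resSub C (P.map H.subtype)) (B := T.resSub (T.resSub C H) P)
    (P.equivMapOfInjective H.subtype H.subtype_injective) (LinearEquiv.refl k C.V)
    (fun _ => rfl) n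

end SubSub

/-! ## Class modules at `p` and arbitrary subgroups -/

section ClassModule

variable {Γ : Type} [Group Γ] [Finite Γ] (p : ℕ) (hp : p.Prime) (C : Rep.{0} ℤ Γ)
  (γ : groupCohomology C 2) (hC : E1.IsClassModuleAt p C γ) (H : Subgroup Γ)

include hp hC

/-- The `p`-primary part of `H¹(H, C)` vanishes, for every subgroup `H`. -/
theorem h1_eq_zero_of_isClassModuleAt (c : groupCohomology (T.resSub C H) 1) (a : ℕ)
    (hc : p ^ a • c = 0) : c = 0 := by
  classical
  haveI : Fact p.Prime := ⟨hp⟩
  obtain ⟨P⟩ : Nonempty (Sylow p H) := inferInstance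
  have hP' : IsPGroup p ((P : Subgroup H).map H.subtype) := P.isPGroup'.map H.subtype
  obtain ⟨h1z, -, -⟩ := hC _ hP'
  have hz : Limits.IsZero (groupCohomology (T.resSub (T.resSub C H) (P : Subgroup H)) 1) :=
    Limits.IsZero.of_iso h1z (subSubIso C H (P : Subgroup H) 1)
  have h0 : (T.resMap (T.resSub C H) (P : Subgroup H) 1).hom c = 0 :=
    (ModuleCat.isZero_iff_subsingleton.1 hz).elim _ _
  have h1 : (P : Subgroup H).index • c = 0 :=
    T.H572.resIndex ℤ H (T.resSub C H) (P : Subgroup H) 1 (by norm_num) c h0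
  have hcop : Nat.Coprime (P : Subgroup H).index (p ^ a) :=
    Nat.Coprime.pow_right a ((Nat.Prime.coprime_iff_not_dvd hp).2 P.not_dvd_index).symm
  exact eq_zero_of_coprime_nsmul hcop h1 hc

/-- The `p`-torsion of `H²(H, C)` is cyclic, for every subgroup `H`. -/
theorem h2_pTorsCyclic_of_isClassModuleAt :
    PTorsCyclic (groupCohomology (T.resSub C H) 2) p := by
  classical
  haveI : Fact p.Prime := ⟨hp⟩
  obtain ⟨P⟩ : Nonempty (Sylow p H) := inferInstance
  have hP' : IsPGroup p ((P : Subgroup H).map H.subtype) := P.isPGroup'.map H.subtype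
  obtain ⟨-, hcard, hgen⟩ := hC _ hP'
  -- the group `A = H²(P, C)`
  let e := subSubIso C H (P : Subgroup H) 2
  let E : groupCohomology (T.resSub (T.resSub C H) (P : Subgroup H)) 2 ≃ₗ[ℤ]
      groupCohomology (T.resSub C ((P : Subgroup H).map H.subtype)) 2 := e.toLinearEquiv
  haveI : Finite (groupCohomology (T.resSub C ((P : Subgroup H).map H.subtype)) 2) := by
    apply Nat.finite_of_card_ne_zero
    rw [hcard]
    exact Nat.card_pos.ne'
  haveI : Finite (groupCohomology (T.resSub (T.resSub C H) (P : Subgroup H)) 2) :=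
    Finite.of_equiv _ E.symm.toEquiv
  have hgenP : ∀ x : groupCohomology (T.resSub (T.resSub C H) (P : Subgroup H)) 2,
      ∃ n : ℕ, x = n • E.symm ((T.resMap C ((P : Subgroup H).map H.subtype) 2).hom γ) := by
    intro x
    obtain ⟨n, hn⟩ := hgen (E x)
    refine ⟨n, ?_⟩
    rw [← map_nsmul, ← hn, LinearEquiv.symm_apply_apply]
  have hcyc := pTorsCyclic_of_generated p hp _ hgenP
  -- restriction to `P` is injective on `p`-torsion
  have hinj : ∀ x : groupCohomology (T.resSub C H) 2, p • x = 0 →
      (T.resMap (T.resSub C H) (P : Subgroup H) 2).hom x = 0 → x = 0 := by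
    intro x hx h0
    have h1 : (P : Subgroup H).index • x = 0 :=
      T.H572.resIndex ℤ H (T.resSub C H) (P : Subgroup H) 2 (by norm_num) x h0
    have hcop : Nat.Coprime (P : Subgroup H).index p :=
      ((Nat.Prime.coprime_iff_not_dvd hp).2 P.not_dvd_index).symm
    exact eq_zero_of_coprime_nsmul hcop h1 hx
  intro z z' hz hz' hne
  set r := (T.resMap (T.resSub C H) (P : Subgroup H) 2).hom with hr
  have hrz : p • r z = 0 := by rw [← map_nsmul, hz, map_zero]
  have hrz' : p • r z' = 0 := by rw [← map_nsmul, hz', map_zero]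
  have hrne : r z' ≠ 0 := fun h => hne (hinj z' hz' h)
  obtain ⟨n, hn⟩ := hcyc (r z) (r z') hrz hrz' hrne
  refine ⟨n, ?_⟩
  have h0 : z - n • z' = 0 := by
    apply hinj
    · rw [smul_sub, hz, smul_comm, hz', smul_zero, sub_zero]
    · rw [map_sub, map_nsmul, hn, sub_self]
  exact sub_eq_zero.1 h0

end ClassModule

/-! ## The leaves -/

/-- **KG-C1.** -/
theorem cH1 : CH1Spec := by
  intro S p D hp hD L hL H c a hc
  haveI : Finite L.Gal := Level.finiteGal L
  exact h1_eq_zero_of_isClassModuleAt p hp (D.C L) (D.γ L) (hD.gd1 L hL) H c a hc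

/-- **KG-C2.** -/
theorem cCyc : CCycSpec := by
  intro S p D hp hD L hL H
  haveI : Finite L.Gal := Level.finiteGal L
  exact h2_pTorsCyclic_of_isClassModuleAt p hp (D.C L) (D.γ L) (hD.gd1 L hL) H

end Fermat.Agent.S55.KG.H139

end
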