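import Fermat.Agent.S55.KG.Abs

/-!
# S55, layer KG, leaf AB4 (helper231): `liftCyc : LiftCycSpec`

If the `p`-torsion of `H²(C_k)` is cyclic for all large `k` and, at arbitrarily high levels, some
`p`-torsion class of `H²(J)` has non-zero image in `H²(C)`, then `p`-torsion classes of `H²(C)`
lift to `p`-torsion classes of `H²(J)` at a higher level.
-/

set_option autoImplicit false

open CategoryTheory groupCohomology

namespace Fermat.Agent.S55.KG.H231

open Fermat.Agent.S55.KG Fermat.Agent.S55.KG.GTower.Mod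

theorem liftCyc : LiftCycSpec := by
  intro 𝒯 J C ψ p _ hcyc hloc i z hz
  obtain ⟨j₁, hij₁, hcyc₁⟩ := hcyc i
  obtain ⟨j, hj₁j, y, hy, hy0⟩ := hloc j₁
  have hij : i ≤ j := hij₁.trans hj₁j
  have hzj : p • (C.infl hij 2).hom z = 0 := by
    rw [← map_nsmul, hz, map_zero]
  have hyj : p • (ψ.map j 2).hom y = 0 := by
    rw [← map_nsmul, hy, map_zero]
  obtain ⟨n, hn⟩ := hcyc₁ j hj₁j ((C.infl hij 2).hom z) ((ψ.map j 2).hom y) hzj hyj hy0
  refine ⟨j, hij, n • y, ?_, ?_⟩
  · rw [smul_comm, hy, smul_zero]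
  · rw [map_nsmul, hn]

end Fermat.Agent.S55.KG.H231
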