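import Fermat.Agent.S55.KG.Abs
import Fermat.Agent.S55.H783.ResCor

/-!
# S55 / KG : leaves KG-AB3b, KG-AB3c (formal consequences of capitulation) — helper765

* `liftCap_of765 : CapKerSpec → LiftCapSpec`
* `divCap_of765  : CapKerSpec → DivCapSpec`

Inputs: functoriality of `groupCohomology.map` (Mathlib) and `H783.card_nsmul_eq_zero`
(`|G|` kills `H¹` of a finite group).
-/

set_option autoImplicit false

open CategoryTheory groupCohomology

namespace Fermat.Agent.S55.KG.H765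

open Fermat.Agent.S55.KG GTower.Mod

variable {𝒯 : GTower}

/-- transitivity of inflation -/
lemma infl_trans765 (X : 𝒯.Mod) {i j k : 𝒯.ι} (h : i ≤ j) (h' : j ≤ k) (n : ℕ)
    (y : groupCohomology (X.M i) n) :
    (X.infl h' n).hom ((X.infl h n).hom y) = (X.infl (h.trans h') n).hom y := by
  have key : X.infl h n ≫ X.infl h' n = X.infl (h.trans h') n := by
    unfold GTower.Mod.infl
    rw [← groupCohomology.map_comp]
    refine groupCohomology.map_congr (MonoidHom.ext fun g => 𝒯.π_trans h h' g) ?_ n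
    refine DFunLike.ext _ _ fun x => ?_
    exact X.t_trans h h' x
  rw [← key]
  rfl

/-- inflation commutes with morphisms of systems -/
lemma map_infl765 {X Y : 𝒯.Mod} (φ : Hom X Y) {i j : 𝒯.ι} (h : i ≤ j) (n : ℕ)
    (y : groupCohomology (X.M i) n) :
    (φ.map j n).hom ((X.infl h n).hom y) = (Y.infl h n).hom ((φ.map i n).hom y) := by
  have key : X.infl h n ≫ φ.map j n = φ.map i n ≫ Y.infl h n := by
    unfold GTower.Mod.infl GTower.Mod.Hom.map
    rw [← groupCohomology.map_comp, ← groupCohomology.map_comp]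
    refine groupCohomology.map_congr rfl ?_ n
    refine DFunLike.ext _ _ fun x => ?_
    exact (φ.comm h x).symm
  have := congrArg (fun f => f.hom y) key
  exact this

/-- functoriality in the morphism of systems -/
lemma comp_map765 {X Y Z : 𝒯.Mod} (φ : Hom X Y) (ψ : Hom Y Z) (i : 𝒯.ι) (n : ℕ)
    (y : groupCohomology (X.M i) n) :
    ((φ.comp ψ).map i n).hom y = (ψ.map i n).hom ((φ.map i n).hom y) := by
  have key : (φ.comp ψ).map i n = φ.map i n ≫ ψ.map i n := by
    unfold GTower.Mod.Hom.map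
    exact groupCohomology.map_id_comp (φ.f i) (ψ.f i) n
  rw [key]
  rfl

/-- Bezout: if `m' • X = 0` and `α p + β m' = 1` then `X = p • (α • X)`. -/
lemma eq_nsmul_zsmul_of_bezout765 {A : Type*} [AddCommGroup A] (X : A) (p m' : ℕ) (α β : ℤ)
    (h : α * (p : ℤ) + β * (m' : ℤ) = 1) (hk : m' • X = 0) : X = p • (α • X) := by
  have h1 : X = (α * (p : ℤ) + β * (m' : ℤ)) • X := by rw [h, one_zsmul]
  rw [add_zsmul, mul_comm α, mul_zsmul, natCast_zsmul, mul_zsmul, natCast_zsmul, hk, zsmul_zero,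
    add_zero] at h1
  exact h1

/-- **KG-AB3b.** -/
theorem liftCap_of765 (hck : CapKerSpec) : LiftCapSpec := by
  intro 𝒯 hdir hfin J C' C ψ incl p hp hcap hlift i z hz
  obtain ⟨j, hij, t, ht, hψt⟩ := hlift i ((incl.map i 2).hom z)
    (by rw [← map_nsmul, hz, map_zero])
  have hd_p : p ^ 1 • ((ψ.map j 2).hom t - (C'.infl hij 2).hom z) = 0 := by
    rw [pow_one, smul_sub, ← map_nsmul, ← map_nsmul, ht, hz, map_zero, map_zero, sub_zero]
  have hd_incl : (incl.map j 2).hom ((ψ.map j 2).hom t - (C'.infl hij 2).hom z) = 0 := by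
    rw [map_sub, ← comp_map765, hψt, map_infl765, sub_self]
  obtain ⟨k, hjk, hk⟩ := hck 𝒯 hdir hfin C' C incl p hp hcap 2 (Or.inr rfl) j _ 1 hd_p hd_incl
  refine ⟨k, hij.trans hjk, (J.infl hjk 2).hom t, ?_, ?_⟩
  · rw [← map_nsmul, ht, map_zero]
  · rw [map_infl765 ψ hjk 2 t, ← infl_trans765 C' hij hjk 2 z]
    rw [map_sub, sub_eq_zero] at hk
    exact hk

/-- **KG-AB3c.** -/
theorem divCap_of765 (hck : CapKerSpec) : DivCapSpec := by
  intro 𝒯 hdir hfin C' C incl p hp hcap hH1 i x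
  have : Finite (𝒯.G i) := hfin i
  have hm : Nat.card (𝒯.G i) • x = 0 :=
    Fermat.Agent.S55.H783.card_nsmul_eq_zero (C'.M i) 0 x
  obtain ⟨a, m', hm'p, hmeq⟩ :=
    Nat.exists_eq_pow_mul_and_not_dvd (Nat.card_pos (α := 𝒯.G i)).ne' p hp.ne_one
  obtain ⟨j, hij, hj⟩ := hH1 i
  have hpy : p ^ a • (C'.infl hij 1).hom (m' • x) = 0 := by
    rw [← map_nsmul, smul_smul, ← hmeq, hm, map_zero]
  have hy0 : (incl.map j 1).hom ((C'.infl hij 1).hom (m' • x)) = 0 :=
    hj j le_rfl _ a (by rw [← map_nsmul, hpy, map_zero])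
  obtain ⟨k, hjk, hk⟩ := hck 𝒯 hdir hfin C' C incl p hp hcap 1 (Or.inl rfl) j _ a hpy hy0
  rw [infl_trans765, map_nsmul] at hk
  -- `hk : m' • infl x = 0`
  have hcop : IsCoprime (p : ℤ) (m' : ℤ) :=
    Nat.isCoprime_iff_coprime.mpr ((Nat.Prime.coprime_iff_not_dvd hp).mpr hm'p)
  obtain ⟨α, β, hαβ⟩ := hcop
  exact ⟨k, hij.trans hjk, α • (C'.infl (hij.trans hjk) 1).hom x,
    eq_nsmul_zsmul_of_bezout765 _ p m' α β hαβ hk⟩

end Fermat.Agent.S55.KG.H765
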