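import Fermat.Agent.S55.KG.Spec
import Fermat.Agent.S55.KL.ClosedA4
import Fermat.Agent.S55.PT.LevelsH723
import Fermat.Agent.S55.KG.ChaseH774
import Fermat.Agent.S55.KG.CapKerH454
import Fermat.Agent.S55.KG.LiftDivCapH765
import Fermat.Agent.S55.KG.LiftCycH231

/-!
# S55, layer KG: assembly — input A3 (`PT.Surj2GlobSpec`) of the duality engine

* `isCap_of`            : capitulation data for `C' ⊂ C` from GD5, GD5b;
* `towerKummer_of`      : the leaves ⇒ `TowerKummerSpec S p`;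
* `globalKummerHyp_of`  : + dictionary ⇒ `GlobalKummerHypSpec S p`;
* `surj2Glob_of_hyp`    : `GlobalKummerHypSpec S p ⇒ PT.Surj2GlobSpec p S` (closed KL machine);
* `surj2Glob_of_leaves` : everything together.

Architect/owner: helper183.
-/

set_option autoImplicit false

open CategoryTheory groupCohomology

namespace Fermat.Agent.S55.KG

open Fermat.Agent.S55.Tow Fermat.Agent.S55.E1.Lim Fermat.Agent.S55.KL GTower.Mod

variable {S : Finset Nat.Primes}

/-! ## The abstract part, closed -/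

/-- **KG-ABS**, closed (leaves by helper774, helper454, helper765, helper231). -/
theorem absKummer : AbsKummerSpec :=
  absKummer_of H774.chaseET3 H774.chaseED2 (H765.liftCap_of765 H454.capKer)
    (H765.divCap_of765 H454.capKer) H231.liftCyc

/-! ## Capitulation data -/

/-- Capitulation data for `C' = im(J → C) ⊂ C` over the tower of `U`, from GD5 and GD5b. -/
theorem isCap_of {D : TowerDatum S} {p : ℕ} (hD : D.IsGoodFin p) (U : Subgroup GQ) :
    IsCap (resUHom U (homIncl D (@IsGoodMu.trCompat S D p hD.good)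
      (@IsGoodMu.trTrans S D p hD.good))) p := by
  refine ⟨fun L => inclC1_injective D L, fun L c => ?_, fun L c a hc => ?_⟩
  · obtain ⟨m, hm, hloc⟩ := hD.gd5b L c
    refine ⟨m, hm, ?_⟩
    have h1 : m • c ∈ C1Add D L := (mem_C1Add D L _).2 hloc
    exact ⟨⟨m • c, h1⟩, rfl⟩
  · obtain ⟨c', hc'⟩ := hc
    have h2 : (inclC1 D L).hom c' = (p ^ a • c : (D.C L).V) := hc'
    have h3 : (inclC1 D L).hom c' ∈ C1Add D L := c'.2
    have h1 : D.IsLocalSum L (p ^ a • c) := (mem_C1Add D L _).1 (h2 ▸ h3)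
    obtain ⟨L', h, hloc⟩ := hD.good.gd5 L c a h1
    exact ⟨L', h, ⟨⟨_, (mem_C1Add D L' _).2 hloc⟩, rfl⟩⟩

/-! ## The tower part -/

/-- **KG-TF.**  The arithmetic of the `S`-units in the tower, from the leaves. -/
theorem towerKummer_of (hJ3 : JH3Spec) (hJ2 : JDivSpec) (hC1 : CH1Spec)
    (hC2 : CCycSpec) (hSes : SesSpec) (p : ℕ) (hp : p.Prime)
    (hpS : (⟨p, hp⟩ : Nat.Primes) ∈ S) (hMu : ∃ L₀ : Level S, L₀.HasMu p)
    (hIn : GlobalInputSpec S p) : TowerKummerSpec S p := by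
  obtain ⟨D, hD, hloc⟩ := hIn
  obtain ⟨L₀, hL₀⟩ := hMu
  intro U hU
  have h7 : TrCompat D := @IsGoodMu.trCompat S D p hD.good
  have h7b : TrTrans D := @IsGoodMu.trTrans S D p hD.good
  have hlarge : ∀ L : Level S, ∃ L' : Level S, L ≤ L' ∧ ∀ L'' : Level S, L' ≤ L'' →
      L''.HasMu p := fun L =>
    ⟨Fermat.Agent.S55.E1.H603.levelSup L L₀, Fermat.Agent.S55.E1.H603.le_levelSup_left L L₀,
      fun L'' h => Level.HasMu.mono
        ((Fermat.Agent.S55.E1.H603.le_levelSup_right L L₀).trans h) hL₀⟩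
  refine absKummer (towerU U S) (towerU_directed U S) (fun L => towerU_finite U L)
    (resU U (sysE S)) (resU U (sysJ S)) (resU U (sysC1 D h7 h7b)) (resU U (sysC D h7b))
    (resUHom U (homDiag S)) (resUHom U (homJC1 D h7 h7b)) (resUHom U (homIncl D h7 h7b))
    p hp ?_ (isCap_of hD U) ?_ (hJ2 S p hp hpS U hU) ?_ ?_ ?_
  · exact fun L => hSes S D h7 h7b ⟨_, hpS⟩ (IsGoodMu.kerDiag hD.good) L
  · intro L y _
    have hy : y = 0 := @Subsingleton.elim _ (hJ3 S L (HU U L)) y 0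
    exact ⟨L, le_rfl, by rw [hy, map_zero]⟩
  · intro L
    obtain ⟨L', hLL', hL'⟩ := hlarge L
    exact ⟨L', hLL', fun L'' h c a hc =>
      hC1 S p D hp hD.good L'' (hL' L'' h) (HU U L'') c a hc⟩
  · intro L
    obtain ⟨L', hLL', hL'⟩ := hlarge L
    exact ⟨L', hLL', fun L'' h => hC2 S p D hp hD.good L'' (hL' L'' h) (HU U L'')⟩
  · intro L
    obtain ⟨L', hLL', y, hy, hne⟩ := hloc U hU L
    exact ⟨L', hLL', y, hy, hne⟩

/-! ## The hypotheses of the abstract Kummer machine -/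

/-- **KG-HYP.** -/
theorem globalKummerHyp_of (hDict : DictEffSpec) (hDiv : DictDivSpec) (hMuC : DictMuSpec)
    (p : ℕ) (hp : p.Prime) (hGD9 : SUnitsDivSpec S p) (hTow : TowerKummerSpec S p) :
    GlobalKummerHypSpec S p := by
  refine ⟨?_, hDiv S p hGD9, hMuC S p hp hGD9, fun U hU => ?_⟩
  · intro b
    obtain ⟨⟨L, hL⟩, -⟩ := b.2
    exact ⟨L.U, ⟨L, rfl⟩, fun w hw => Subtype.ext (hL w hw)⟩
  · have hU' : IsOpenS S U := by
      obtain ⟨W, ⟨L, rfl⟩, hW⟩ := hU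
      exact ⟨L, hW⟩
    exact ⟨(hDict S p 3 U hU').1 (hTow U hU').1, (hDict S p 2 U hU').2 (hTow U hU').2⟩

/-! ## The adapter to layer D -/

lemma pt_isLC₁_glob_iff (S : Finset Nat.Primes) {X : Type*} (f : GQ → X) :
    (PT.globalLevels S).IsLC₁ f ↔ IsLC₁ (globNLevels S) f := by
  constructor
  · rintro ⟨W, hW, h⟩
    obtain ⟨V, ⟨F, hF, rfl⟩, hVW, hVn⟩ := PT.H723.globalLevels_normalCofinal S W hW
    exact ⟨_, ⟨⟨F, hF, hVn⟩, rfl⟩, fun g s hs => h g s (hVW hs)⟩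
  · rintro ⟨W, ⟨L, rfl⟩, h⟩
    exact ⟨_, ⟨L.F, L.unram, rfl⟩, h⟩

lemma pt_isLC₂_glob_iff (S : Finset Nat.Primes) {X : Type*} (f : GQ × GQ → X) :
    (PT.globalLevels S).IsLC₂ f ↔ IsLC₂ (globNLevels S) f := by
  constructor
  · rintro ⟨W, hW, h⟩
    obtain ⟨V, ⟨F, hF, rfl⟩, hVW, hVn⟩ := PT.H723.globalLevels_normalCofinal S W hW
    exact ⟨_, ⟨⟨F, hF, hVn⟩, rfl⟩, fun g g' s s' hs hs' => h g g' s s' (hVW hs) (hVW hs')⟩
  · rintro ⟨W, ⟨L, rfl⟩, h⟩
    exact ⟨_, ⟨L.F, L.unram, rfl⟩, h⟩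

/-- **A3 from the Kummer hypotheses** (closed abstract machine of layer KL). -/
theorem surj2Glob_of_hyp (p : ℕ) [Fact p.Prime] (S : Finset Nat.Primes)
    (h : GlobalKummerHypSpec S p) : PT.Surj2GlobSpec p S := by
  intro P N φ hφ hfd hsmP _ hsurj
  have hZ : CdLeTwo (globNLevels S) ℤ p :=
    A4.cd ℤ _ (fun z => ⟨z, Int.cast_id⟩) _ (sUnitsSm S) p Fact.out h
  have hcd : CdLeTwo (globNLevels S) (ZMod p) p := H795.cdScalars (ZMod p) _ _ p hZ
  exact pushH2_surjective_of_cd (PT.globalLevels S) (globNLevels S) p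
    (fun X f => pt_isLC₁_glob_iff S f) (fun X f => pt_isLC₂_glob_iff S f) H898.surjH2 hcd
    P N φ hφ hfd hsmP hsurj

/-- **Input A3 of layer D** from the leaves of layer KG. -/
theorem surj2Glob_of_leaves (hJ3 : JH3Spec) (hJ2 : JDivSpec)
    (hC1 : CH1Spec) (hC2 : CCycSpec) (hSes : SesSpec) (hDict : DictEffSpec)
    (hDiv : DictDivSpec) (hMuC : DictMuSpec) (p : ℕ) [Fact p.Prime] (S : Finset Nat.Primes)
    (hpS : (⟨p, Fact.out⟩ : Nat.Primes) ∈ S) (hMu : ∃ L₀ : Level S, L₀.HasMu p)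
    (hGD9 : SUnitsDivSpec S p) (hIn : GlobalInputSpec S p) : PT.Surj2GlobSpec p S :=
  surj2Glob_of_hyp p S
    (globalKummerHyp_of hDict hDiv hMuC p Fact.out hGD9
      (towerKummer_of hJ3 hJ2 hC1 hC2 hSes p Fact.out hpS hMu hIn))

end Fermat.Agent.S55.KG
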