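import Fermat.Agent.S55.KG.Spec

/-!
# S55 / layer KG: leaves KG-DIV and KG-MU          (helper415, subtask 618)

* `dictDiv : DictDivSpec` : the smooth `S`-units are `p`-divisible as soon as the `S`-units are
  `p`-divisible in the tower (`Tow.SUnitsDivSpec`, GD9);
* `dictMu : DictMuSpec` : the `p`-torsion of the smooth `S`-units is `μ_p(ℚ̄)`, of order `p`
  (the level containing `μ_p` is the second half of `Tow.SUnitsDivSpec`).

Only `KG/Spec.lean` is imported.
-/

set_option autoImplicit false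

noncomputable section

namespace Fermat.Agent.S55.KG.H415

open Fermat.Agent.S55.Tow Fermat.Agent.S55.E1.Lim Fermat.Agent.S55.KL

variable (S : Finset Nat.Primes)

/-! ## Galois stability of `IsSU` -/

lemma toMul_rho (g : GQ) (x : unitsQbar.V) :
    ((Additive.toMul (unitsQbar.ρ g x) : Qbarˣ) : Qbar) =
      g ((Additive.toMul x : Qbarˣ) : Qbar) := rfl

lemma toMul_rho_inv (g : GQ) (x : unitsQbar.V) :
    (((Additive.toMul (unitsQbar.ρ g x))⁻¹ : Qbarˣ) : Qbar) =
      g (((Additive.toMul x)⁻¹ : Qbarˣ) : Qbar) := by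
  rw [Units.val_inv_eq_inv_val, Units.val_inv_eq_inv_val, toMul_rho, map_inv₀]

/-- The transport of a valuation subring by an automorphism lies over the same prime. -/
lemma liesOverPrime_comap (A : ValuationSubring Qbar) (g : GQ) (ℓ : ℕ)
    (hA : A.LiesOverPrime ℓ) :
    (A.comap ((g : Qbar ≃ₐ[ℚ] Qbar) : Qbar →+* Qbar)).LiesOverPrime ℓ := by
  unfold ValuationSubring.LiesOverPrime at hA ⊢
  rw [ValuationSubring.mem_nonunits_iff_or] at hA ⊢
  rcases hA with h0 | h
  · exact Or.inl h0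
  · right
    intro hmem
    apply h
    rw [ValuationSubring.mem_comap] at hmem
    have : ((g : Qbar ≃ₐ[ℚ] Qbar) : Qbar →+* Qbar) ((ℓ : Qbar)⁻¹) = (ℓ : Qbar)⁻¹ := by
      rw [map_inv₀, map_natCast]
    rwa [this] at hmem

lemma isSU_rho (g : GQ) {x : unitsQbar.V} (hx : IsSU S x) : IsSU S (unitsQbar.ρ g x) := by
  intro ℓ hℓ A hA
  obtain ⟨h1, h2⟩ := hx ℓ hℓ _ (liesOverPrime_comap A g ℓ hA)
  rw [ValuationSubring.mem_comap] at h1 h2
  exact ⟨by rw [toMul_rho]; exact h1, by rw [toMul_rho_inv]; exact h2⟩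

/-- Elements of finite order are units of every valuation subring. -/
lemma mem_valuationSubring_of_pow_eq_one (A : ValuationSubring Qbar) {N : ℕ} (hN : N ≠ 0)
    {a : Qbar} (ha : a ^ N = 1) : a ∈ A := by
  rw [← ValuationSubring.valuation_le_one_iff]
  have h : (A.valuation a) ^ N = 1 := by rw [← map_pow, ha, map_one]
  exact ((pow_eq_one_iff).1 h |>.resolve_right hN).le

/-- A root of unity is an `S`-unit. -/
lemma isSU_of_pow_eq_one {N : ℕ} (hN : N ≠ 0) (x : unitsQbar.V)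
    (hx : ((Additive.toMul x : Qbarˣ) : Qbar) ^ N = 1) : IsSU S x := by
  intro ℓ _ A _
  refine ⟨mem_valuationSubring_of_pow_eq_one A hN hx,
    mem_valuationSubring_of_pow_eq_one A hN ?_⟩
  rw [Units.val_inv_eq_inv_val, inv_pow, hx, inv_one]

/-! ## KG-DIV -/

/-- Membership in the smooth `S`-units from a level. -/
lemma unitsCoe_mem_sUnitsSmAdd (L : Level S) (e : L.units.V) (he : L.IsSUnit e) :
    L.unitsCoe e ∈ sUnitsSmAdd S :=
  ⟨⟨L, fun g hg => L.unitsCoe_fixed e g hg⟩, fun g => isSU_rho S g he⟩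

/-- **KG-DIV.** -/
theorem dictDiv : DictDivSpec := by
  intro S p h b
  obtain ⟨⟨L, hL⟩, hb2⟩ := subVal_mem b
  have hS : L.IsSUnit (L.unitsMk (subVal b) hL) := by
    have h1 := hb2 1
    rw [map_one] at h1
    exact h1
  obtain ⟨L', hLL', e', he', hpe⟩ := h.1 L (L.unitsMk (subVal b) hL) hS
  refine ⟨subMk (L'.unitsCoe e') (unitsCoe_mem_sUnitsSmAdd S L' e' he'), ?_⟩
  apply subVal_injective
  have h1 := congrArg L'.unitsCoe hpe
  rw [map_nsmul] at h1
  exact h1

/-! ## KG-MU -/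

/-- The root of unity underlying a `p`-torsion element of the smooth `S`-units. -/
def torsToRoots (p : ℕ) (x : (tors (sUnitsSm S) p).V) : rootsOfUnity p Qbar :=
  ⟨(Additive.toMul (subVal (x.1 : (sUnitsSm S).V)) : Qbarˣ), by
    rw [mem_rootsOfUnity]
    have h1 : p • (x.1 : (sUnitsSm S).V) = 0 := x.2
    have h2 : p • subVal (x.1 : (sUnitsSm S).V) = 0 := by
      have := congrArg subVal h1
      exact this
    exact h2⟩

lemma torsToRoots_injective (p : ℕ) : Function.Injective (torsToRoots S p) := by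
  intro x y h
  apply Subtype.ext
  apply subVal_injective
  have h1 := congrArg (fun z : rootsOfUnity p Qbar => (z : Qbarˣ)) h
  exact Additive.toMul.injective h1

/-- An element of `ℚ̄ˣ`, written additively. -/
def ofUnits (u : Qbarˣ) : unitsQbar.V := Additive.ofMul u

lemma toMul_ofUnits (u : Qbarˣ) : (Additive.toMul (ofUnits u) : Qbarˣ) = u := rfl

/-- Extensionality for `ℚ̄ˣ` written additively. -/
lemma unitsQbar_ext {x y : unitsQbar.V}
    (h : ((Additive.toMul x : Qbarˣ) : Qbar) = ((Additive.toMul y : Qbarˣ) : Qbar)) : x = y :=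
  Additive.toMul.injective (Units.ext h)

lemma ofUnits_mem (p : ℕ) (hp : p ≠ 0) (L₀ : Level S)
    (hL₀ : ∀ ζ : Qbar, ζ ^ p = 1 → ζ ∈ L₀.F) (u : Qbarˣ) (hu : (u : Qbar) ^ p = 1) :
    ofUnits u ∈ sUnitsSmAdd S := by
  refine ⟨⟨L₀, fun g hg => ?_⟩, fun g => ?_⟩
  · apply unitsQbar_ext
    rw [toMul_rho, toMul_ofUnits]
    exact (IntermediateField.mem_fixingSubgroup_iff _ _).1 hg _ (hL₀ _ hu)
  · apply isSU_of_pow_eq_one S hp
    rw [toMul_rho, toMul_ofUnits, ← map_pow, hu, map_one]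

lemma torsToRoots_surjective (p : ℕ) (hp : p ≠ 0)
    (hμ : ∃ L₀ : Level S, ∀ ζ : Qbar, ζ ^ p = 1 → ζ ∈ L₀.F) :
    Function.Surjective (torsToRoots S p) := by
  obtain ⟨L₀, hL₀⟩ := hμ
  intro ζ
  have hζ' : (ζ : Qbarˣ) ^ p = 1 := (mem_rootsOfUnity p (ζ : Qbarˣ)).1 ζ.2
  have hζ : ((ζ : Qbarˣ) : Qbar) ^ p = 1 := by
    have h2 := congrArg (fun u : Qbarˣ => (u : Qbar)) hζ'
    simpa using h2
  have hmem := ofUnits_mem S p hp L₀ hL₀ (ζ : Qbarˣ) hζ
  have htors : p • (subMk (hW := sUnitsSmAdd_stable S) (ofUnits (ζ : Qbarˣ)) hmem :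
      (sUnitsSm S).V) = 0 := by
    apply subVal_injective
    show p • ofUnits (ζ : Qbarˣ) = 0
    apply Additive.toMul.injective
    exact hζ'
  exact ⟨⟨subMk (hW := sUnitsSmAdd_stable S) (ofUnits (ζ : Qbarˣ)) hmem, htors⟩,
    Subtype.ext rfl⟩

/-- **KG-MU.** -/
theorem dictMu : DictMuSpec := by
  intro S p hp h
  have : NeZero p := ⟨hp.ne_zero⟩
  have : NeZero ((p : ℕ) : ℚ) := ⟨by exact_mod_cast hp.ne_zero⟩
  exact (Nat.card_congr (Equiv.ofBijective (torsToRoots S p)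
    ⟨torsToRoots_injective S p, torsToRoots_surjective S p hp.ne_zero h.2⟩)).trans
    (HasEnoughRootsOfUnity.natCard_rootsOfUnity Qbar p)

end Fermat.Agent.S55.KG.H415

end
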