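import Fermat.Agent.S55.KG.CoprimeTower
import Fermat.Agent.S55.KG.DivMuH415
import Fermat.Agent.S55.Bridge.SUnitsDiv

/-!
# S55, layer KG: `cd_p ≤ 2` from the Kummer hypotheses for subgroups of index prime to `p`

The dévissage of layer KL (`KL.H543.devSylow`, `KL.H783.devPGroup`, `KL.H289.kummerH3`) only uses
the Kummer hypotheses (`colim H³(U, A)[p] = 0`, `colim H²(U, A) ⊗ ℤ/p = 0`) for the preimages `U`
of Sylow `p`-subgroups, whose index is prime to `p`.

* `devSylow_coprime`  : Sylow reduction, keeping the information `p ∤ [Γ : U]`;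
* `KummerHypCoprime`, `cd_coprime` : the abstract theorem `KummerHypCoprime ⇒ cd_p ≤ 2`;
* `surj2Glob_of_hypCoprime` : adapter to layer D;
* `surj2Glob_of_jDiv` : **input A3** (`PT.Surj2GlobSpec p S`, `p` odd, `p ∈ S`) from the leaf
  `JDivSpec` (KG:J2) and a good tower datum (`Tow.GlobalSpecFin S p`) — no other input.

Owner: helper183.
-/

set_option autoImplicit false

open CategoryTheory groupCohomology

namespace Fermat.Agent.S55.KG

open Fermat.Agent.S55.Tow Fermat.Agent.S55.E1.Lim Fermat.Agent.S55.KL ExtCitation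

/-! ## The abstract machine, coprime form -/

section Abstract

variable {k Γ : Type} [CommRing k] [Group Γ]

/-- **Sylow reduction, coprime form**: as `KL.DevSylowSpec`, but the open subgroups `U` which
have to be treated are moreover of index prime to `p`. -/
theorem devSylow_coprime (N : NLevels Γ) (p : ℕ) (hp : p.Prime) (R : Rep.{0} k Γ)
    (hfin : Finite R.V) (htors : ∀ r : R.V, p • r = 0) (hsm : IsSmooth N R) (V₀ : N.Lvl)
    (H : ∀ (U : Subgroup Γ) (V : N.Lvl), V.W ≤ U → V.W ≤ V₀.W → ActsTrivially V.W R →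
      IsPGroup p (↥U ⧸ V.W.subgroupOf U) → Nat.Coprime U.index p →
        EffAll (N.restrict U) (Rep.res U.subtype R) 3) :
    EffAll N R 3 := by
  intro V' y
  have := hfin
  obtain ⟨V, hVV₀, hVtriv⟩ := KL.H543.exists_lvl_actsTrivially N R hsm V₀
  obtain ⟨U, hVU, hPG, hcop⟩ := KL.H543.exists_sylow_preimage V.W p hp
  have hEff := H U V hVU hVV₀ hVtriv hPG hcop
  obtain ⟨X, hXV', hXV⟩ := N.exists_le V' V
  obtain ⟨Y', hY', hz⟩ := hEff (X.restrict U)
    ((rest R U X.W 3).hom ((infl R hXV' 3).hom y))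
  obtain ⟨W'', hW'', hYW⟩ := Y'.mem
  obtain ⟨X', hX'W, hX'X⟩ := N.exists_le ⟨W'', hW''⟩ X
  have hle : X'.W.subgroupOf U ≤ Y'.W := by
    rw [hYW]
    exact fun _ hx => hX'W hx
  refine ⟨X', hX'X.trans hXV', ?_⟩
  rw [← KL.H543.infl_infl R hX'X hXV' 3 y]
  apply KL.H543.eq_zero_of_rest_eq_zero Fermat.Agent.S55.T.H572.resIndex R p htors U X'.W
    (hX'X.trans (hXV.trans hVU)) hcop 3 (by norm_num)
  rw [KL.H543.rest_infl R U hX'X 3]
  have h1 := KL.H543.infl_infl (Rep.res U.subtype R) hle hY' 3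
    ((rest R U X.W 3).hom ((infl R hXV' 3).hom y))
  rw [hz, map_zero] at h1
  exact h1.symm

/-- The hypotheses of the Kummer machine, required only for the open subgroups of index prime
to `p`. -/
def KummerHypCoprime (N : NLevels Γ) (A : Rep.{0} k Γ) (p : ℕ) : Prop :=
  IsSmooth N A ∧ IsDivisibleBy A p ∧ Nat.card (tors A p).V = p ∧
    ∀ U : Subgroup Γ, N.IsOpen U → Nat.Coprime U.index p →
      EffTors (N.restrict U) (Rep.res U.subtype A) p 3 ∧
        EffDiv (N.restrict U) (Rep.res U.subtype A) p 2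

/-- **`KummerHypCoprime ⇒ cd_p ≤ 2`** (finite-level form). -/
theorem cd_coprime (hk : Function.Surjective (Int.cast : ℤ → k)) (N : NLevels Γ)
    (A : Rep.{0} k Γ) (p : ℕ) (hp : p.Prime) (hA : KummerHypCoprime N A p) :
    CdLeTwo N k p := by
  obtain ⟨hsm, hdiv, hcard, hU⟩ := hA
  intro R hRfin hRp hRsm
  have hμ : IsSmooth N (tors A p) := H593.isSmooth_tors N A p hsm
  have : Finite (tors A p).V :=
    Nat.finite_of_card_ne_zero (by rw [hcard]; exact hp.ne_zero)
  obtain ⟨V₁⟩ := (inferInstance : Nonempty N.Lvl)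
  obtain ⟨V₀, -, hV₀⟩ := H593.exists_lvl_actsTrivially N (tors A p) hμ V₁
  refine devSylow_coprime N p hp R hRfin hRp hRsm V₀ ?_
  intro U V hVU hVV₀ hVR hPg hcop
  have hVμ : ActsTrivially V.W (tors A p) := fun w hw m => hV₀ w (hVV₀ hw) m
  have hUo : N.IsOpen U := ⟨V.W, V.mem, hVU⟩
  have hEffμ : EffAll (N.restrict U) (Rep.res U.subtype (tors A p)) 3 :=
    H289.kummerH3 k ↥U (N.restrict U) (Rep.res U.subtype A) p hp
      (H593.isSmooth_res N A U hsm) (H593.isDivisibleBy_res A p U hdiv)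
      (hU U hUo hcop).1 (hU U hUo hcop).2
  refine H783.devPGroup k ↥U hk (N.restrict U) (Rep.res U.subtype (tors A p)) p hp hcard
    (fun u m => H593.actsTrivially_of_isPGroup (tors A p) hp hcard U V.W hVμ hPg u m)
    hEffμ (Rep.res U.subtype R) hRfin hRp ⟨V.restrict U, ?_, hPg⟩
  intro w hw r
  exact hVR w.1 (Subgroup.mem_subgroupOf.1 hw) r

end Abstract

/-! ## The adapter to layer D -/

variable {S : Finset Nat.Primes}

/-- **A3 from the Kummer hypotheses, coprime form.** -/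
theorem surj2Glob_of_hypCoprime (p : ℕ) [Fact p.Prime] (S : Finset Nat.Primes)
    (h : KummerHypCoprime (globNLevels S) (sUnitsSm S) p) : PT.Surj2GlobSpec p S := by
  intro P N φ hφ hfd hsmP _ hsurj
  have hZ : CdLeTwo (globNLevels S) ℤ p :=
    cd_coprime (fun z => ⟨z, Int.cast_id⟩) _ (sUnitsSm S) p Fact.out h
  have hcd : CdLeTwo (globNLevels S) (ZMod p) p := H795.cdScalars (ZMod p) _ _ p hZ
  exact pushH2_surjective_of_cd (PT.globalLevels S) (globNLevels S) p
    (fun X f => pt_isLC₁_glob_iff S f) (fun X f => pt_isLC₂_glob_iff S f) H898.surjH2 hcd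
    P N φ hφ hfd hsmP hsurj

/-- The Kummer hypotheses (coprime form) for the smooth `S`-units, from `JDivSpec` and a good
tower datum. -/
theorem globalKummerHypCoprime (hJ2 : JDivSpec) (p : ℕ) [Fact p.Prime] (hp2 : p ≠ 2)
    (S : Finset Nat.Primes) (hpS : pPrime p ∈ S) (hG : GlobalSpecFin S p) :
    KummerHypCoprime (globNLevels S) (sUnitsSm S) p := by
  have hp : p.Prime := Fact.out
  have hGD9 : SUnitsDivSpec S p := Fermat.Agent.S55.Bridge.sUnitsDivSpec (p := p) (S := S) hpS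
  refine ⟨?_, H415.dictDiv S p hGD9, H415.dictMu S p hp hGD9, fun U hU hcop => ?_⟩
  · intro b
    obtain ⟨⟨L, hL⟩, -⟩ := b.2
    exact ⟨L.U, ⟨L, rfl⟩, fun w hw => Subtype.ext (hL w hw)⟩
  · exact eff_coprime hJ2 p hp hp2 hpS hG U hU hcop

/-- **Input A3 of layer D** (`cd_p(G_S) ≤ 2` in the form `H²_S` right exact), for `p` odd,
`p ∈ S`, from the leaf KG:J2 and a good tower datum. -/
theorem surj2Glob_of_jDiv (hJ2 : JDivSpec) (p : ℕ) [Fact p.Prime] (hp2 : p ≠ 2)
    (S : Finset Nat.Primes) (hpS : pPrime p ∈ S) (hG : GlobalSpecFin S p) :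
    PT.Surj2GlobSpec p S :=
  surj2Glob_of_hypCoprime p S (globalKummerHypCoprime hJ2 p hp2 S hpS hG)

end Fermat.Agent.S55.KG
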