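import Fermat.Agent.S55.KG.Spec

/-!
# S55, layer KG, leaf KG-DICT (helper543): `DictEffSpec`

For `U ≤ G_ℚ` open and a level `L` with `L.U ≤ U`:

* `toHU U L : U ⧸ (L.U ∩ U) →* HU U L` is an isomorphism of groups (`hUEquiv`);
* `unitsEquiv U L hLU : E(F) ≃ (sUnitsSm S)^{L.U ∩ U}` (same underlying element of `ℚ̄ˣ`);
* `dictIso U L hLU n : Hⁿ(HU U L, E(F)) ≅ Hⁿ(U ⧸ (L.U ∩ U), (sUnitsSm S)^{L.U ∩ U})`,
  compatible with inflation (`dictIso_infl`).

Levels with `L.U ≤ U` are cofinal (`U` is open), hence eventual vanishing / divisibility in the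
tower of `U` gives effaceability in the sense of layer KL: `dictEff : DictEffSpec`.
-/

set_option autoImplicit false
set_option linter.style.haveILetI false

noncomputable section

open CategoryTheory groupCohomology

namespace Fermat.Agent.S55.KG.H543

open Fermat.Agent.S55.Tow Fermat.Agent.S55.E1.Lim Fermat.Agent.S55.KL Fermat.Agent.S55.KG

attribute [local instance 10000] Rep.hV2

variable {S : Finset Nat.Primes}

/-! ## The groups -/

/-- `U ⧸ (L.U ∩ U) → HU U L`. -/
def toHU (U : Subgroup GQ) (L : Level S) : ↥U ⧸ L.U.subgroupOf U →* ↥(HU U L) :=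
  (QuotientGroup.map (L.U.subgroupOf U) L.U U.subtype le_rfl).codRestrict (HU U L) fun x => by
    induction x using QuotientGroup.induction_on with
    | H u => exact ⟨(u : GQ), u.2, rfl⟩

@[simp] lemma toHU_mk (U : Subgroup GQ) (L : Level S) (u : ↥U) :
    ((toHU U L (QuotientGroup.mk u) : ↥(HU U L)) : L.Gal) = QuotientGroup.mk (u : GQ) := rfl

lemma toHU_bijective (U : Subgroup GQ) (L : Level S) : Function.Bijective (toHU U L) := by
  constructor
  · rw [injective_iff_map_eq_one]
    intro x hx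
    induction x using QuotientGroup.induction_on with
    | H u =>
      have h1 : (QuotientGroup.mk (u : GQ) : L.Gal) = 1 := congrArg Subtype.val hx
      rw [QuotientGroup.eq_one_iff] at h1 ⊢
      exact h1
  · rintro ⟨_, g, hg, rfl⟩
    exact ⟨QuotientGroup.mk (⟨g, hg⟩ : ↥U), rfl⟩

/-- The isomorphism `HU U L ≃* U ⧸ (L.U ∩ U)`. -/
def hUEquiv (U : Subgroup GQ) (L : Level S) : ↥(HU U L) ≃* ↥U ⧸ L.U.subgroupOf U :=
  (MulEquiv.ofBijective (toHU U L) (toHU_bijective U L)).symm

lemma hUEquiv_toHU (U : Subgroup GQ) (L : Level S) (x : ↥U ⧸ L.U.subgroupOf U) :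
    hUEquiv U L (toHU U L x) = x :=
  (MulEquiv.ofBijective (toHU U L) (toHU_bijective U L)).symm_apply_apply x

lemma hUEquiv_symm_apply (U : Subgroup GQ) (L : Level S) (x : ↥U ⧸ L.U.subgroupOf U) :
    (hUEquiv U L).symm x = toHU U L x := rfl

/-! ## The modules -/

/-- The coefficient module of layer KL: the smooth `S`-units, restricted to `U`. -/
abbrev coefU (S : Finset Nat.Primes) (U : Subgroup GQ) : Rep.{0} ℤ ↥U :=
  Rep.res U.subtype (sUnitsSm S)

/-- The element of `ℚ̄ˣ` (additively written) underlying an `S`-unit of a level. -/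
def eVal (L : Level S) (x : (sUnits L).V) : unitsQbar.V := L.unitsCoe ((sIncl L).hom x)

lemma eVal_fixed (L : Level S) (x : (sUnits L).V) (g : GQ) (hg : g ∈ L.U) :
    unitsQbar.ρ g (eVal L x) = eVal L x := L.unitsCoe_fixed _ g hg

lemma eVal_isSU (L : Level S) (x : (sUnits L).V) (g : GQ) :
    IsSU S (unitsQbar.ρ g (eVal L x)) :=
  sIncl_mem L x (QuotientGroup.mk g)

lemma eVal_mem (L : Level S) (x : (sUnits L).V) : eVal L x ∈ sUnitsSmAdd S :=
  ⟨⟨L, fun g hg => eVal_fixed L x g hg⟩, fun g => eVal_isSU L x g⟩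

lemma eVal_injective (L : Level S) : Function.Injective (eVal (S := S) L) := fun _ _ h =>
  sIncl_injective L (L.unitsCoe_injective h)

/-- The element of `ℚ̄ˣ` underlying a smooth `S`-unit. -/
def smVal (b : (sUnitsSm S).V) : unitsQbar.V := subVal b

lemma smVal_injective : Function.Injective (smVal (S := S)) := subVal_injective

/-- The element of `ℚ̄ˣ` underlying an invariant smooth `S`-unit. -/
def invVal (U : Subgroup GQ) (W : Subgroup ↥U) [W.Normal]
    (b : ((coefU S U).quotientToInvariants W).V) : unitsQbar.V := smVal b.1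

lemma invVal_injective (U : Subgroup GQ) (W : Subgroup ↥U) [W.Normal] :
    Function.Injective (invVal (S := S) U W) := fun _ _ h =>
  Subtype.ext (smVal_injective h)

/-- Constructor for smooth `S`-units. -/
def smMk (a : unitsQbar.V) (ha : a ∈ sUnitsSmAdd S) : (sUnitsSm S).V :=
  subMk (hW := sUnitsSmAdd_stable S) a ha

@[simp] lemma smVal_smMk (a : unitsQbar.V) (ha : a ∈ sUnitsSmAdd S) :
    smVal (smMk a ha) = a := rfl

lemma smVal_ρ (g : GQ) (b : (sUnitsSm S).V) :
    smVal ((sUnitsSm S).ρ g b) = unitsQbar.ρ g (smVal b) := rfl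

/-- Constructor for invariant smooth `S`-units. -/
def invMk (U : Subgroup GQ) (W : Subgroup ↥U) [W.Normal] (a : unitsQbar.V)
    (ha : a ∈ sUnitsSmAdd S) (hW : ∀ w : ↥U, w ∈ W → unitsQbar.ρ (w : GQ) a = a) :
    ((coefU S U).quotientToInvariants W).V :=
  ⟨smMk a ha, fun w => smVal_injective (by
    show unitsQbar.ρ ((w : ↥U) : GQ) a = a
    exact hW w.1 w.2)⟩

@[simp] lemma invVal_invMk (U : Subgroup GQ) (W : Subgroup ↥U) [W.Normal] (a : unitsQbar.V)
    (ha : a ∈ sUnitsSmAdd S) (hW : ∀ w : ↥U, w ∈ W → unitsQbar.ρ (w : GQ) a = a) :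
    invVal U W (invMk U W a ha hW) = a := rfl

lemma invVal_mem (U : Subgroup GQ) (W : Subgroup ↥U) [W.Normal]
    (b : ((coefU S U).quotientToInvariants W).V) : invVal U W b ∈ sUnitsSmAdd S :=
  subVal_mem b.1

lemma invVal_fixed (U : Subgroup GQ) (W : Subgroup ↥U) [W.Normal]
    (b : ((coefU S U).quotientToInvariants W).V) (w : ↥U) (hw : w ∈ W) :
    unitsQbar.ρ (w : GQ) (invVal U W b) = invVal U W b :=
  congrArg smVal (b.2 ⟨w, hw⟩)

/-- Constructor for `S`-units of a level. -/
def eMk (L : Level S) (a : unitsQbar.V) (ha : ∀ g ∈ L.U, unitsQbar.ρ g a = a)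
    (hs : ∀ g : GQ, IsSU S (unitsQbar.ρ g a)) : (sUnits L).V :=
  subMk (L.unitsMk a ha) (fun g => by
    induction g using QuotientGroup.induction_on with
    | H g => exact hs g)

@[simp] lemma eVal_eMk (L : Level S) (a : unitsQbar.V) (ha : ∀ g ∈ L.U, unitsQbar.ρ g a = a)
    (hs : ∀ g : GQ, IsSU S (unitsQbar.ρ g a)) : eVal L (eMk L a ha hs) = a := rfl

/-- A linear equivalence between the carriers of two representations (possibly of different
groups) from an additive equivalence compatible with scalars.  Stated for a generic ring, so that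
the instances are those of `Rep`. -/
def repLinEquiv {k : Type} [CommRing k] {G H : Type} [Group G] [Group H] (B : Rep.{0} k G)
    (A : Rep.{0} k H) (f : B.V ≃+ A.V) (hf : ∀ (c : k) (b : B.V), f (c • b) = c • f b) :
    B.V ≃ₗ[k] A.V :=
  { f with map_smul' := hf }

@[simp] lemma repLinEquiv_apply {k : Type} [CommRing k] {G H : Type} [Group G] [Group H]
    (B : Rep.{0} k G) (A : Rep.{0} k H) (f : B.V ≃+ A.V)
    (hf : ∀ (c : k) (b : B.V), f (c • b) = c • f b) (b : B.V) :
    repLinEquiv B A f hf b = f b := rfl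

/-- `E(F) ≃ (sUnitsSm S)^{L.U ∩ U}` for `L.U ≤ U` (additive). -/
def unitsAddEquiv (U : Subgroup GQ) (L : Level S) (hLU : L.U ≤ U) :
    ((resU U (sysE S)).M L).V ≃+
      ((coefU S U).quotientToInvariants (L.U.subgroupOf U)).V where
  toFun x := invMk U (L.U.subgroupOf U) (eVal L x) (eVal_mem L x)
    (fun w hw => eVal_fixed L x (w : GQ) hw)
  invFun b := eMk L (invVal U (L.U.subgroupOf U) b)
    (fun g hg => invVal_fixed U (L.U.subgroupOf U) b ⟨g, hLU hg⟩ hg)
    (fun g => (invVal_mem U (L.U.subgroupOf U) b).2 g)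
  left_inv _ := rfl
  right_inv _ := rfl
  map_add' _ _ := rfl

/-- `E(F) ≃ (sUnitsSm S)^{L.U ∩ U}` for `L.U ≤ U`: same underlying element of `ℚ̄ˣ`. -/
def unitsEquiv (U : Subgroup GQ) (L : Level S) (hLU : L.U ≤ U) :=
  repLinEquiv (k := ℤ) ((resU U (sysE S)).M L)
    ((coefU S U).quotientToInvariants (L.U.subgroupOf U)) (unitsAddEquiv U L hLU)
    (fun _ _ => rfl)

@[simp] lemma invVal_unitsEquiv (U : Subgroup GQ) (L : Level S) (hLU : L.U ≤ U)
    (x : (sUnits L).V) :
    invVal U (L.U.subgroupOf U) (unitsEquiv U L hLU x) = eVal L x := rfl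

lemma unitsEquiv_comm (U : Subgroup GQ) (L : Level S) (hLU : L.U ≤ U) (g : ↥(HU U L)) :
    (unitsEquiv U L hLU).toLinearMap ∘ₗ ((resU U (sysE S)).M L).ρ g =
      ((coefU S U).quotientToInvariants (L.U.subgroupOf U)).ρ (hUEquiv U L g) ∘ₗ
        (unitsEquiv U L hLU).toLinearMap := by
  obtain ⟨x, rfl⟩ := (toHU_bijective U L).2 g
  rw [hUEquiv_toHU]
  induction x using QuotientGroup.induction_on with
  | H u =>
    ext a
    rfl

/-- **The dictionary isomorphism**
`Hⁿ(HU U L, E(F)) ≅ Hⁿ(U ⧸ (L.U ∩ U), (sUnitsSm S)^{L.U ∩ U})` for `L.U ≤ U`. -/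
def dictIso (U : Subgroup GQ) (L : Level S) (hLU : L.U ≤ U) (n : ℕ) :
    groupCohomology ((resU U (sysE S)).M L) n ≅ HL (coefU S U) (L.U.subgroupOf U) n :=
  groupCohomology.mapIso (hUEquiv U L) (unitsEquiv U L hLU) (unitsEquiv_comm U L hLU) n

lemma dictIso_hom_bijective (U : Subgroup GQ) (L : Level S) (hLU : L.U ≤ U) (n : ℕ) :
    Function.Bijective (dictIso U L hLU n).hom.hom :=
  ConcreteCategory.bijective_of_isIso (dictIso U L hLU n).hom

/-- The dictionary isomorphism commutes with inflation. -/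
lemma dictIso_infl (U : Subgroup GQ) {L L' : Level S} (h : L ≤ L') (hLU : L.U ≤ U)
    (hL'U : L'.U ≤ U) (n : ℕ) :
    (resU U (sysE S)).infl h n ≫ (dictIso U L' hL'U n).hom =
      (dictIso U L hLU n).hom ≫
        infl (coefU S U) (W' := L'.U.subgroupOf U) (W := L.U.subgroupOf U)
          (fun _ hx => Level.U_anti h hx) n := by
  unfold dictIso GTower.Mod.infl infl HLmap
  rw [groupCohomology.mapIso_hom, groupCohomology.mapIso_hom, ← groupCohomology.map_comp,
    ← groupCohomology.map_comp]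
  refine groupCohomology.map_congr ?_ ?_ n
  · ext x
    rfl
  · ext a
    rfl

lemma dictIso_infl_apply (U : Subgroup GQ) {L L' : Level S} (h : L ≤ L') (hLU : L.U ≤ U)
    (hL'U : L'.U ≤ U) (n : ℕ) (z : groupCohomology ((resU U (sysE S)).M L) n) :
    (dictIso U L' hL'U n).hom.hom (((resU U (sysE S)).infl h n).hom z) =
      (infl (coefU S U) (W' := L'.U.subgroupOf U) (W := L.U.subgroupOf U)
          (fun _ hx => Level.U_anti h hx) n).hom ((dictIso U L hLU n).hom.hom z) :=
  congrArg (fun f => f.hom z) (dictIso_infl U h hLU hL'U n)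

/-! ## Inflation in layer KL is transitive -/

lemma kl_infl_infl {k : Type} [CommRing k] {Γ : Type} [Group Γ] (B : Rep.{0} k Γ)
    {W'' W' W : Subgroup Γ} [W''.Normal]
    [W'.Normal] [W.Normal] (h' : W'' ≤ W') (h : W' ≤ W) (n : ℕ) (y : HL B W n) :
    (infl B h' n).hom ((infl B h n).hom y) = (infl B (h'.trans h) n).hom y := by
  have e : infl B h n ≫ infl B h' n = infl B (h'.trans h) n := by
    unfold infl HLmap
    rw [← groupCohomology.map_comp]
    refine groupCohomology.map_congr ?_ ?_ n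
    · ext x
      rfl
    · ext b
      rfl
  rw [← e]
  rfl

/-! ## The dictionary -/

/-- The level of `(globNLevels S).restrict U` attached to a level of the tower. -/
def lvlU (U : Subgroup GQ) (L : Level S) : ((globNLevels S).restrict U).Lvl :=
  (globLvl L).restrict U

@[simp] lemma lvlU_W (U : Subgroup GQ) (L : Level S) : (lvlU U L).W = L.U.subgroupOf U := rfl

/-- **KG-DICT**: eventual vanishing / divisibility in the tower of `U` gives effaceability in the
sense of layer KL for `(U, sUnitsSm S)`. -/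
theorem dictEff : DictEffSpec := by
  rintro S p n U ⟨L₀, hL₀⟩
  refine ⟨fun hT => ?_, fun hD => ?_⟩
  · rintro ⟨_, W, ⟨L, rfl⟩, rfl⟩ y hy
    have h1 : (E1.H603.levelSup L L₀).U ≤ U :=
      (Level.U_anti (E1.H603.le_levelSup_right L L₀)).trans hL₀
    have hle : (E1.H603.levelSup L L₀).U.subgroupOf U ≤ L.U.subgroupOf U := fun _ hx =>
      Level.U_anti (E1.H603.le_levelSup_left L L₀) hx
    obtain ⟨z, hz⟩ := (dictIso_hom_bijective U (E1.H603.levelSup L L₀) h1 n).2
      ((infl (coefU S U) hle n).hom y)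
    have hpz : p • z = 0 := by
      apply (dictIso_hom_bijective U (E1.H603.levelSup L L₀) h1 n).1
      rw [map_nsmul, hz, ← map_nsmul, hy, map_zero, map_zero]
    obtain ⟨L₂, h12, hzero⟩ := hT (E1.H603.levelSup L L₀) z hpz
    have h2 : L₂.U ≤ U := (Level.U_anti h12).trans h1
    have hle2 : L₂.U.subgroupOf U ≤ (E1.H603.levelSup L L₀).U.subgroupOf U := fun _ hx =>
      Level.U_anti h12 hx
    refine ⟨lvlU U L₂, hle2.trans hle, ?_⟩
    have e1 := dictIso_infl_apply U h12 h1 h2 n z
    rw [hzero, map_zero, hz] at e1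
    have e2 := kl_infl_infl (coefU S U) hle2 hle n y
    exact e2.symm.trans e1.symm
  · rintro ⟨_, W, ⟨L, rfl⟩, rfl⟩ x
    have h1 : (E1.H603.levelSup L L₀).U ≤ U :=
      (Level.U_anti (E1.H603.le_levelSup_right L L₀)).trans hL₀
    have hle : (E1.H603.levelSup L L₀).U.subgroupOf U ≤ L.U.subgroupOf U := fun _ hx =>
      Level.U_anti (E1.H603.le_levelSup_left L L₀) hx
    obtain ⟨z, hz⟩ := (dictIso_hom_bijective U (E1.H603.levelSup L L₀) h1 n).2
      ((infl (coefU S U) hle n).hom x)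
    obtain ⟨L₂, h12, w, hw⟩ := hD (E1.H603.levelSup L L₀) z
    have h2 : L₂.U ≤ U := (Level.U_anti h12).trans h1
    have hle2 : L₂.U.subgroupOf U ≤ (E1.H603.levelSup L L₀).U.subgroupOf U := fun _ hx =>
      Level.U_anti h12 hx
    refine ⟨lvlU U L₂, hle2.trans hle, (dictIso U L₂ h2 n).hom.hom w, ?_⟩
    have e1 := dictIso_infl_apply U h12 h1 h2 n z
    rw [hw, map_nsmul, hz] at e1
    have e2 := kl_infl_infl (coefU S U) hle2 hle n x
    exact e2.symm.trans e1.symm

end Fermat.Agent.S55.KG.H543
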