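import Fermat.Agent.S55.KG.Spec
import Fermat.Agent.S55.E1.H354.Lim1

/-!
# S55 / layer KG, leaf KG:SES (helper721): `ses : SesSpec`

`0 → E(F) → J(F) → C'(F) → 0` is exact elementwise at every level.
Injectivity and exactness at `J(F)` are helper354's `diagTot_injective`, `exists_diagTot_eq`
(`E1/H354/Lim1.lean`); surjectivity is `jC1_surjective`.
-/

set_option autoImplicit false

open CategoryTheory groupCohomology

namespace Fermat.Agent.S55.KG.H721

open Fermat.Agent.S55.Tow Fermat.Agent.S55.E1.Lim Fermat.Agent.S55.KG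

/-- **KG-SES.** -/
theorem ses : SesSpec := by
  intro S D h7 h7b hS h4 L
  refine ⟨Fermat.Agent.S55.E1.H354.diagTot_injective L hS, jC1_surjective D L,
    fun x => ⟨fun hx => ?_, ?_⟩⟩
  · have hx' : (jC1 D L).hom x = 0 := hx
    have hx'' : (jTot D L).hom x = 0 := by
      have := congrArg (inclC1 D L).hom hx'
      rw [map_zero] at this
      exact this
    exact Fermat.Agent.S55.E1.H354.exists_diagTot_eq h4 hS L x hx''
  · rintro ⟨e, rfl⟩
    show (jC1 D L).hom ((diagTot L).hom e) = 0
    apply inclC1_injective D L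
    rw [map_zero]
    exact diagTot_jTot h4 L e

end Fermat.Agent.S55.KG.H721
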