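import Fermat.Agent.S55.KG.Closed
import Fermat.Agent.S55.KG.SesH721
import Fermat.Agent.S55.KG.ClassH139
import Fermat.Agent.S55.KG.JH3H604
import Fermat.Agent.S55.KG.DictEffH543
import Fermat.Agent.S55.K.AR.KappaH501
import Fermat.Agent.S55.K.AR.DegMuH181
import Fermat.Agent.S55.LocalSpec.H964.Main

/-!
# S55, layer KG: the tower part for subgroups of index prime to `p` (LOC-free)

For `U ≤ G_ℚ` open of index prime to `p` the local classes required by the abstract Kummer machine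
come from reciprocity over `ℚ` alone (GD3):  `v ∈ H²(Gal(F/ℚ), J_p(F))` with `p v = 0`,
`j_*(v) ≠ 0` (`K.AR.H501.kappa`, `b = 1`; `p ∣` local degree at `p`: `K.AR.H181.decLeaf`), and
`y = res_H (incl_p)_* v`: if `j_* y = res_H (j_* v) = 0` then `[G : H] j_* v = 0`
(`T.H572.resIndex`), so `p ∣ [G : H]`.

* `towerKummerAt`       : the abstract machine for ONE open `U` (local classes as hypothesis);
* `localClasses_coprime`: the local classes for `U` of index prime to `p`;
* `towerKummer_coprime` : `colim H³(HU U F, E(F))[p] = 0`, `colim H²(HU U F, E(F)) ⊗ ℤ/p = 0`;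
* `eff_coprime`         : the same in the finite-level vocabulary of layer KL.

Only inputs: `JDivSpec` (leaf KG:J2), a good tower datum (`IsGoodFin`).      Owner: helper183.
-/

set_option autoImplicit false

open CategoryTheory groupCohomology

namespace Fermat.Agent.S55.KG

open Fermat.Agent.S55.Tow Fermat.Agent.S55.E1.Lim Fermat.Agent.S55.KL GTower.Mod

variable {S : Finset Nat.Primes}

/-- The local classes required by the abstract machine, for one subgroup `U`. -/
def HasLocalClassesAt (D : TowerDatum S) (p : ℕ) (U : Subgroup GQ) : Prop :=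
  ∀ L : Level S,
    ∃ (L' : Level S) (_ : L ≤ L')
      (y : groupCohomology (Rep.res (HU U L').subtype (Jtot L')) 2),
      p • y = 0 ∧
        (groupCohomology.map (MonoidHom.id ↥(HU U L'))
          ((Rep.resFunctor (HU U L').subtype).map (jTot D L')) 2).hom y ≠ 0

/-- **KG-TF for one `U`.**  The arithmetic of the `S`-units in the tower of `U`. -/
theorem towerKummerAt (hJ3 : JH3Spec) (hJ2 : JDivSpec) (hC1 : CH1Spec)
    (hC2 : CCycSpec) (hSes : SesSpec) (p : ℕ) (hp : p.Prime)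
    (hpS : (⟨p, hp⟩ : Nat.Primes) ∈ S) (hMu : ∃ L₀ : Level S, L₀.HasMu p)
    (D : TowerDatum S) (hD : D.IsGoodFin p) (U : Subgroup GQ) (hU : IsOpenS S U)
    (hloc : HasLocalClassesAt D p U) :
    (resU U (sysE S)).EvTors p 3 ∧ (resU U (sysE S)).EvDiv p 2 := by
  obtain ⟨L₀, hL₀⟩ := hMu
  have h7 : TrCompat D := @IsGoodMu.trCompat S D p hD.good
  have h7b : TrTrans D := @IsGoodMu.trTrans S D p hD.good
  have hlarge : ∀ L : Level S, ∃ L' : Level S, L ≤ L' ∧ ∀ L'' : Level S, L' ≤ L'' →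
      L''.HasMu p := fun L =>
    ⟨Fermat.Agent.S55.E1.H603.levelSup L L₀, Fermat.Agent.S55.E1.H603.le_levelSup_left L L₀,
      fun L'' h => Level.HasMu.mono
        ((Fermat.Agent.S55.E1.H603.le_levelSup_right L L₀).trans h) hL₀⟩
  refine absKummer (towerU U S) (towerU_directed U S) (fun L => towerU_finite U L)
    (resU U (sysE S)) (resU U (sysJ S)) (resU U (sysC1 D h7 h7b)) (resU U (sysC D h7b))
    (resUHom U (homDiag S)) (resUHom U (homJC1 D h7 h7b)) (resUHom U (homIncl D h7 h7b))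
    p hp ?_ (isCap_of hD U) ?_ (hJ2 S p hp hpS U hU) ?_ ?_ ?_
  · exact fun L => hSes S D h7 h7b ⟨_, hpS⟩ (IsGoodMu.kerDiag hD.good) L
  · intro L y _
    have hy : y = 0 := @Subsingleton.elim _ (hJ3 S L (HU U L)) y 0
    exact ⟨L, le_rfl, by rw [hy, map_zero]⟩
  · intro L
    obtain ⟨L', hLL', hL'⟩ := hlarge L
    exact ⟨L', hLL', fun L'' h c a hc =>
      hC1 S p D hp hD.good L'' (hL' L'' h) (HU U L'') c a hc⟩
  · intro L
    obtain ⟨L', hLL', hL'⟩ := hlarge L
    exact ⟨L', hLL', fun L'' h => hC2 S p D hp hD.good L'' (hL' L'' h) (HU U L'')⟩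
  · intro L
    obtain ⟨L', hLL', y, hy, hne⟩ := hloc L
    exact ⟨L', hLL', y, hy, hne⟩

/-! ## Local classes from reciprocity over `ℚ` -/

set_option backward.isDefEq.respectTransparency false in
/-- Restriction is natural in the coefficients. -/
theorem resMap_coeffMap_kg {Γ : Type} [Group Γ] {A B : Rep.{0} ℤ Γ} (f : A ⟶ B)
    (H : Subgroup Γ) (n : ℕ) (x : groupCohomology A n) :
    (T.coeffMap ((Rep.resFunctor H.subtype).map f) n).hom ((T.resMap A H n).hom x) =
      (T.resMap B H n).hom ((T.coeffMap f n).hom x) :=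
  (congrArg (fun φ => φ.hom x) ((resNatTrans (k := ℤ) H.subtype n).naturality f)).symm

/-- The index of the image of `U` in `Gal(F/ℚ)` divides the index of `U`. -/
lemma index_HU_dvd (U : Subgroup GQ) (L : Level S) : (HU U L).index ∣ U.index :=
  Subgroup.index_map_dvd U (QuotientGroup.mk'_surjective L.U)

/-- **KG-LOC, coprime form.**  For `U` of index prime to `p` the local classes exist, by
reciprocity over `ℚ` (GD3). -/
theorem localClasses_coprime (p : ℕ) (hp : p.Prime) (hp2 : p ≠ 2)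
    (hpS : (⟨p, hp⟩ : Nat.Primes) ∈ S) (D : TowerDatum S) (hD : D.IsGoodFin p)
    (hL : LocalSpec p) (U : Subgroup GQ) (hcop : Nat.Coprime U.index p) :
    HasLocalClassesAt D p U := by
  intro L
  have hadm : K.AR.Adm S p := ⟨hp, hp2, hpS⟩
  let c : K.AR.Ctx S p := ⟨D, hD, hadm⟩
  obtain ⟨⟨L₀, hL₀⟩, -⟩ := K.AR.H181.muDirLeaf S p hadm
  obtain ⟨L', hLL', hdeg⟩ := K.AR.H181.decLeaf S p hadm
    (Fermat.Agent.S55.E1.H603.levelSup L L₀) 1
  have hLL : L ≤ L' := (Fermat.Agent.S55.E1.H603.le_levelSup_left L L₀).trans hLL'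
  have hμ : L'.HasMu p :=
    Level.HasMu.mono ((Fermat.Agent.S55.E1.H603.le_levelSup_right L L₀).trans hLL') hL₀
  obtain ⟨v, hv, hord⟩ := K.AR.H501.kappa c hL L' hμ ⟨p, hp⟩ hpS 1 (hdeg _ hpS)
  rw [pow_one] at hv
  let q : S := ⟨⟨p, hp⟩, hpS⟩
  have hcomp : K.AR.inclJ L' q ≫ jTot D L' = D.j L' q.1 := by
    apply Rep.hom_ext
    apply DFunLike.ext
    intro x
    exact K.AR.jTot_inclJ D L' q x
  refine ⟨L', hLL, (T.resMap (Jtot L') (HU U L') 2).hom
    ((T.coeffMap (K.AR.inclJ L' q) 2).hom v), ?_, ?_⟩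
  · rw [← map_nsmul, ← map_nsmul, hv, map_zero, map_zero]
  · intro h0
    have h1 : (T.resMap (D.C L') (HU U L') 2).hom
        ((T.coeffMap (D.j L' q.1) 2).hom v) = 0 := by
      rw [← hcomp]
      have h2 : (T.coeffMap (K.AR.inclJ L' q ≫ jTot D L') 2).hom v =
          (T.coeffMap (jTot D L') 2).hom ((T.coeffMap (K.AR.inclJ L' q) 2).hom v) := by
        show (groupCohomology.map (MonoidHom.id _) (K.AR.inclJ L' q ≫ jTot D L') 2).hom v = _
        rw [groupCohomology.map_id_comp]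
        rfl
      rw [h2, ← resMap_coeffMap_kg]
      exact h0
    haveI : Finite L'.Gal := Level.finiteGal L'
    have h3 : (HU U L').index • (T.coeffMap (D.j L' q.1) 2).hom v = 0 :=
      T.H572.resIndex ℤ L'.Gal (D.C L') (HU U L') 2 (by norm_num) _ h1
    have h4 : p ^ 1 ∣ (HU U L').index := hord _ h3
    rw [pow_one] at h4
    have h5 : p ∣ U.index := h4.trans (index_HU_dvd U L')
    have h6 : p ∣ 1 := by
      have := Nat.dvd_gcd h5 (dvd_refl p)
      rwa [Nat.Coprime.gcd_eq_one hcop] at this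
    exact hp.one_lt.ne' (Nat.dvd_one.1 h6)

/-- **KG-TF, coprime form**: from `JDivSpec` and a good tower datum. -/
theorem towerKummer_coprime (hJ2 : JDivSpec) (p : ℕ) (hp : p.Prime) (hp2 : p ≠ 2)
    (hpS : (⟨p, hp⟩ : Nat.Primes) ∈ S) (hG : GlobalSpecFin S p) (U : Subgroup GQ)
    (hU : IsOpenS S U) (hcop : Nat.Coprime U.index p) :
    (resU U (sysE S)).EvTors p 3 ∧ (resU U (sysE S)).EvDiv p 2 := by
  obtain ⟨D, hD⟩ := hG
  have hadm : K.AR.Adm S p := ⟨hp, hp2, hpS⟩
  exact towerKummerAt H604.jH3 hJ2 H139.cH1 H139.cCyc H721.ses p hp hpS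
    (K.AR.H181.muDirLeaf S p hadm).1 D hD U hU
    (localClasses_coprime p hp hp2 hpS D hD
      (Fermat.Agent.S55.LocalSpec.H964.localSpec p hp.ne_zero) U hcop)

/-- **GO1 + GO2 for the open subgroups of index prime to `p`**, in the finite-level vocabulary of
layer KL, for the smooth `S`-units. -/
theorem eff_coprime (hJ2 : JDivSpec) (p : ℕ) (hp : p.Prime) (hp2 : p ≠ 2)
    (hpS : (⟨p, hp⟩ : Nat.Primes) ∈ S) (hG : GlobalSpecFin S p) (U : Subgroup GQ)
    (hU : (globNLevels S).IsOpen U) (hcop : Nat.Coprime U.index p) :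
    EffTors ((globNLevels S).restrict U) (Rep.res U.subtype (sUnitsSm S)) p 3 ∧
      EffDiv ((globNLevels S).restrict U) (Rep.res U.subtype (sUnitsSm S)) p 2 := by
  have hU' : IsOpenS S U := by
    obtain ⟨W, ⟨L, rfl⟩, hW⟩ := hU
    exact ⟨L, hW⟩
  obtain ⟨h3, h2⟩ := towerKummer_coprime hJ2 p hp hp2 hpS hG U hU' hcop
  exact ⟨(H543.dictEff S p 3 U hU').1 h3, (H543.dictEff S p 2 U hU').2 h2⟩

end Fermat.Agent.S55.KG
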