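import Fermat.Agent.S55.KG.Abs
import Fermat.Agent.S55.E1.Lim.Obj
import Fermat.Agent.S55.E1.H603.FinLevelH1
import Fermat.Agent.S55.Spec.Datum3

/-!
# S55, layer KG (global Kummer hypotheses): the concrete towers          (architect: helper183)

* `towerQ S`   : the tower of all levels, `G L = Gal(F/ℚ)`;
* `towerU U S` : the tower of a subgroup `U ≤ G_ℚ`, `G L = HU U L` = image of `U` in `Gal(F/ℚ)`
  (`= Gal(F/F ∩ K)`, `K` the fixed field of `U`);
* `resU U X`   : restriction of a system of modules over `towerQ S` to `towerU U S`;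
* the systems `sysE` (`S`-units), `sysJ` (`∏_{q ∈ S} J_q`), `sysC D` (class modules of a tower
  datum), `sysC1 D` (`C' = im(J → C)`) and the morphisms `E → J → C' → C`.

No `sorry`.  Objects at finite level are those of `E1/Lim/Obj.lean` (helper474).
-/

set_option autoImplicit false

open CategoryTheory groupCohomology

namespace Fermat.Agent.S55.KG

open Fermat.Agent.S55.Tow Fermat.Agent.S55.E1.Lim

noncomputable section

variable {S : Finset Nat.Primes}

/-! ## Towers -/

lemma proj_proj {L L' L'' : Level S} (h : L ≤ L') (h' : L' ≤ L'') (g : L''.Gal) :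
    Level.proj h (Level.proj h' g) = Level.proj (h.trans h') g := by
  induction g using QuotientGroup.induction_on with
  | H g => rfl

/-- The tower of all levels: `G L = Gal(F/ℚ)`. -/
@[reducible] def towerQ (S : Finset Nat.Primes) : GTower where
  ι := Level S
  pre := inferInstance
  G L := L.Gal
  grp _ := inferInstance
  π h := Level.proj h
  π_trans h h' g := proj_proj h h' g

/-- The image of `U ≤ G_ℚ` in `Gal(F/ℚ)`. -/
def HU (U : Subgroup GQ) (L : Level S) : Subgroup L.Gal := U.map (QuotientGroup.mk' L.U)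

lemma proj_mem_HU (U : Subgroup GQ) {L L' : Level S} (h : L ≤ L') {x : L'.Gal}
    (hx : x ∈ HU U L') : Level.proj h x ∈ HU U L := by
  obtain ⟨u, hu, rfl⟩ := hx
  exact ⟨u, hu, rfl⟩

/-- The projection `HU U L' → HU U L` for `L ≤ L'`. -/
def projU (U : Subgroup GQ) {L L' : Level S} (h : L ≤ L') : ↥(HU U L') →* ↥(HU U L) :=
  ((Level.proj h).comp (HU U L').subtype).codRestrict (HU U L) (fun x => proj_mem_HU U h x.2)

@[simp] lemma projU_coe (U : Subgroup GQ) {L L' : Level S} (h : L ≤ L') (x : ↥(HU U L')) :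
    ((projU U h x : ↥(HU U L)) : L.Gal) = Level.proj h (x : L'.Gal) := rfl

/-- The tower of a subgroup `U ≤ G_ℚ`: `G L = HU U L`. -/
@[reducible] def towerU (U : Subgroup GQ) (S : Finset Nat.Primes) : GTower where
  ι := Level S
  pre := inferInstance
  G L := ↥(HU U L)
  grp _ := inferInstance
  π h := projU U h
  π_trans h h' g := Subtype.ext (proj_proj h h' (g : _))

lemma towerQ_directed (S : Finset Nat.Primes) : (towerQ S).Directed := fun L L' =>
  ⟨Fermat.Agent.S55.E1.H603.levelSup L L', Fermat.Agent.S55.E1.H603.le_levelSup_left L L',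
    Fermat.Agent.S55.E1.H603.le_levelSup_right L L'⟩

lemma towerU_directed (U : Subgroup GQ) (S : Finset Nat.Primes) : (towerU U S).Directed :=
  fun L L' =>
  ⟨Fermat.Agent.S55.E1.H603.levelSup L L', Fermat.Agent.S55.E1.H603.le_levelSup_left L L',
    Fermat.Agent.S55.E1.H603.le_levelSup_right L L'⟩

instance towerU_finite (U : Subgroup GQ) (L : Level S) : Finite ((towerU U S).G L) :=
  inferInstanceAs (Finite ↥(HU U L))

/-! ## Restriction of systems to the tower of `U` -/

/-- Restriction of a system of modules over `towerQ S` to `towerU U S`. -/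
def resU (U : Subgroup GQ) (X : (towerQ S).Mod) : (towerU U S).Mod where
  M L := Rep.res (HU U L).subtype (X.M L)
  t {L L'} h := semiOfAdd (projU U h) (A := Rep.res (HU U L).subtype (X.M L))
    (B := Rep.res (HU U L').subtype (X.M L'))
    (AddMonoidHomClass.toAddMonoidHom (X.t h).hom)
    (fun g a => Rep.hom_comm_apply (X.t h) (g : L'.Gal) a)
  t_trans h h' x := X.t_trans h h' x

/-- Restriction of a morphism of systems. -/
def resUHom (U : Subgroup GQ) {X Y : (towerQ S).Mod} (φ : GTower.Mod.Hom X Y) :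
    GTower.Mod.Hom (resU U X) (resU U Y) where
  f L := (Rep.resFunctor (HU U L).subtype).map (φ.f L)
  comm h x := φ.comm h x

/-! ## The systems `E`, `J`, `C'`, `C` -/

/-- The `S`-units `E(F)`. -/
def sysE (S : Finset Nat.Primes) : (towerQ S).Mod where
  M L := sUnits L
  t h := trS h
  t_trans _ _ _ := rfl

/-- The semi-local units `J(F) = ∏_{q ∈ S} J_q(F)`. -/
def sysJ (S : Finset Nat.Primes) : (towerQ S).Mod where
  M L := Jtot L
  t h := trJtot h
  t_trans h h' x := by
    apply piRep_ext
    intro q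
    apply Level.J_ext
    intro g
    show Level.inclLoc h' q.1 (Level.inclLoc h q.1
        ((piTo x q).1 (Level.proj h (Level.proj h' g)))) =
      Level.inclLoc (h.trans h') q.1 ((piTo x q).1 (Level.proj (h.trans h') g))
    rw [proj_proj]
    rfl

/-- The diagonal `E → J`. -/
def homDiag (S : Finset Nat.Primes) : GTower.Mod.Hom (sysE S) (sysJ S) where
  f L := diagTot L
  comm {L L'} h x := by
    apply piRep_ext
    intro q
    apply Level.J_ext
    intro g
    induction g using QuotientGroup.induction_on with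
    | H g => rfl

/-- Transitivity of the transition maps of a tower datum (GD7b). -/
def TrTrans (D : TowerDatum S) : Prop :=
  ∀ {L L' L'' : Level S} (h : L ≤ L') (h' : L' ≤ L'') (c : (D.C L).V),
    (D.tr h').hom ((D.tr h).hom c) = (D.tr (h.trans h')).hom c

/-- The class modules `C(F)` of a tower datum. -/
def sysC (D : TowerDatum S) (h7b : TrTrans D) : (towerQ S).Mod where
  M L := D.C L
  t h := D.tr h
  t_trans h h' c := h7b h h' c

/-- `C'(F) = im(J(F) → C(F))`. -/
def sysC1 (D : TowerDatum S) (h7 : TrCompat D) (h7b : TrTrans D) : (towerQ S).Mod where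
  M L := C1 D L
  t h := trC1 h7 h
  t_trans h h' c := inclC1_injective D _ (h7b h h' ((inclC1 D _).hom c))

/-- `J → C'`. -/
def homJC1 (D : TowerDatum S) (h7 : TrCompat D) (h7b : TrTrans D) :
    GTower.Mod.Hom (sysJ S) (sysC1 D h7 h7b) where
  f L := jC1 D L
  comm h x := trC1_jC1 h7 h x

/-- `C' → C`. -/
def homIncl (D : TowerDatum S) (h7 : TrCompat D) (h7b : TrTrans D) :
    GTower.Mod.Hom (sysC1 D h7 h7b) (sysC D h7b) where
  f L := inclC1 D L
  comm h c := (inclC1_trC1 h7 h c).symm

/-- `J → C`. -/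
def homJC (D : TowerDatum S) (h7 : TrCompat D) (h7b : TrTrans D) :
    GTower.Mod.Hom (sysJ S) (sysC D h7b) :=
  (homJC1 D h7 h7b).comp (homIncl D h7 h7b)

lemma homJC_f (D : TowerDatum S) (h7 : TrCompat D) (h7b : TrTrans D) (L : Level S) :
    (homJC D h7 h7b).f L = jTot D L := rfl

lemma IsGoodMu.trCompat {D : TowerDatum S} {p : ℕ} (hD : D.IsGoodMu p) : TrCompat D :=
  fun h q hq x => hD.gd7a h q hq x

lemma IsGoodMu.trTrans {D : TowerDatum S} {p : ℕ} (hD : D.IsGoodMu p) : TrTrans D :=
  fun h h' c => hD.gd7b h h' c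

lemma IsGoodMu.kerDiag {D : TowerDatum S} {p : ℕ} (hD : D.IsGoodMu p) : KerDiag D :=
  fun L x => hD.gd4 L x

/-- `U` is open for the `S`-topology: it contains `Gal(ℚ̄/F)` for some level `F`. -/
def IsOpenS (S : Finset Nat.Primes) (U : Subgroup GQ) : Prop := ∃ L : Level S, L.U ≤ U

end

end Fermat.Agent.S55.KG
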