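import Fermat.Agent.S55.KG.Spec
import Fermat.Agent.S55.KG.JDivCoreH604
import Fermat.Agent.S55.K.AR.DegMuH181
import Fermat.Agent.S55.T.CoresH572

/-!
# S55, layer KG, leaf KG-J2 (helper604): semi-local `p`-divisibility in the tower

`jDiv : JDivSpec`.  For `p ∈ S`, `U` open and `x ∈ H²(HU U L, J(F))`: `x` is killed by
`m = |HU U L|`; the `p`-parts of the local degrees are unbounded in the tower (cyclotomic levels,
helper181 / helper824 / helper414), and `[Gal(F'/ℚ) : HU U L'] ≤ [G_ℚ : U]`; at a level `L'` whose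
local degrees are divisible by `p^(m + [G_ℚ : U])` every class of `H²(HU U L', J(F'))` killed by
`m` is divisible by `p` (`jDivCore`).
-/

set_option autoImplicit false

open CategoryTheory groupCohomology

namespace Fermat.Agent.S55.KG.H604

open Fermat.Agent.S55 Fermat.Agent.S55.Tow Fermat.Agent.S55.E1.Lim ExtCitation

variable {S : Finset Nat.Primes}

/-- The `p`-parts of the local degrees are unbounded in the tower, for every prime `p ∈ S`. -/
theorem decUnbounded (p : ℕ) (hp : p.Prime) (hpS : (⟨p, hp⟩ : Nat.Primes) ∈ S) (L : Level S)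
    (m : ℕ) : ∃ L' : Level S, L ≤ L' ∧ ∀ q ∈ S, p ^ m ∣ Nat.card (L'.Dec q) := by
  have : Fact p.Prime := ⟨hp⟩
  have hpS' : pPrime p ∈ S := hpS
  choose j hj using fun q : Nat.Primes => K.AR.H181.exists_pow_dvd_index p q m
  refine ⟨E1.H603.levelSup L (K.AR.H181.cycLevel S p hpS' (S.sup j)),
    E1.H603.le_levelSup_left _ _, fun q hq => ?_⟩
  have hle : (E1.H603.levelSup L (K.AR.H181.cycLevel S p hpS' (S.sup j))).V q ≤
      (H414.cycloLevel (p ^ j q)).fixingSubgroup.comap (locQ q) := by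
    apply Subgroup.comap_mono
    apply IntermediateField.fixingSubgroup_antitone
    exact (K.AR.H181.cycloLevel_mono p (Finset.le_sup hq)).trans
      (le_sup_right : H414.cycloLevel (p ^ S.sup j) ≤ L.F ⊔ H414.cycloLevel (p ^ S.sup j))
  have h1 := Subgroup.index_dvd_of_le hle
  rw [← Subgroup.index_eq_card]
  exact (hj q).trans h1

/-- `[Gal(F/ℚ) : HU U L]` divides `[G_ℚ : U]`. -/
theorem index_HU_dvd (U : Subgroup GQ) (L : Level S) : (HU U L).index ∣ U.index :=
  Subgroup.index_map_dvd U (QuotientGroup.mk'_surjective L.U)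

/-- An `S`-open subgroup has finite index. -/
theorem index_ne_zero_of_isOpenS (U : Subgroup GQ) (hU : IsOpenS S U) : U.index ≠ 0 := by
  obtain ⟨L₀, hL₀⟩ := hU
  have h1 : L₀.U.index ≠ 0 := by
    rw [Subgroup.index_eq_card]
    exact Nat.card_pos.ne'
  exact fun h0 => h1 (Nat.eq_zero_of_zero_dvd (h0 ▸ Subgroup.index_dvd_of_le hL₀))

/-- **KG-J2.** -/
theorem jDiv : JDivSpec := by
  intro S p hp hpS U hU L x
  have hm0 : 0 < Nat.card ↥(HU U L) := Nat.card_pos
  have hx : Nat.card ↥(HU U L) • x = 0 :=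
    T.H572.cardTorsion ℤ ↥(HU U L) (Rep.res (HU U L).subtype (Jtot L)) 2 (by norm_num) x
  have hr0 : U.index ≠ 0 := index_ne_zero_of_isOpenS U hU
  have hidx : ∀ L' : Level S, (HU U L').index ≤ p ^ U.index := fun L' =>
    (Nat.le_of_dvd (Nat.pos_of_ne_zero hr0) (index_HU_dvd U L')).trans
      (Nat.lt_pow_self hp.one_lt).le
  have hK : ¬ p ^ Nat.card ↥(HU U L) ∣ Nat.card ↥(HU U L) := fun h =>
    absurd (Nat.le_of_dvd hm0 h) (not_le.2 (Nat.lt_pow_self hp.one_lt))
  obtain ⟨L', hLL', hdec⟩ := decUnbounded p hp hpS L (Nat.card ↥(HU U L) + U.index)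
  have hy : Nat.card ↥(HU U L) • ((resU U (sysJ S)).infl hLL' 2).hom x = 0 := by
    rw [← map_nsmul, hx, map_zero]
  obtain ⟨w, hw⟩ := jDivCore L' (HU U L') p hp (Nat.card ↥(HU U L)) (Nat.card ↥(HU U L))
    U.index hK (hidx L') hdec _ hy
  exact ⟨L', hLL', w, hw⟩

end Fermat.Agent.S55.KG.H604
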