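/-
S55, layer KG (global Kummer hypotheses), leaf KG:LOC (subtask 619, helper775).

    hasLocalClasses_of : p ∈ S → SemiLocalInv p → KerJSpec p I → (GAD.datum S p).HasLocalClasses p
    globalInput_of     : (7 leaves of GAD/Spec) → … → KG.GlobalInputSpec S p

* `exists_level_card_eq` (arithmetic, UNCONDITIONAL): for `p ∈ S`, `U ≤ G_ℚ` open and a level
  `L` there are a level `L' ≥ L` and a subgroup `Z ≤ HU U L'` of order `p` fixing a prime of
  `L'.F` above `p`.  (`L' ⊇ ℚ(ζ_{p^n})`, `n ≫ 0`: the local degree at `p` is divisible by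
  `p ^ k > [G_ℚ : U]`, helper414's CYC-INF; Cauchy in the image of `D_p ∩ U`.)
* `locClass` of the semilocal invariants gives `y ∈ H²(HU U L', J_S(L'))`, `p y = 0`, with
  invariant of exact order `p`; by `KerJSpec` its image in `H²(HU U L', C_S(L'))` is non-zero.
* transport to the tower datum along the J-bridge `Ψ = (jTow q)_q` and `cIso` (helper897).
-/
import Fermat.Agent.S55.KG.Spec
import Fermat.Agent.S55.G.Rec.Tow.Spec
import Fermat.Agent.S55.GAD.TransH897
import Fermat.Agent.S55.GAD.TorsH55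
import Fermat.Agent.S55.H414.CycloMain
import Fermat.Agent.S55.Bridge.PlacePrime
import Fermat.Agent.S55.Bridge.H175.DecompLevel

set_option autoImplicit false
set_option linter.style.haveILetI false
set_option linter.unusedSectionVars false

open CategoryTheory groupCohomology
open scoped NumberField Pointwise

noncomputable section

namespace Fermat.Agent.S55.KG.H775

open Fermat.Agent.S55 Fermat.Agent.S55.Tow Fermat.Agent.S55.E1.Lim Fermat.Agent.S55.E1.H594
open IsDedekindDomain ExtCitation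

local notation "Qb" => AlgebraicClosure ℚ

variable {S : Finset Nat.Primes}

/-! ## 1. Arithmetic: a subgroup of order `p` in a decomposition group above `p` -/

/-- Elements of the decomposition group of a place `A` of `ℚ̄` fix the prime of a level
below `A`. -/
theorem primeSMul_placePrime775 (L : Level S) (A : ValuationSubring Qb) {q : ℕ} (hq : q.Prime)
    (hA : A.LiesOverPrime q) {σ : Tow.GQ} (hσ : σ ∈ A.decompositionSubgroup ℚ) :
    G.primeSMul L.Gal (QuotientGroup.mk σ : L.Gal) (Bridge.placePrime L.F A hq hA) =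
      Bridge.placePrime L.F A hq hA := by
  apply HeightOneSpectrum.ext
  apply Ideal.ext
  intro x
  rw [G.mem_primeSMul_iff]
  show algebraMap (𝓞 L.F) Qb ((QuotientGroup.mk σ : L.Gal)⁻¹ • x) ∈ A.nonunits ↔
    algebraMap (𝓞 L.F) Qb x ∈ A.nonunits
  have h1 : algebraMap (𝓞 L.F) Qb ((QuotientGroup.mk σ : L.Gal)⁻¹ • x) =
      σ⁻¹ (algebraMap (𝓞 L.F) Qb x) :=
    level_mk_smul L σ⁻¹ (x : L.F)
  rw [h1]
  have hσ' : σ⁻¹ ∈ A.decompositionSubgroup ℚ := (A.decompositionSubgroup ℚ).inv_mem hσ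
  have h : σ⁻¹ • A = A := hσ'
  refine Bridge.H175.apply_mem_nonunits_iff A σ⁻¹ (fun y => ?_) _
  have h2 : σ⁻¹ • y ∈ σ⁻¹ • A ↔ y ∈ A := ValuationSubring.smul_mem_pointwise_smul_iff
  rw [h] at h2
  exact h2

/-- The level of `ℚ(ζ_{p^n})`-type: any finite Galois `F/ℚ` unramified outside `S`. -/
theorem exists_level_card_eq (p : ℕ) (hp : p.Prime) (hpS : (⟨p, hp⟩ : Nat.Primes) ∈ S)
    (U : Subgroup Tow.GQ) (hU : IsOpenS S U) (L : Level S) :
    ∃ (L' : Level S) (_ : L ≤ L') (Z : Subgroup L'.Gal),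
      Z ≤ HU U L' ∧ Nat.card Z = p ∧ G.Rec.TOW.FixesPrimeAbove L' ⟨p, hp⟩ Z := by
  haveI : Fact p.Prime := ⟨hp⟩
  obtain ⟨L₀, hL₀⟩ := hU
  set r : Nat.Primes := ⟨p, hp⟩ with hr
  set D : Subgroup Tow.GQ := (primeLocalToGlobal r).range with hD
  -- `U` has finite index
  haveI : L₀.U.FiniteIndex := by
    haveI : Finite (Tow.GQ ⧸ L₀.U) := Level.finiteGal L₀
    exact Subgroup.finiteIndex_of_finite_quotient
  haveI hUfi : U.FiniteIndex := Subgroup.finiteIndex_of_le hL₀
  set d : ℕ := U.index with hd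
  have hd0 : d ≠ 0 := Subgroup.FiniteIndex.index_ne_zero
  -- a cyclotomic level with local degree divisible by `p ^ d`
  obtain ⟨F₁, hF₁, hgal, -, hdiv⟩ :=
    H414.exists_level_forall_pow_dvd_relIndex p S hpS {r} d
  have hdiv1 : p ^ d ∣ F₁.fixingSubgroup.relIndex D := hdiv r (Finset.mem_singleton_self r)
  set L₁ : Level S := E1.H603.levelOfGalois F₁ hF₁ hgal with hL₁
  set L' : Level S := E1.H603.levelSup (E1.H603.levelSup L L₀) L₁ with hL'
  have hLL' : L ≤ L' :=
    (E1.H603.le_levelSup_left L L₀).trans (E1.H603.le_levelSup_left _ L₁)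
  have hL₀L' : L₀ ≤ L' :=
    (E1.H603.le_levelSup_right L L₀).trans (E1.H603.le_levelSup_left _ L₁)
  have hL₁L' : L₁ ≤ L' := E1.H603.le_levelSup_right _ L₁
  have hNU : L'.U ≤ U := (Level.U_anti hL₀L').trans hL₀
  have hdiv2 : p ^ d ∣ L'.U.relIndex D :=
    hdiv1.trans (H414.relIndex_fixingSubgroup_dvd_of_le hL₁L' D)
  -- `[D : D ∩ N] = [D ∩ U : D ∩ N] · [D : D ∩ U]`
  have hmul : L'.U.relIndex (U ⊓ D) * U.relIndex D = L'.U.relIndex D := by
    rw [Subgroup.relIndex_inf_mul_relIndex, inf_of_le_left hNU]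
  have hb0 : U.relIndex D ≠ 0 := by
    intro h0
    exact hd0 (by
      have := Subgroup.relIndex_eq_zero_of_le_right (le_top : D ≤ ⊤) h0
      rwa [Subgroup.relIndex_top_right] at this)
  have hble : U.relIndex D ≤ d := by
    have := Subgroup.relIndex_le_of_le_right (H := U) (le_top : D ≤ ⊤)
      (by rw [Subgroup.relIndex_top_right]; exact hd0)
    rwa [Subgroup.relIndex_top_right] at this
  have hpa : p ∣ L'.U.relIndex (U ⊓ D) := by
    by_contra hnot
    have hcop : Nat.Coprime (p ^ d) (L'.U.relIndex (U ⊓ D)) :=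
      Nat.Coprime.pow_left d ((Nat.Prime.coprime_iff_not_dvd hp).2 hnot)
    have h1 : p ^ d ∣ U.relIndex D := by
      rw [← hmul] at hdiv2
      exact hcop.dvd_of_dvd_mul_left hdiv2
    have h2 : p ^ d ≤ U.relIndex D := Nat.le_of_dvd (Nat.pos_of_ne_zero hb0) h1
    have h3 : d < p ^ d := Nat.lt_pow_self hp.one_lt
    omega
  -- the image of `D ∩ U` in `Gal(F'/ℚ)`
  set W : Subgroup L'.Gal := (U ⊓ D).map (QuotientGroup.mk' L'.U) with hW
  have hcardW : Nat.card W = L'.U.relIndex (U ⊓ D) := by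
    rw [hW, ← Subgroup.relIndex_ker, QuotientGroup.ker_mk']
  haveI : Finite L'.Gal := Level.finiteGal L'
  obtain ⟨x, hx⟩ := exists_prime_orderOf_dvd_card' (G := ↥W) p (by rw [hcardW]; exact hpa)
  have hxW : (x : L'.Gal) ∈ W := x.2
  refine ⟨L', hLL', Subgroup.zpowers (x : L'.Gal), ?_, ?_, ?_⟩
  · rw [Subgroup.zpowers_le]
    obtain ⟨σ, hσ, hσx⟩ := hxW
    exact ⟨σ, hσ.1, hσx⟩
  · rw [Nat.card_zpowers, Subgroup.orderOf_coe, hx]
  · have hA : (primeLocalPlace r).LiesOverPrime p := BLocal.primeLocalPlace_liesOver r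
    refine ⟨Bridge.placePrime L'.F (primeLocalPlace r) hp hA,
      Bridge.H594.natCast_mem_primeBelowF L'.F (primeLocalPlace r) hA, fun z hz => ?_⟩
    have hzW : z ∈ W := (Subgroup.zpowers_le.2 hxW) hz
    obtain ⟨σ, hσ, rfl⟩ := hzW
    have hσD : σ ∈ (primeLocalPlace r).decompositionSubgroup ℚ := by
      rw [← BLocal.range_primeLocalToGlobal]
      exact hσ.2
    exact primeSMul_placePrime775 L' (primeLocalPlace r) hp hA hσD

/-! ## 2. Transport: layer-G model → tower datum -/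

open Fermat.Agent.S55.G.LocH897 in
/-- The J-bridge `Ψ_L = (jTow L q)_q : J_S(F) ⟶ ∏_{q ∈ S} J_q(F)`. -/
def psiTot (L : Level S) : G.JRep L.Gal S L.F ⟶ Jtot L :=
  piLift (fun q : S => jTow L q)

/-- The structure map `J → C` of the concrete tower datum, with target `GAD.CT L`. -/
def jTotT (p : ℕ) (L : Level S) : Jtot L ⟶ GAD.CT L := jTot (GAD.datum S p) L

open Fermat.Agent.S55.G.LocH897 in
/-- `jTot ∘ Ψ = Φ ∘ j`: the structure map of the tower datum corresponds to `J_S → C_S`. -/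
theorem psiTot_jTot (p : ℕ) (L : Level S) :
    psiTot L ≫ jTotT p L = G.jToCRepHom S L.Gal L.F ≫ (GAD.H897.cIso L).hom := by
  ext b
  have h1 : (jTot (GAD.datum S p) L).hom ((psiTot L).hom b) =
      GAD.mkC L (fun q => (jTow L q).hom b, 0) := by
    rw [jTot_apply]
    exact GAD.sum_jT L (fun q => (jTow L q).hom b)
  exact h1.trans (GAD.H897.cIso_jToC L b).symm

/-- Transport of a class with non-zero image. -/
theorem exists_class_of_lvl (p : ℕ) (L : Level S) (H : Subgroup L.Gal)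
    (y : groupCohomology (T.resSub (G.Rec.TOW.lvlJ L) H) 2) (hy : p • y = 0)
    (hne : G.Rec.TOW.h2Sub (G.Rec.TOW.lvlj L) H y ≠ 0) :
    ∃ y' : groupCohomology (Rep.res H.subtype (Jtot L)) 2, p • y' = 0 ∧
      (groupCohomology.map (MonoidHom.id ↥H)
        ((Rep.resFunctor H.subtype).map (jTot (GAD.datum S p) L)) 2).hom y' ≠ 0 := by
  set f1 := (Rep.resFunctor H.subtype).map (psiTot L) with hf1
  set g1 := (Rep.resFunctor H.subtype).map (jTotT p L) with hg1
  set f2 := (Rep.resFunctor H.subtype).map (G.jToCRepHom S L.Gal L.F) with hf2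
  set g2 := (Rep.resFunctor H.subtype).map (GAD.H897.cIso L).hom with hg2
  have hfg : f1 ≫ g1 = f2 ≫ g2 := by
    rw [hf1, hg1, hf2, hg2, ← Functor.map_comp, ← Functor.map_comp, psiTot_jTot]
  refine ⟨(T.coeffMap f1 2).hom y, ?_, ?_⟩
  · rw [← map_nsmul, hy, map_zero]
  · intro h0
    apply hne
    have h1 : (T.coeffMap g1 2).hom ((T.coeffMap f1 2).hom y) = 0 := h0
    rw [T.H635.coeffMap_comp_apply, hfg, ← T.H635.coeffMap_comp_apply] at h1
    -- `Φ_*` is injective
    have h2 := congrArg (fun φ => φ.hom ((T.coeffMap f2 2).hom y))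
      (GAD.H897.cohIso L H 2).hom_inv_id
    have h3 : (GAD.H897.cohIso L H 2).inv.hom ((T.coeffMap g2 2).hom ((T.coeffMap f2 2).hom y)) =
        (T.coeffMap f2 2).hom y := h2
    show (T.coeffMap f2 2).hom y = 0
    rw [← h3, h1, map_zero]

/-! ## 3. KG:LOC -/

/-- **KG-LOC.**  The concrete tower datum has local classes, from the semilocal invariants of
REC2-TOW (`locClass`) and reciprocity in the form `KerJSpec`. -/
theorem hasLocalClasses_of (p : ℕ) (hp : p.Prime) (hpS : (⟨p, hp⟩ : Nat.Primes) ∈ S)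
    (I : G.Rec.TOW.SemiLocalInv p) (hK : G.Rec.TOW.KerJSpec p I) :
    (GAD.datum S p).HasLocalClasses p := by
  intro U hU L
  obtain ⟨L', hLL', Z, hZH, hZcard, hZfix⟩ := exists_level_card_eq p hp hpS U hU L
  haveI : Fact p.Prime := ⟨hp⟩
  have hZp : IsPGroup p Z := IsPGroup.of_card (n := 1) (by rw [hZcard, pow_one])
  obtain ⟨y, hy, hyord⟩ := I.locClass L' ⟨p, hp⟩ hpS (HU U L') Z hZH hZp hZfix
  rw [hZcard] at hy hyord
  have hne : G.Rec.TOW.h2Sub (G.Rec.TOW.lvlj L') (HU U L') y ≠ 0 := by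
    intro h0
    have hσ := hK S ⟨_, hpS⟩ L' (HU U L') y ⟨1, by rw [pow_one]; exact hy⟩ h0
    have h1 : p ∣ 1 := hyord 1 (by rw [one_smul]; exact hσ)
    exact hp.one_lt.ne' (Nat.dvd_one.1 h1)
  obtain ⟨y', hy', hne'⟩ := exists_class_of_lvl p L' (HU U L') y hy hne
  exact ⟨L', hLL', y', hy', hne'⟩

/-- **KG-LOC, packaged**: `GlobalInputSpec` from the seven leaves of the G-ADAPTER and the
semilocal invariants with reciprocity. -/
theorem globalInput_of (p : ℕ) (hp : p.Prime) (hpS : (⟨p, hp⟩ : Nat.Primes) ∈ S)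
    (hSU : GAD.SUnitDictSpec S) (hTr : GAD.DivTrTransSpec S)
    (hCap : GAD.CapitulationSpec S p) (hEx : GAD.ExistenceSpec S p)
    (hCM : GAD.ClassModuleSpec S p) (hJ : GAD.JInjSpec S p) (hInf : GAD.InfInjSpec S p)
    (I : G.Rec.TOW.SemiLocalInv p) (hK : G.Rec.TOW.KerJSpec p I) :
    GlobalInputSpec S p :=
  ⟨GAD.datum S p, GAD.H55.isGoodFin_of hSU hTr hCap hEx hCM hJ hInf,
    hasLocalClasses_of p hp hpS I hK⟩

end Fermat.Agent.S55.KG.H775

end
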